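import Mathlib
import Fermat.Agent.S24.TaylorCay
import Fermat.Agent.S24.JAnalytic

/-!
# RR / R4 (modular dictionary), part 1: orders of vanishing on the upper half plane

* `Fermat.Agent.RR.ordAt F τ`: the order of vanishing of `F : ℍ → ℂ` at `τ`
  (`analyticOrderAt (F ∘ ofComplex) τ`), with its calculus (`ordAt_mul`, `ordAt_pow`, ...).
* `order_taylorCay`: the order of the Taylor series in the Cayley coordinate is `ordAt`.
* `exists_mdiff_mul_eq_of_ordAt_le`: local-to-global division of holomorphic functions on `ℍ`.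
* `jDeriv = E₄² E₆ / Δ` (the derivative of `j` up to the factor `-2πi`) and
  `ordAt_jFun_sub`: `ord_τ₀ (j - j(τ₀)) = ord_τ₀ (jDeriv) + 1`.
-/

set_option autoImplicit false

open UpperHalfPlane Complex Filter Topology ModularForm EisensteinSeries
open scoped Manifold MatrixGroups

namespace Fermat.Agent.RR

open Fermat.Agent.S24

namespace HolOrder

theorem isOpen_upper : IsOpen {z : ℂ | 0 < z.im} :=
  isOpen_lt continuous_const Complex.continuous_im

theorem analyticAt_comp_ofComplex {F : ℍ → ℂ} (hF : MDiff F) (τ : ℍ) :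
    AnalyticAt ℂ (F ∘ ofComplex) (τ : ℂ) :=
  (UpperHalfPlane.mdifferentiable_iff.mp hF).analyticAt (isOpen_upper.mem_nhds τ.im_pos)

theorem analyticOnNhd_comp_ofComplex {F : ℍ → ℂ} (hF : MDiff F) :
    AnalyticOnNhd ℂ (F ∘ ofComplex) {z : ℂ | 0 < z.im} :=
  (UpperHalfPlane.mdifferentiable_iff.mp hF).analyticOnNhd isOpen_upper

/-- Division of analytic functions on an open subset of the plane, given the inequality of the
orders of vanishing at every point. -/
theorem exists_analyticOnNhd_mul_eq {Ω : Set ℂ} (hΩ : IsOpen Ω) (u v : ℂ → ℂ)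
    (hu : AnalyticOnNhd ℂ u Ω) (hv : AnalyticOnNhd ℂ v Ω)
    (hfin : ∀ z ∈ Ω, analyticOrderAt v z ≠ ⊤)
    (h : ∀ z ∈ Ω, analyticOrderAt v z ≤ analyticOrderAt u z) :
    ∃ f : ℂ → ℂ, AnalyticOnNhd ℂ f Ω ∧ ∀ z ∈ Ω, f z * v z = u z := by
  classical
  -- local quotients
  have hloc : ∀ z ∈ Ω, ∃ φ : ℂ → ℂ, AnalyticAt ℂ φ z ∧ ∀ᶠ w in 𝓝 z, φ w * v w = u w := by
    intro z hz
    obtain ⟨g, hg, hg0, hvg⟩ := ((hv z hz).analyticOrderAt_ne_top).mp (hfin z hz)
    have hle : ((analyticOrderNatAt v z : ℕ) : ℕ∞) ≤ analyticOrderAt u z := by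
      rw [Nat.cast_analyticOrderNatAt (hfin z hz)]
      exact h z hz
    obtain ⟨k, hk, huk⟩ := (natCast_le_analyticOrderAt (hu z hz)).mp hle
    refine ⟨fun w => k w / g w, hk.div hg hg0, ?_⟩
    have hg' : ∀ᶠ w in 𝓝 z, g w ≠ 0 := hg.continuousAt.eventually_ne hg0
    filter_upwards [hvg, huk, hg'] with w h1 h2 h3
    rw [h1, h2]
    simp only [smul_eq_mul]
    field_simp
  choose! φ hφ1 hφ2 using hloc
  refine ⟨fun z => φ z z, fun z₀ hz₀ => ?_, fun z hz => (hφ2 z hz).self_of_nhds⟩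
  -- analyticity at `z₀`: the function agrees with `φ z₀` near `z₀`
  refine (hφ1 z₀ hz₀).congr ?_
  have hiso : ∀ᶠ w in 𝓝[≠] z₀, v w ≠ 0 := by
    rcases (hv z₀ hz₀).eventually_eq_zero_or_eventually_ne_zero with h0 | h0
    · exact absurd (analyticOrderAt_eq_top.mpr h0) (hfin z₀ hz₀)
    · exact h0
  have hiso' : ∀ᶠ w in 𝓝 z₀, w ≠ z₀ → v w ≠ 0 := by
    rw [eventually_nhdsWithin_iff] at hiso
    exact hiso
  filter_upwards [hφ2 z₀ hz₀, hiso', hΩ.mem_nhds hz₀] with w h1 h2 h3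
  by_cases hw : w = z₀
  · rw [hw]
  · have h4 : φ w w * v w = u w := (hφ2 w h3).self_of_nhds
    have h5 := h2 hw
    exact mul_right_cancel₀ h5 (h1.trans h4.symm)

end HolOrder

/-- The order of vanishing at a point of the upper half plane. -/
noncomputable def ordAt (F : ℍ → ℂ) (τ : ℍ) : ℕ∞ := analyticOrderAt (F ∘ ofComplex) (τ : ℂ)

theorem ordAt_mul {F G : ℍ → ℂ} (hF : MDiff F) (hG : MDiff G) (τ : ℍ) :
    ordAt (F * G) τ = ordAt F τ + ordAt G τ :=
  analyticOrderAt_mul (HolOrder.analyticAt_comp_ofComplex hF τ)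
    (HolOrder.analyticAt_comp_ofComplex hG τ)

theorem ordAt_pow {F : ℍ → ℂ} (hF : MDiff F) (n : ℕ) (τ : ℍ) :
    ordAt (F ^ n) τ = n • ordAt F τ :=
  analyticOrderAt_pow (HolOrder.analyticAt_comp_ofComplex hF τ) n

theorem ordAt_eq_zero_iff {F : ℍ → ℂ} (hF : MDiff F) (τ : ℍ) : ordAt F τ = 0 ↔ F τ ≠ 0 := by
  rw [ordAt, (HolOrder.analyticAt_comp_ofComplex hF τ).analyticOrderAt_eq_zero]
  simp

theorem ordAt_eq_top_iff {F : ℍ → ℂ} (hF : MDiff F) (τ : ℍ) : ordAt F τ = ⊤ ↔ F = 0 := by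
  rw [ordAt, analyticOrderAt_eq_top]
  constructor
  · intro h
    have key := (HolOrder.analyticOnNhd_comp_ofComplex hF).eqOn_zero_of_preconnected_of_eventuallyEq_zero
      (convex_halfSpace_im_gt 0).isPreconnected τ.im_pos h
    funext z
    have := key z.im_pos
    simpa [ofComplex_apply] using this
  · rintro rfl
    exact Eventually.of_forall fun z => rfl

theorem ordAt_ne_top {F : ℍ → ℂ} (hF : MDiff F) (hF0 : F ≠ 0) (τ : ℍ) : ordAt F τ ≠ ⊤ :=
  fun h => hF0 ((ordAt_eq_top_iff hF τ).mp h)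

theorem ordAt_congr {F G : ℍ → ℂ} (h : F = G) (τ : ℍ) : ordAt F τ = ordAt G τ := by rw [h]

/-- The order of the Taylor series in the Cayley coordinate is the order of vanishing. -/
theorem order_taylorCay (τ0 : ℍ) (F : holAlg) :
    (taylorCay τ0 F).order = ordAt (F : ℍ → ℂ) τ0 := by
  have hF := mem_holAlg.mp F.2
  have h1 : analyticOrderAt (cayFun τ0 (F : ℍ → ℂ)) 0 = ordAt (F : ℍ → ℂ) τ0 := by
    have e : cayFun τ0 (F : ℍ → ℂ) = ((F : ℍ → ℂ) ∘ ofComplex) ∘ cay τ0 := rfl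
    have hcay : AnalyticAt ℂ (cay τ0) 0 :=
      (differentiableOn_cay τ0).analyticAt (Metric.ball_mem_nhds 0 one_pos)
    have hd : deriv (cay τ0) 0 ≠ 0 := by
      rw [(hasDerivAt_cay_zero τ0).deriv]
      exact cay_coe_sub_conj_ne_zero τ0
    rw [e, analyticOrderAt_comp_of_deriv_ne_zero hcay hd, cay_zero]
    rfl
  rw [← h1]
  refine ENat.eq_of_forall_natCast_le_iff fun n => ?_
  rw [natCast_le_analyticOrderAt_iff_iteratedDeriv_eq_zero (analyticAt_cayFun τ0 hF)]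
  constructor
  · intro hle i hi
    have hc := PowerSeries.coeff_of_lt_order i (lt_of_lt_of_le (by exact_mod_cast hi) hle)
    rw [coeff_taylorCay] at hc
    rcases mul_eq_zero.mp hc with h2 | h2
    · exact absurd h2 (inv_ne_zero (Nat.cast_ne_zero.mpr (Nat.factorial_ne_zero i)))
    · exact h2
  · intro hall
    refine PowerSeries.nat_le_order _ n fun i hi => ?_
    rw [coeff_taylorCay, hall i hi, mul_zero]

/-- **Local-to-global division** of holomorphic functions on the upper half plane. -/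
theorem exists_mdiff_mul_eq_of_ordAt_le {U V : ℍ → ℂ} (hU : MDiff U) (hV : MDiff V)
    (hV0 : V ≠ 0) (h : ∀ τ, ordAt V τ ≤ ordAt U τ) :
    ∃ f : ℍ → ℂ, MDiff f ∧ ∀ τ, f τ * V τ = U τ := by
  obtain ⟨f, hf, hfe⟩ := HolOrder.exists_analyticOnNhd_mul_eq HolOrder.isOpen_upper
    (U ∘ ofComplex) (V ∘ ofComplex) (HolOrder.analyticOnNhd_comp_ofComplex hU)
    (HolOrder.analyticOnNhd_comp_ofComplex hV)
    (fun z hz => by
      have := ordAt_ne_top hV hV0 ⟨z, hz⟩
      exact this)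
    (fun z hz => h ⟨z, hz⟩)
  refine ⟨fun τ => f τ, ?_, fun τ => ?_⟩
  · rw [UpperHalfPlane.mdifferentiable_iff]
    refine hf.differentiableOn.congr fun z hz => ?_
    simp [Function.comp_apply, ofComplex_apply_of_im_pos hz]
  · have := hfe τ τ.im_pos
    simpa [ofComplex_apply] using this

/-! ### The derivative of `j` -/

local notation "Δ" => ModularForm.discriminant

/-- The derivative of `j`, up to the constant factor `-2πi`: `jDeriv = E₄² E₆ / Δ`. -/
noncomputable def jDeriv (τ : ℍ) : ℂ := E₄ τ ^ 2 * E₆ τ / Δ τ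

theorem deriv_jFun (τ : ℍ) :
    deriv (jFun ∘ ofComplex) (τ : ℂ) = -(2 * Real.pi * Complex.I) * jDeriv τ := by
  rw [(hasDerivAt_jFun τ).deriv, jDeriv]
  ring

theorem jDeriv_mdiff : MDiff jDeriv := by
  have h1 : MDiff (fun τ : ℍ => E₄ τ ^ 2 * E₆ τ) :=
    ((JAnalytic.mf_hol E₄).pow 2).mul (JAnalytic.mf_hol E₆)
  rw [UpperHalfPlane.mdifferentiable_iff] at h1 ⊢
  have h2 := UpperHalfPlane.mdifferentiable_iff.mp discriminant_mdifferentiable
  intro z hz
  have h3 : DifferentiableWithinAt ℂ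
      (fun w => ((fun τ : ℍ => E₄ τ ^ 2 * E₆ τ) ∘ ofComplex) w / ((Δ : ℍ → ℂ) ∘ ofComplex) w)
      {z : ℂ | 0 < z.im} z :=
    (h1 z hz).div (h2 z hz) (discriminant_ne_zero _)
  exact h3

theorem jDeriv_smul (γ : SL(2, ℤ)) (z : ℍ) : jDeriv (γ • z) = jDeriv z * denom γ z ^ 2 := by
  have hd : denom γ z ≠ 0 := denom_ne_zero _ _
  simp only [jDeriv]
  rw [JAnalytic.mf_smul E₄ γ z, JAnalytic.mf_smul E₆ γ z, discriminant_smul]
  have e4 : denom γ z ^ (4 : ℤ) = denom γ z ^ (4 : ℕ) := by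
    rw [← zpow_natCast]; norm_num
  have e6 : denom γ z ^ (6 : ℤ) = denom γ z ^ (6 : ℕ) := by
    rw [← zpow_natCast]; norm_num
  have e12 : denom γ z ^ (12 : ℤ) = denom γ z ^ (12 : ℕ) := by
    rw [← zpow_natCast]; norm_num
  simp only [e4, e6, e12]
  have hΔ := discriminant_ne_zero z
  field_simp

theorem jDeriv_slash (γ : SL(2, ℤ)) : jDeriv ∣[(2 : ℤ)] γ = jDeriv := by
  funext z
  have hd : denom γ z ≠ 0 := denom_ne_zero _ _
  rw [ModularForm.SL_slash_apply, jDeriv_smul, mul_assoc, zpow_neg, ← zpow_natCast]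
  have : ((2 : ℕ) : ℤ) = 2 := by norm_num
  rw [this, mul_inv_cancel₀ (zpow_ne_zero _ hd), mul_one]

theorem jDeriv_ne_zero : jDeriv ≠ 0 := by
  obtain ⟨τ, hτ⟩ := jFun_surjective 1
  intro h
  have h1 := congrFun h τ
  have h4 : E₄ τ ≠ 0 := fun h4 => by
    have := (jFun_eq_zero_iff τ).mpr h4
    rw [hτ] at this
    exact one_ne_zero this
  have h6 : E₆ τ ≠ 0 := fun h6 => by
    have := (jFun_eq_1728_iff τ).mpr h6
    rw [hτ] at this
    norm_num at this
  simp only [jDeriv, Pi.zero_apply] at h1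
  exact div_ne_zero (mul_ne_zero (pow_ne_zero 2 h4) h6) (discriminant_ne_zero τ) h1

/-- `ord_τ₀ (j - j(τ₀)) = ord_τ₀ (j') + 1`. -/
theorem ordAt_jFun_sub (τ0 : ℍ) :
    ordAt (fun τ => jFun τ - jFun τ0) τ0 = ordAt jDeriv τ0 + 1 := by
  have han := HolOrder.analyticAt_comp_ofComplex jFun_mdifferentiable τ0
  have h1 := han.analyticOrderAt_deriv_add_one
  have e1 : (fun z => (jFun ∘ ofComplex) z - (jFun ∘ ofComplex) (τ0 : ℂ)) =
      (fun τ => jFun τ - jFun τ0) ∘ ofComplex := by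
    funext z
    simp [Function.comp_apply, ofComplex_apply]
  rw [e1] at h1
  rw [ordAt, ← h1]
  congr 1
  -- the derivative is a nonzero constant multiple of `jDeriv`
  have hc : (-(2 * Real.pi * Complex.I) : ℂ) ≠ 0 := neg_ne_zero.mpr Complex.two_pi_I_ne_zero
  have e2 : deriv (jFun ∘ ofComplex) =ᶠ[𝓝 (τ0 : ℂ)]
      (fun _ => (-(2 * Real.pi * Complex.I) : ℂ)) * (jDeriv ∘ ofComplex) := by
    filter_upwards [HolOrder.isOpen_upper.mem_nhds τ0.im_pos] with z hz
    have := deriv_jFun ⟨z, hz⟩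
    simp only [Pi.mul_apply, Function.comp_apply, ofComplex_apply_of_im_pos hz]
    exact this
  rw [analyticOrderAt_congr e2, analyticOrderAt_mul analyticAt_const
    (HolOrder.analyticAt_comp_ofComplex jDeriv_mdiff τ0)]
  have h0 : analyticOrderAt (fun _ : ℂ => (-(2 * Real.pi * Complex.I) : ℂ)) (τ0 : ℂ) = 0 :=
    (analyticAt_const (𝕜 := ℂ)).analyticOrderAt_eq_zero.mpr hc
  rw [h0, zero_add]
  rfl

end Fermat.Agent.RR
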