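import Mathlib
import Fermat.Agent.RR.HolOrder
import Fermat.Agent.S24.Bridge

/-!
# RR / R4 (modular dictionary): the dictionary relation

For `P : MvPolynomial (N.divisors) ℂ` we have the analytic value `evJ N P τ = P(j(d τ))` and the
formal value `evF N P = P(J_d)` in the function field `FK ℂ N`.  A function field element `y` and
a function `f` on `ℍ` are *in dictionary* (`IsDict N y f`, "`f dτ = y dj`") if `y = P(J)/Q(J)` and
`f = P(j)/Q(j) · jDeriv` for some `P, Q` with `Q(J) ≠ 0`.
-/

set_option autoImplicit false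

open UpperHalfPlane
open scoped Manifold MatrixGroups

namespace Fermat.Agent.RR

open Fermat.Agent.S24

/-- Shortcut instance: the function field `FK ℂ N` is a `ℂ`-vector space.  (This is the instance
that typeclass search finds by itself, `Algebra.toModule`, but only with a raised
`synthInstance.maxHeartbeats`.) -/
noncomputable instance instModuleFKComplex (N : ℕ) : Module ℂ ↥(FK ℂ N) := Algebra.toModule

/-- The analytic value `τ ↦ P(j(d τ))_{d ∣ N}`. -/
noncomputable def evJ (N : ℕ) (P : MvPolynomial (N.divisors) ℂ) (τ : ℍ) : ℂ :=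
  MvPolynomial.eval (fun d : N.divisors => jd (d : ℕ) τ) P

/-- The formal value `P(J_d)_{d ∣ N}` in the function field. -/
noncomputable def evF (N : ℕ) (P : MvPolynomial (N.divisors) ℂ) : FK ℂ N :=
  MvPolynomial.aeval (fun d : N.divisors => Jgen ℂ N (d : ℕ)) P

/-- The dictionary relation "`f dτ = y dj`". -/
def IsDict (N : ℕ) (y : FK ℂ N) (f : ℍ → ℂ) : Prop :=
  ∃ P Q : MvPolynomial (N.divisors) ℂ, evF N Q ≠ 0 ∧ y * evF N Q = evF N P ∧
    ∀ τ, f τ * evJ N Q τ = evJ N P τ * jDeriv τ

section ev

variable (N : ℕ)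

@[simp] theorem evJ_zero (τ : ℍ) : evJ N 0 τ = 0 := by simp [evJ]

@[simp] theorem evJ_one (τ : ℍ) : evJ N 1 τ = 1 := by simp [evJ]

@[simp] theorem evJ_add (P Q : MvPolynomial (N.divisors) ℂ) (τ : ℍ) :
    evJ N (P + Q) τ = evJ N P τ + evJ N Q τ := by simp [evJ]

@[simp] theorem evJ_sub (P Q : MvPolynomial (N.divisors) ℂ) (τ : ℍ) :
    evJ N (P - Q) τ = evJ N P τ - evJ N Q τ := by simp [evJ]

@[simp] theorem evJ_mul (P Q : MvPolynomial (N.divisors) ℂ) (τ : ℍ) :
    evJ N (P * Q) τ = evJ N P τ * evJ N Q τ := by simp [evJ]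

@[simp] theorem evJ_C (c : ℂ) (τ : ℍ) : evJ N (MvPolynomial.C c) τ = c := by simp [evJ]

@[simp] theorem evJ_X (d : N.divisors) (τ : ℍ) : evJ N (MvPolynomial.X d) τ = jd (d : ℕ) τ := by
  simp [evJ]

@[simp] theorem evF_zero : evF N 0 = 0 := by simp [evF]

@[simp] theorem evF_one : evF N 1 = 1 := by simp [evF]

@[simp] theorem evF_add (P Q : MvPolynomial (N.divisors) ℂ) :
    evF N (P + Q) = evF N P + evF N Q := by simp [evF]

@[simp] theorem evF_sub (P Q : MvPolynomial (N.divisors) ℂ) :
    evF N (P - Q) = evF N P - evF N Q := by simp [evF]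

@[simp] theorem evF_mul (P Q : MvPolynomial (N.divisors) ℂ) :
    evF N (P * Q) = evF N P * evF N Q := by simp [evF]

@[simp] theorem evF_C (c : ℂ) : evF N (MvPolynomial.C c) = algebraMap ℂ (FK ℂ N) c := by
  rw [evF, MvPolynomial.aeval_C]

@[simp] theorem evF_X (d : N.divisors) : evF N (MvPolynomial.X d) = Jgen ℂ N (d : ℕ) := by
  simp [evF]

/-- The formal value, as a Laurent series. -/
theorem coe_evF (P : MvPolynomial (N.divisors) ℂ) :
    ((evF N P : FK ℂ N) : LaurentSeries ℂ) =
      MvPolynomial.aeval (fun d : N.divisors => Jser ℂ (d : ℕ)) P := by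
  have h := AlgHom.congr_fun (MvPolynomial.comp_aeval (fun d : N.divisors => Jgen ℂ N (d : ℕ))
    (FK ℂ N).val) P
  rw [AlgHom.comp_apply] at h
  rw [evF]
  refine h.trans ?_
  congr 2
  funext d
  exact coe_Jgen ℂ N (Nat.dvd_of_mem_divisors d.2)

/-- **Bridge**: the formal value vanishes iff the analytic value vanishes identically. -/
theorem evF_eq_zero_iff (P : MvPolynomial (N.divisors) ℂ) :
    evF N P = 0 ↔ ∀ τ, evJ N P τ = 0 := by
  have h := bridge ℂ (RingHom.id ℂ) (fun d : N.divisors => (d : ℕ))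
    (fun d => Nat.pos_of_mem_divisors d.2) P
  rw [MvPolynomial.map_id] at h
  constructor
  · intro h0
    exact h.mp (by rw [← coe_evF, h0]; rfl)
  · intro h0
    exact Subtype.ext ((coe_evF N P).trans (h.mpr h0))

/-- The analytic value is holomorphic. -/
theorem mdiff_evJ (P : MvPolynomial (N.divisors) ℂ) : MDiff (evJ N P) := by
  induction P using MvPolynomial.induction_on with
  | C a =>
    have h : evJ N (MvPolynomial.C a) = fun _ => a := by
      funext τ
      simp
    rw [h]
    exact mdifferentiable_const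
  | add p q hp hq =>
    have h : evJ N (p + q) = evJ N p + evJ N q := by
      funext τ
      simp
    rw [h]
    exact hp.add hq
  | mul_X p d hp =>
    have h : evJ N (p * MvPolynomial.X d) = evJ N p * jd (d : ℕ) := by
      funext τ
      simp
    rw [h]
    exact hp.mul (isWH_jd (Nat.pos_of_mem_divisors d.2)).holo

end ev

end Fermat.Agent.RR
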