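import Mathlib
import Fermat.Agent.RR.DictDefs

/-!
# RR / R4 (modular dictionary), part (C): the dictionary relation is linear and bi-unique

`IsDict N y f` ("`f dτ = y dj`") is additive, `ℂ`-homogeneous, and determines each of `y`, `f`
(`f` holomorphic) from the other.  Hence pointwise existence statements in either direction give
injective linear maps between a subspace `W` of the function field and the space of cusp forms.
-/

set_option autoImplicit false

open UpperHalfPlane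
open scoped Manifold MatrixGroups

namespace Fermat.Agent.RR

open Fermat.Agent.S24

namespace DictC

/-- Holomorphic functions on `ℍ` have no zero divisors. -/
theorem eq_zero_or_eq_zero_of_mul_eq_zero {F G : ℍ → ℂ} (hF : MDiff F) (hG : MDiff G)
    (h : F * G = 0) : F = 0 ∨ G = 0 := by
  have h1 := ordAt_mul hF hG UpperHalfPlane.I
  have h0 : ordAt (F * G) UpperHalfPlane.I = ⊤ := (ordAt_eq_top_iff (hF.mul hG) _).mpr h
  rw [h0] at h1
  rcases WithTop.add_eq_top.mp h1.symm with h2 | h2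
  · exact Or.inl ((ordAt_eq_top_iff hF _).mp h2)
  · exact Or.inr ((ordAt_eq_top_iff hG _).mp h2)

theorem evJ_ne_zero (N : ℕ) {Q : MvPolynomial (N.divisors) ℂ} (h : evF N Q ≠ 0) :
    evJ N Q ≠ 0 := fun h0 => h ((evF_eq_zero_iff N Q).mpr (fun τ => congrFun h0 τ))

end DictC

open DictC

variable {N : ℕ}

theorem IsDict.zero (N : ℕ) : IsDict N 0 0 := by
  refine ⟨0, 1, ?_, ?_, ?_⟩
  · rw [evF_one]
    exact one_ne_zero
  · rw [evF_zero, zero_mul]
  · intro τ
    simp

theorem IsDict.add {y₁ y₂ : FK ℂ N} {f₁ f₂ : ℍ → ℂ} (h₁ : IsDict N y₁ f₁) (h₂ : IsDict N y₂ f₂) :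
    IsDict N (y₁ + y₂) (f₁ + f₂) := by
  obtain ⟨P₁, Q₁, hQ₁, hy₁, hf₁⟩ := h₁
  obtain ⟨P₂, Q₂, hQ₂, hy₂, hf₂⟩ := h₂
  refine ⟨P₁ * Q₂ + P₂ * Q₁, Q₁ * Q₂, ?_, ?_, ?_⟩
  · rw [evF_mul]
    exact mul_ne_zero hQ₁ hQ₂
  · rw [evF_mul, evF_add, evF_mul, evF_mul]
    linear_combination (evF N Q₂) * hy₁ + (evF N Q₁) * hy₂
  · intro τ
    rw [evJ_mul, evJ_add, evJ_mul, evJ_mul, Pi.add_apply]
    linear_combination (evJ N Q₂ τ) * hf₁ τ + (evJ N Q₁ τ) * hf₂ τ

theorem IsDict.smul {y : FK ℂ N} {f : ℍ → ℂ} (h : IsDict N y f) (c : ℂ) :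
    IsDict N (c • y) (c • f) := by
  obtain ⟨P, Q, hQ, hy, hf⟩ := h
  refine ⟨MvPolynomial.C c * P, Q, hQ, ?_, ?_⟩
  · rw [evF_mul, evF_C, Algebra.smul_def, mul_assoc, hy]
  · intro τ
    rw [evJ_mul, evJ_C, Pi.smul_apply, smul_eq_mul, mul_assoc, hf τ, mul_assoc]

/-- The function is determined by the function field element. -/
theorem IsDict.unique_right {y : FK ℂ N} {f f' : ℍ → ℂ} (h : IsDict N y f) (h' : IsDict N y f')
    (hf : MDiff f) (hf' : MDiff f') : f = f' := by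
  obtain ⟨P, Q, hQ, hy, hfP⟩ := h
  obtain ⟨P', Q', hQ', hy', hfP'⟩ := h'
  have h0 : evF N (P * Q' - P' * Q) = 0 := by
    rw [evF_sub, evF_mul, evF_mul, ← hy, ← hy']
    ring
  have h1 : ∀ τ, evJ N P τ * evJ N Q' τ = evJ N P' τ * evJ N Q τ := by
    intro τ
    have h2 := (evF_eq_zero_iff N _).mp h0 τ
    rw [evJ_sub, evJ_mul, evJ_mul] at h2
    exact sub_eq_zero.mp h2
  have h3 : (f - f') * (evJ N Q * evJ N Q') = 0 := by
    funext τ
    simp only [Pi.mul_apply, Pi.sub_apply, Pi.zero_apply]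
    linear_combination (evJ N Q' τ) * hfP τ - (evJ N Q τ) * hfP' τ + (jDeriv τ) * h1 τ
  rcases eq_zero_or_eq_zero_of_mul_eq_zero (hf.sub hf') ((mdiff_evJ N Q).mul (mdiff_evJ N Q'))
    h3 with h4 | h4
  · exact sub_eq_zero.mp h4
  · rcases eq_zero_or_eq_zero_of_mul_eq_zero (mdiff_evJ N Q) (mdiff_evJ N Q') h4 with h5 | h5
    · exact absurd h5 (evJ_ne_zero N hQ)
    · exact absurd h5 (evJ_ne_zero N hQ')

/-- The function field element is determined by the function. -/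
theorem IsDict.unique_left {y y' : FK ℂ N} {f : ℍ → ℂ} (h : IsDict N y f) (h' : IsDict N y' f) :
    y = y' := by
  obtain ⟨P, Q, hQ, hy, hfP⟩ := h
  obtain ⟨P', Q', hQ', hy', hfP'⟩ := h'
  have h3 : evJ N (P * Q' - P' * Q) * jDeriv = 0 := by
    funext τ
    simp only [Pi.mul_apply, Pi.zero_apply, evJ_sub, evJ_mul]
    linear_combination (evJ N Q τ) * hfP' τ - (evJ N Q' τ) * hfP τ
  have h4 : evJ N (P * Q' - P' * Q) = 0 := by
    rcases eq_zero_or_eq_zero_of_mul_eq_zero (mdiff_evJ N _) jDeriv_mdiff h3 with h5 | h5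
    · exact h5
    · exact absurd h5 jDeriv_ne_zero
  have h0 : evF N (P * Q' - P' * Q) = 0 := (evF_eq_zero_iff N _).mpr (fun τ => congrFun h4 τ)
  rw [evF_sub, evF_mul, evF_mul, ← hy, ← hy'] at h0
  have h6 : (y - y') * (evF N Q * evF N Q') = 0 := by
    linear_combination h0
  rcases mul_eq_zero.mp h6 with h7 | h7
  · exact sub_eq_zero.mp h7
  · exact absurd h7 (mul_ne_zero hQ hQ')

/-- From (B): every element of `W` is in dictionary with a cusp form.  Then `W` embeds linearly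
into the space of cusp forms. -/
theorem exists_linearMap_of_B (N : ℕ) (W : Submodule ℂ (FK ℂ N))
    (hB : ∀ y ∈ W, ∃ f : CuspForm (CongruenceSubgroup.Gamma0 N) 2, IsDict N y ⇑f) :
    ∃ Φ : W →ₗ[ℂ] CuspForm (CongruenceSubgroup.Gamma0 N) 2,
      Function.Injective Φ ∧ ∀ y : W, IsDict N (y : FK ℂ N) ⇑(Φ y) := by
  choose φ hφ using fun y : W => hB y y.2
  have hol : ∀ f : CuspForm (CongruenceSubgroup.Gamma0 N) 2, MDiff (⇑f) :=
    fun f => CuspFormClass.holo f
  refine ⟨{ toFun := φ, map_add' := ?_, map_smul' := ?_ }, ?_, hφ⟩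
  · intro y₁ y₂
    apply DFunLike.coe_injective
    exact IsDict.unique_right (hφ (y₁ + y₂)) ((hφ y₁).add (hφ y₂)) (hol _) (hol _)
  · intro c y
    apply DFunLike.coe_injective
    exact IsDict.unique_right (hφ (c • y)) ((hφ y).smul c) (hol _) (hol _)
  · intro y₁ y₂ h
    apply Subtype.ext
    have h2 := hφ y₂
    have h' : φ y₁ = φ y₂ := h
    rw [← h'] at h2
    exact IsDict.unique_left (hφ y₁) h2

/-- From (A): every cusp form is in dictionary with an element of `W`.  Then the space of cusp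
forms embeds linearly into `W`. -/
theorem exists_linearMap_of_A (N : ℕ) (W : Submodule ℂ (FK ℂ N))
    (hA : ∀ f : CuspForm (CongruenceSubgroup.Gamma0 N) 2, ∃ y ∈ W, IsDict N y ⇑f) :
    ∃ Ψ : CuspForm (CongruenceSubgroup.Gamma0 N) 2 →ₗ[ℂ] W,
      Function.Injective Ψ ∧ ∀ f, IsDict N ((Ψ f : W) : FK ℂ N) ⇑f := by
  choose ψ hψW hψ using hA
  have hol : ∀ f : CuspForm (CongruenceSubgroup.Gamma0 N) 2, MDiff (⇑f) :=
    fun f => CuspFormClass.holo f
  refine ⟨{ toFun := fun f => ⟨ψ f, hψW f⟩, map_add' := ?_, map_smul' := ?_ }, ?_, hψ⟩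
  · intro f₁ f₂
    apply Subtype.ext
    exact IsDict.unique_left (hψ (f₁ + f₂)) ((hψ f₁).add (hψ f₂))
  · intro c f
    apply Subtype.ext
    exact IsDict.unique_left (hψ (c • f)) ((hψ f).smul c)
  · intro f₁ f₂ h
    apply DFunLike.coe_injective
    have h' : ψ f₁ = ψ f₂ := congrArg Subtype.val h
    have h2 := hψ f₂
    rw [← h'] at h2
    exact IsDict.unique_right (hψ f₁) h2 (hol _) (hol _)

/-- (A) + (B) + finite-dimensionality of `W`: the dimensions agree. -/
theorem finrank_eq_of_A_of_B (N : ℕ) (W : Submodule ℂ (FK ℂ N)) [Module.Finite ℂ W]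
    (hA : ∀ f : CuspForm (CongruenceSubgroup.Gamma0 N) 2, ∃ y ∈ W, IsDict N y ⇑f)
    (hB : ∀ y ∈ W, ∃ f : CuspForm (CongruenceSubgroup.Gamma0 N) 2, IsDict N y ⇑f) :
    Module.finrank ℂ (CuspForm (CongruenceSubgroup.Gamma0 N) 2) = Module.finrank ℂ W := by
  obtain ⟨Φ, hΦ, -⟩ := exists_linearMap_of_B N W hB
  obtain ⟨Ψ, hΨ, -⟩ := exists_linearMap_of_A N W hA
  have : Module.Finite ℂ (CuspForm (CongruenceSubgroup.Gamma0 N) 2) :=
    FiniteDimensional.of_injective Ψ hΨ
  exact le_antisymm (LinearMap.finrank_le_finrank_of_injective hΨ)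
    (LinearMap.finrank_le_finrank_of_injective hΦ)

/-- (A) + finite-dimensionality of `W`: cusp forms are finite-dimensional, of dimension at most
that of `W`. -/
theorem finrank_le_of_A (N : ℕ) (W : Submodule ℂ (FK ℂ N)) [Module.Finite ℂ W]
    (hA : ∀ f : CuspForm (CongruenceSubgroup.Gamma0 N) 2, ∃ y ∈ W, IsDict N y ⇑f) :
    Module.Finite ℂ (CuspForm (CongruenceSubgroup.Gamma0 N) 2) ∧
      Module.finrank ℂ (CuspForm (CongruenceSubgroup.Gamma0 N) 2) ≤ Module.finrank ℂ W := by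
  obtain ⟨Ψ, hΨ, -⟩ := exists_linearMap_of_A N W hA
  have : Module.Finite ℂ (CuspForm (CongruenceSubgroup.Gamma0 N) 2) :=
    FiniteDimensional.of_injective Ψ hΨ
  exact ⟨this, LinearMap.finrank_le_finrank_of_injective hΨ⟩

/-- (B) + finite-dimensionality of the space of cusp forms: `W` is finite-dimensional, of
dimension at most that of the space of cusp forms. -/
theorem finrank_le_of_B (N : ℕ) (W : Submodule ℂ (FK ℂ N))
    [Module.Finite ℂ (CuspForm (CongruenceSubgroup.Gamma0 N) 2)]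
    (hB : ∀ y ∈ W, ∃ f : CuspForm (CongruenceSubgroup.Gamma0 N) 2, IsDict N y ⇑f) :
    Module.Finite ℂ W ∧
      Module.finrank ℂ W ≤ Module.finrank ℂ (CuspForm (CongruenceSubgroup.Gamma0 N) 2) := by
  obtain ⟨Φ, hΦ, -⟩ := exists_linearMap_of_B N W hB
  have : Module.Finite ℂ W := FiniteDimensional.of_injective Φ hΦ
  exact ⟨this, LinearMap.finrank_le_finrank_of_injective hΦ⟩

end Fermat.Agent.RR
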