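import Fermat.Agent.RR.PlaceFactsOf
import Fermat.Agent.S24.Differentials
import Fermat.Agent.S24.DiffSpan
import Fermat.Agent.S24.Assembly

/-!
# RR: existence of the divisor of `D x` when `x` is unramified outside `0`, `b`, `∞`
-/

set_option autoImplicit false

namespace Fermat.Agent.RR

open AlgebraicCurve IntermediateField KaehlerDifferential

universe u v

/-- If `x` is unramified outside `0`, `b`, `∞`, the differential `D x` has a divisor. -/
theorem exists_divisor_D_of_unramified {K : Type u} {F : Type v} [Field K] [Field F]
    [Algebra K F] [IsAlgClosed K] [CharZero K] (x : F) (hx : Transcendental K x)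
    (hn0 : 0 < Module.finrank K⟮x⟯ F) (b : K)
    (hunr : ∀ a : K, a ≠ 0 → a ≠ b → ∀ v : Place K F,
      0 < v.ord (x - algebraMap K F a) → v.ord (x - algebraMap K F a) = 1) :
    ∃ W : Divisor K F, ∀ v : Place K F, W v = v.ordDifferential (D K F x) := by
  classical
  have hP : PlaceFacts K F := placeFacts_of x hx hn0
  have hfd : FiniteDimensional K⟮x⟯ F := hP.hfd x hx
  have halg : Algebra.IsAlgebraic K⟮x⟯ F := Algebra.IsAlgebraic.of_finite _ _
  have hspan : Submodule.span F {(D K F x : Ω[F⁄K])} = ⊤ := Fermat.Agent.S24.span_D_eq_top x hx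
  have hxb : Transcendental K (x - algebraMap K F b) := by
    intro h
    apply hx
    have h2 : IsAlgebraic K (algebraMap K F b) := isAlgebraic_algebraMap b
    have := h.add h2
    simpa using this
  have hxinv : Transcendental K x⁻¹ := by
    intro h
    apply hx
    have := h.inv
    simpa using this
  have hS0 := hP.hfin x hx
  have hSb := hP.hfin _ hxb
  have hSinf := hP.hfin _ hxinv
  have hx0 : x ≠ 0 := by
    rintro rfl
    exact hx (isAlgebraic_zero)
  have hsupp : (Function.support fun v : Place K F => v.ordDifferential (D K F x)) ⊆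
      {v : Place K F | 0 < v.ord x} ∪ {v : Place K F | 0 < v.ord (x - algebraMap K F b)} ∪
        {v : Place K F | 0 < v.ord x⁻¹} := by
    intro v hv
    rw [Function.mem_support] at hv
    by_contra hnot
    simp only [Set.mem_union, Set.mem_ofPred_eq, not_or, not_lt] at hnot
    obtain ⟨⟨h0, hb'⟩, hinf⟩ := hnot
    rw [v.ord_inv] at hinf
    have hxmem : x ∈ v.toValuationSubring := by
      rw [Fermat.Agent.S24.Assembly.mem_iff_adicValuation_le_one, v.adicValuation_le_one_iff]
      right
      omega
    obtain ⟨a, ha | ha⟩ := hP.hres v x hxmem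
    · by_cases ha0 : a = 0
      · subst ha0
        rw [map_zero, sub_zero] at ha
        omega
      by_cases hab : a = b
      · subst hab
        omega
      have h1 := hunr a ha0 hab v ha
      have h2 := Fermat.Agent.S24.ordDifferential_D_of_pos v (hP.hres v) x hspan x a ha
      rw [h1] at h2
      exact hv (by rw [h2]; norm_num)
    · apply hx
      rw [ha]
      exact isAlgebraic_algebraMap a
  have hfin : (Function.support fun v : Place K F => v.ordDifferential (D K F x)).Finite :=
    ((hS0.union hSb).union hSinf).subset hsupp
  exact ⟨Finsupp.ofSupportFinite _ hfin, fun v => rfl⟩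

end Fermat.Agent.RR
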