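import Mathlib
import Fermat.Prelude.Def_AlgebraicCurve_Repartitions
import Fermat.Prelude.Def_AlgebraicCurve_CanonicalDivisor

/-!
# RR: shared definitions (hypothesis bundles, the `F`-action on repartitions, one-place adeles)

Everything here is a definition or a trivial lemma; the packages `LocalRes`, `GlobalRes`,
`Riemann`, `Duality`, `RRStar` are stated in terms of these.
-/

set_option autoImplicit false

noncomputable section

namespace Fermat.Agent.RR

open AlgebraicCurve KaehlerDifferential IntermediateField

variable (K F : Type*) [Field K] [Field F] [Algebra K F]

/-- The facts about places of a function field `F/K` (`K` algebraically closed) that the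
Riemann–Roch development uses; these are exactly the outputs of S24 side A. -/
structure PlaceFacts : Prop where
  /-- every residue field is `K` -/
  hres : ∀ (v : Place K F) (f : F), f ∈ v.toValuationSubring →
      ∃ a : K, 0 < v.ord (f - algebraMap K F a) ∨ f = algebraMap K F a
  hdeg : ∀ v : Place K F, v.deg = 1
  hfd : ∀ y : F, Transcendental K y → FiniteDimensional K⟮y⟯ F
  hfin : ∀ y : F, Transcendental K y → {v : Place K F | 0 < v.ord y}.Finite
  hsum : ∀ y : F, Transcendental K y →
      ∑ᶠ v ∈ {v : Place K F | 0 < v.ord y}, v.ord y = (Module.finrank K⟮y⟯ F : ℤ)
  htr : ∃ x : F, Transcendental K x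

/-- Riemann's theorem (the output of package R1), bundled. -/
structure RiemannFacts : Prop where
  finite_L : ∀ D : Divisor K F, Module.Finite K (riemannRochSpace D)
  finite_H1 : ∀ D : Divisor K F, Module.Finite K (H1 D)
  riemann : ∀ D : Divisor K F,
      (Module.finrank K (riemannRochSpace D) : ℤ) - Module.finrank K (H1 D)
        = Divisor.degree D + 1 - Module.finrank K (H1 (0 : Divisor K F))
  L_eq_bot : ∀ D : Divisor K F, Divisor.degree D < 0 → riemannRochSpace D = ⊥
  finrank_L_zero : Module.finrank K (riemannRochSpace (0 : Divisor K F)) = 1

/-- `F` acting on the repartitions (adeles) by multiplication, `K`-linearly.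
(`mulRep K F f : ↥(repartitions K F) →ₗ[K] ↥(repartitions K F)`.) -/
def mulRep : F →ₐ[K] Module.End K ↥(repartitions K F) :=
  Algebra.lsmul K K ↥(repartitions K F)

variable {K F}

@[simp] theorem mulRep_apply (f : F) (α : ↥(repartitions K F)) (v : Place K F) :
    ((mulRep K F f α : ↥(repartitions K F)) : Place K F → F) v
      = f * (α : Place K F → F) v := rfl

theorem mulRep_commute (f g : F) : Commute (mulRep K F f) (mulRep K F g) := by
  show mulRep K F f * mulRep K F g = mulRep K F g * mulRep K F f
  rw [← map_mul, ← map_mul, mul_comm]

variable (K F)

/-- The diagonal embedding `F → repartitions`, `K`-linear. -/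
def diagRep : F →ₗ[K] ↥(repartitions K F) :=
  (Algebra.linearMap F ↥(repartitions K F)).restrictScalars K

variable {K F}

@[simp] theorem diagRep_apply (f : F) (v : Place K F) :
    ((diagRep K F f : ↥(repartitions K F)) : Place K F → F) v = f := rfl

open Classical in
/-- The adele with `v`-component `f` and all other components `0`. -/
def singleRep (v : Place K F) : F →ₗ[K] ↥(repartitions K F) where
  toFun f := ⟨fun w => if w = v then f else 0,
    mem_repartitions_of_finite <| (Set.finite_singleton v).subset fun w hw => by
      by_contra hne
      have hne' : w ≠ v := hne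
      apply hw
      simp only [if_neg hne']
      simp⟩
  map_add' f g := Subtype.ext <| funext fun w => by
    show (if w = v then f + g else 0) = (if w = v then f else 0) + (if w = v then g else 0)
    split_ifs <;> simp
  map_smul' c f := Subtype.ext <| funext fun w => by
    show (if w = v then c • f else 0) = c • (if w = v then f else 0)
    split_ifs <;> simp

open Classical in
theorem singleRep_apply (v w : Place K F) (f : F) :
    ((singleRep v f : ↥(repartitions K F)) : Place K F → F) w = if w = v then f else 0 := rfl

@[simp] theorem singleRep_apply_self (v : Place K F) (f : F) :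
    ((singleRep v f : ↥(repartitions K F)) : Place K F → F) v = f := by
  classical
  rw [singleRep_apply, if_pos rfl]

theorem singleRep_apply_of_ne {v w : Place K F} (h : w ≠ v) (f : F) :
    ((singleRep v f : ↥(repartitions K F)) : Place K F → F) w = 0 := by
  classical
  rw [singleRep_apply, if_neg h]

/-- Evaluation of an adele at the place `v`, `K`-linear. -/
def evalRep (v : Place K F) : ↥(repartitions K F) →ₗ[K] F where
  toFun α := (α : Place K F → F) v
  map_add' _ _ := rfl
  map_smul' _ _ := rfl

@[simp] theorem evalRep_apply (v : Place K F) (α : ↥(repartitions K F)) :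
    evalRep v α = (α : Place K F → F) v := rfl

end Fermat.Agent.RR

end
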