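import Fermat.Agent.RR.Defs
import Fermat.Agent.S24.FFBasic
import Fermat.Agent.S24.Exchange
import Fermat.Agent.S24.PlacesOver
import Fermat.Agent.S24.Residue

/-!
# RR: `PlaceFacts` for a function field over an algebraically closed field of characteristic 0
(from the S24 side-A packages).
-/

set_option autoImplicit false

namespace Fermat.Agent.RR

open AlgebraicCurve IntermediateField

universe u v

theorem placeFacts_of {K : Type u} {F : Type v} [Field K] [Field F] [Algebra K F]
    [IsAlgClosed K] [CharZero K] (x : F) (hx : Transcendental K x)
    (hn0 : 0 < Module.finrank K⟮x⟯ F) : PlaceFacts K F := by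
  have hFF : Fermat.Agent.S24.IsFF K F := Fermat.Agent.S24.isFF_of_finrank_pos hx hn0
  have hfin : FiniteDimensional K⟮x⟯ F := hFF.finiteDimensional hx
  exact
    { hres := fun v f hf => Fermat.Agent.S24.place_exists_residue x hfin hx v f hf
      hdeg := fun v => Fermat.Agent.S24.place_deg_eq_one x hfin hx v
      hfd := fun y hy => hFF.finiteDimensional hy
      hfin := fun y hy => Fermat.Agent.S24.finite_places_pos y (hFF.finiteDimensional hy) hy
      hsum := fun y hy => Fermat.Agent.S24.sum_ord_eq_finrank y (hFF.finiteDimensional hy) hy
      htr := ⟨x, hx⟩ }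

end Fermat.Agent.RR
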