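import Mathlib
import Fermat.Agent.S24.FibreFinite
import Fermat.Agent.S24.PlacesEmb
import Fermat.Agent.S24.Differentials
import Fermat.Agent.S24.DiffSpan
import Fermat.Agent.S24.Degree
import Fermat.Agent.S24.CardX0
import Fermat.Agent.S24.FinalAsm
import Fermat.Agent.RR.PlaceFactsOf
import Fermat.Agent.RR.DictDefs

/-!
# RR / R4 (modular dictionary), half (B), finite points

For `y` in the Riemann-Roch space of the divisor of `D x` (`x = j`) of the function field
`FK ℂ N` of `X₀(N)`, written as `y = P(J)/Q(J)`, the meromorphic function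
`P(j_d)/Q(j_d) · jDeriv` is holomorphic on the upper half plane.

* `DictB.exists_evF_div`: every element of `FK ℂ N` is a quotient `P(J)/Q(J)`.
* `DictB.embAt_evF`: the Taylor embedding at `τ0` sends `P(J)` to the Taylor expansion of `P(j_d)`.
* `DictB.divisor_D_of_pos`, `DictB.divisor_D_of_neg`: the divisor of `D x` at the zeros of `x - a`
  and at the poles of `x` (general function field).
* `DictB.ordAt_le_of_mem`: the order inequality at every point.
* `exists_mdiff_of_mem`: the holomorphic function attached to `y`.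
-/

set_option autoImplicit false

open UpperHalfPlane Complex ModularForm AlgebraicCurve KaehlerDifferential IntermediateField
open scoped Manifold MatrixGroups

namespace Fermat.Agent.RR

open Fermat.Agent.S24

namespace DictB

/-! ### The divisor of `D x` in a general function field -/

section General

variable {K F : Type*} [Field K] [Field F] [Algebra K F] [IsAlgClosed K] [CharZero K]

/-- The divisor of `D x` at a zero of `x - a`. -/
theorem divisor_D_of_pos (x : F) (hx : Transcendental K x) (hn0 : 0 < Module.finrank K⟮x⟯ F)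
    (W : Divisor K F) (hW : ∀ v, W v = v.ordDifferential (D K F x))
    (v : Place K F) (a : K) (h : 0 < v.ord (x - algebraMap K F a)) :
    W v = v.ord (x - algebraMap K F a) - 1 := by
  have hP : PlaceFacts K F := placeFacts_of x hx hn0
  have hfd : FiniteDimensional K⟮x⟯ F := hP.hfd _ hx
  have halg : Algebra.IsAlgebraic K⟮x⟯ F := Algebra.IsAlgebraic.of_finite _ _
  have hspan : Submodule.span F {(D K F x : Ω[F⁄K])} = ⊤ := span_D_eq_top x hx
  rw [hW v]
  exact ordDifferential_D_of_pos v (hP.hres v) x hspan x a h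

/-- The divisor of `D x` at a pole of `x`. -/
theorem divisor_D_of_neg (x : F) (hx : Transcendental K x) (hn0 : 0 < Module.finrank K⟮x⟯ F)
    (W : Divisor K F) (hW : ∀ v, W v = v.ordDifferential (D K F x))
    (v : Place K F) (h : v.ord x < 0) :
    W v = v.ord x - 1 := by
  have hP : PlaceFacts K F := placeFacts_of x hx hn0
  have hfd : FiniteDimensional K⟮x⟯ F := hP.hfd _ hx
  have halg : Algebra.IsAlgebraic K⟮x⟯ F := Algebra.IsAlgebraic.of_finite _ _
  have hspan : Submodule.span F {(D K F x : Ω[F⁄K])} = ⊤ := span_D_eq_top x hx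
  rw [hW v]
  exact ordDifferential_D_of_neg v (hP.hres v) x hspan x h

end General

/-- The degree of `x = j` on the function field of `X₀(N)` over `ℂ` is positive. -/
theorem finrank_FK_pos (N : ℕ) [NeZero N] : 0 < Module.finrank ℂ⟮xgen ℂ N⟯ (FK ℂ N) := by
  rw [finrank_FK ℂ (RingHom.id ℂ) N, card_X0 N]
  exact dedekindPsi_pos N

/-- The divisor of `D x` on the function field of `X₀(N)` over `ℂ`, at a zero of `x - a`. -/
theorem divisor_D_xgen_of_pos (N : ℕ) [NeZero N] (W : Divisor ℂ (FK ℂ N))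
    (hW : ∀ v, W v = v.ordDifferential (D ℂ (FK ℂ N) (xgen ℂ N)))
    (v : Place ℂ (FK ℂ N)) (a : ℂ) (h : 0 < v.ord (xgen ℂ N - algebraMap ℂ (FK ℂ N) a)) :
    W v = v.ord (xgen ℂ N - algebraMap ℂ (FK ℂ N) a) - 1 :=
  divisor_D_of_pos (xgen ℂ N) (transcendental_xgen ℂ N) (finrank_FK_pos N) W hW v a h

/-- The divisor of `D x` on the function field of `X₀(N)` over `ℂ`, at a pole of `x`. -/
theorem divisor_D_xgen_of_neg (N : ℕ) [NeZero N] (W : Divisor ℂ (FK ℂ N))
    (hW : ∀ v, W v = v.ordDifferential (D ℂ (FK ℂ N) (xgen ℂ N)))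
    (v : Place ℂ (FK ℂ N)) (h : v.ord (xgen ℂ N) < 0) :
    W v = v.ord (xgen ℂ N) - 1 :=
  divisor_D_of_neg (xgen ℂ N) (transcendental_xgen ℂ N) (finrank_FK_pos N) W hW v h

variable {N : ℕ}

/-- Every element of the function field is a quotient of polynomials in the generators. -/
theorem exists_evF_div (N : ℕ) [NeZero N] (y : FK ℂ N) :
    ∃ P Q : MvPolynomial (N.divisors) ℂ, evF N Q ≠ 0 ∧ y * evF N Q = evF N P := by
  classical
  let J : N.divisors → LaurentSeries ℂ := fun i => Jser ℂ (i : ℕ)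
  have key : ∀ x ∈ IntermediateField.adjoin ℂ {f | ∃ d, d ∣ N ∧ f = Jser ℂ d},
      ∃ P Q : MvPolynomial (N.divisors) ℂ, MvPolynomial.aeval J Q ≠ 0 ∧
        x * MvPolynomial.aeval J Q = MvPolynomial.aeval J P := by
    intro x hx
    induction hx using IntermediateField.adjoin_induction with
    | mem y hy =>
      obtain ⟨d, hd, rfl⟩ := hy
      refine ⟨MvPolynomial.X ⟨d, Nat.mem_divisors.mpr ⟨hd, NeZero.ne N⟩⟩, 1, ?_, ?_⟩
      · rw [map_one]; exact one_ne_zero
      · rw [map_one, mul_one, MvPolynomial.aeval_X]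
    | algebraMap c =>
      refine ⟨MvPolynomial.C c, 1, ?_, ?_⟩
      · rw [map_one]; exact one_ne_zero
      · rw [map_one, mul_one, MvPolynomial.aeval_C]
    | add x y _ _ hx hy =>
      obtain ⟨P₁, Q₁, hQ₁, h₁⟩ := hx
      obtain ⟨P₂, Q₂, hQ₂, h₂⟩ := hy
      refine ⟨P₁ * Q₂ + P₂ * Q₁, Q₁ * Q₂, ?_, ?_⟩
      · rw [map_mul]; exact mul_ne_zero hQ₁ hQ₂
      · rw [map_mul, map_add, map_mul, map_mul, ← h₁, ← h₂]; ring
    | inv x _ hx =>
      obtain ⟨P, Q, hQ, h⟩ := hx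
      by_cases hx0 : x = 0
      · refine ⟨0, 1, ?_, ?_⟩
        · rw [map_one]; exact one_ne_zero
        · rw [hx0, inv_zero, zero_mul, map_zero]
      · have hP : MvPolynomial.aeval J P ≠ 0 := by
          rw [← h]; exact mul_ne_zero hx0 hQ
        refine ⟨Q, P, hP, ?_⟩
        rw [← h, ← mul_assoc, inv_mul_cancel₀ hx0, one_mul]
    | mul x y _ _ hx hy =>
      obtain ⟨P₁, Q₁, hQ₁, h₁⟩ := hx
      obtain ⟨P₂, Q₂, hQ₂, h₂⟩ := hy
      refine ⟨P₁ * P₂, Q₁ * Q₂, ?_, ?_⟩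
      · rw [map_mul]; exact mul_ne_zero hQ₁ hQ₂
      · rw [map_mul, map_mul, ← h₁, ← h₂]; ring
  obtain ⟨P, Q, hQ, h⟩ := key y ((FK_eq_adjoin ℂ N).le y.2)
  refine ⟨P, Q, ?_, ?_⟩
  · intro h0
    apply hQ
    rw [← coe_evF, h0]
    rfl
  · apply Subtype.ext
    show (y : LaurentSeries ℂ) * ((evF N Q : FK ℂ N) : LaurentSeries ℂ) = _
    rw [coe_evF, coe_evF]
    exact h

/-! ### The Taylor embedding on polynomials in the generators -/

/-- The analytic evaluation of a polynomial, as an element of the algebra of holomorphic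
functions. -/
noncomputable def evJHol (N : ℕ) (P : MvPolynomial (N.divisors) ℂ) : holAlg :=
  ⟨evJ N P, mem_holAlg.mpr (mdiff_evJ N P)⟩

theorem coe_evJHol (P : MvPolynomial (N.divisors) ℂ) :
    ((evJHol N P : holAlg) : ℍ → ℂ) = evJ N P := rfl

/-- The Taylor embedding at `τ0` sends `P(J)` to the Taylor expansion of `P(j_d)`. -/
theorem embAt_evF [NeZero N] (τ0 : ℍ) (P : MvPolynomial (N.divisors) ℂ) :
    embAt (RingHom.id ℂ) N τ0 1 (evF N P) =
      HahnSeries.ofPowerSeries ℤ ℂ (taylorCay τ0 (evJHol N P)) := by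
  induction P using MvPolynomial.induction_on with
  | C c =>
    have e : evJHol N (MvPolynomial.C c) = algebraMap ℂ holAlg c :=
      Subtype.ext (funext fun τ => evJ_C N c τ)
    rw [evF_C, embAt_algebraMap, e, AlgHom.commutes, RingHom.id_apply,
      ← HahnSeries.ofPowerSeries_C]
    rfl
  | add p q hp hq =>
    have e : evJHol N (p + q) = evJHol N p + evJHol N q :=
      Subtype.ext (funext fun τ => evJ_add N p q τ)
    rw [evF_add, map_add, hp, hq, e, map_add, map_add]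
  | mul_X p i hp =>
    have e : evJHol N (p * MvPolynomial.X i) = evJHol N p * jTHol (i : ℕ) 1⁻¹ :=
      Subtype.ext (funext fun τ => by
        show evJ N (p * MvPolynomial.X i) τ = evJ N p τ * jT (i : ℕ) 1⁻¹ τ
        rw [evJ_mul, evJ_X, inv_one, jT_one])
    rw [evF_mul, map_mul, hp, evF_X, embAt_Jgen _ _ _ _ (Nat.dvd_of_mem_divisors i.2), e,
      map_mul, map_mul]

/-- The order of the Taylor embedding of `P(J)` at `τ0`. -/
theorem order_embAt_evF [NeZero N] (τ0 : ℍ) (P : MvPolynomial (N.divisors) ℂ) {n : ℕ}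
    (h : ordAt (evJ N P) τ0 = (n : ℕ∞)) :
    (embAt (RingHom.id ℂ) N τ0 1 (evF N P)).order = (n : ℤ) := by
  rw [embAt_evF]
  apply FibreFinite.order_ofPowerSeries
  rw [order_taylorCay, coe_evJHol, h]

/-! ### The order inequality at the points of the upper half plane -/

/-- For `y = P(J)/Q(J)` in the Riemann-Roch space of a divisor `W` with
`W v = ord_v (x - a) - 1` at the zeros of `x - a` (e.g. the divisor of `D x`), the order of
`Q(j_d)` at any point is at most the order of `P(j_d) · jDeriv`. -/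
theorem ordAt_le_of_mem [NeZero N] (W : Divisor ℂ (FK ℂ N))
    (hW : ∀ (v : Place ℂ (FK ℂ N)) (a : ℂ), 0 < v.ord (xgen ℂ N - algebraMap ℂ (FK ℂ N) a) →
      W v = v.ord (xgen ℂ N - algebraMap ℂ (FK ℂ N) a) - 1)
    {y : FK ℂ N} (hy : y ∈ riemannRochSpace W) (hy0 : y ≠ 0)
    {P Q : MvPolynomial (N.divisors) ℂ} (hQ : evF N Q ≠ 0) (hrel : y * evF N Q = evF N P)
    (τ0 : ℍ) :
    ordAt (evJ N Q) τ0 ≤ ordAt (evJ N P * jDeriv) τ0 := by
  set ι := embAt (RingHom.id ℂ) N τ0 1 with hι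
  have hP : evF N P ≠ 0 := by rw [← hrel]; exact mul_ne_zero hy0 hQ
  have hQJ : evJ N Q ≠ 0 := fun h => hQ ((evF_eq_zero_iff N Q).mpr fun τ => congrFun h τ)
  have hPJ : evJ N P ≠ 0 := fun h => hP ((evF_eq_zero_iff N P).mpr fun τ => congrFun h τ)
  obtain ⟨nQ, hnQ⟩ := ENat.ne_top_iff_exists.mp (ordAt_ne_top (mdiff_evJ N Q) hQJ τ0)
  obtain ⟨nP, hnP⟩ := ENat.ne_top_iff_exists.mp (ordAt_ne_top (mdiff_evJ N P) hPJ τ0)
  obtain ⟨e, he⟩ := ENat.ne_top_iff_exists.mp (ordAt_ne_top jDeriv_mdiff jDeriv_ne_zero τ0)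
  -- the element `x - a`, `a = j(τ0)`
  let a : ℂ := jFun τ0
  let i1 : N.divisors := ⟨1, Nat.mem_divisors.mpr ⟨one_dvd N, NeZero.ne N⟩⟩
  let X1 : MvPolynomial (N.divisors) ℂ := MvPolynomial.X i1 - MvPolynomial.C a
  have hX1F : evF N X1 = xgen ℂ N - algebraMap ℂ (FK ℂ N) a := by
    rw [evF_sub, evF_X, evF_C]; rfl
  have hX1J : evJ N X1 = fun τ => jFun τ - jFun τ0 := funext fun τ => by
    rw [evJ_sub, evJ_X, evJ_C, jd_one]
  have hordX : ordAt (evJ N X1) τ0 = ((e + 1 : ℕ) : ℕ∞) := by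
    rw [hX1J, ordAt_jFun_sub, ← he]; rfl
  have hιX : (ι (xgen ℂ N - algebraMap ℂ (FK ℂ N) a)).order = ((e + 1 : ℕ) : ℤ) := by
    rw [← hX1F]; exact order_embAt_evF τ0 X1 hordX
  have hne : (ι (xgen ℂ N - algebraMap ℂ (FK ℂ N) a)).order ≠ 0 := by
    rw [hιX]; exact_mod_cast Nat.succ_ne_zero e
  obtain ⟨v, m, hm, hv, -⟩ := exists_place_order_eq_mul_ord (K := ℂ) ι _ hne
  have hxa0 : xgen ℂ N - algebraMap ℂ (FK ℂ N) a ≠ 0 := by
    intro h0
    rw [h0, map_zero, HahnSeries.order_zero] at hne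
    exact hne rfl
  have h1 := hv _ hxa0
  rw [hιX] at h1
  have hm' : (0 : ℤ) < m := by exact_mod_cast hm
  have hpos : 0 < v.ord (xgen ℂ N - algebraMap ℂ (FK ℂ N) a) := by
    by_contra hcon
    have h2 : (m : ℤ) * v.ord (xgen ℂ N - algebraMap ℂ (FK ℂ N) a) ≤ 0 :=
      mul_nonpos_of_nonneg_of_nonpos hm'.le (not_lt.mp hcon)
    have h3 : (0 : ℤ) < ((e + 1 : ℕ) : ℤ) := by exact_mod_cast Nat.succ_pos e
    omega
  have hy' := (mem_riemannRochSpace_iff.mp hy v).resolve_left hy0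
  rw [hW v a hpos] at hy'
  have hιy := hv y hy0
  have hιQ : (ι (evF N Q)).order = (nQ : ℤ) := order_embAt_evF τ0 Q hnQ.symm
  have hιP : (ι (evF N P)).order = (nP : ℤ) := order_embAt_evF τ0 P hnP.symm
  have hmul : (ι (evF N P)).order = (ι y).order + (ι (evF N Q)).order := by
    rw [← hrel, map_mul, HahnSeries.order_mul ((map_ne_zero ι).mpr hy0) ((map_ne_zero ι).mpr hQ)]
  rw [hιP, hιQ, hιy] at hmul
  have h4 := mul_le_mul_of_nonneg_left hy' hm'.le
  have key : (nQ : ℤ) ≤ (nP : ℤ) + (e : ℤ) := by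
    push_cast at h1
    nlinarith
  rw [ordAt_mul (mdiff_evJ N P) jDeriv_mdiff, ← hnQ, ← hnP, ← he]
  exact_mod_cast key

/-- **Half (B), finite points**, for a divisor `W` with `W v = ord_v (x - a) - 1` at the zeros of
`x - a`. -/
theorem exists_mdiff_of_mem_aux (N : ℕ) [NeZero N] (W : Divisor ℂ (FK ℂ N))
    (hW : ∀ (v : Place ℂ (FK ℂ N)) (a : ℂ), 0 < v.ord (xgen ℂ N - algebraMap ℂ (FK ℂ N) a) →
      W v = v.ord (xgen ℂ N - algebraMap ℂ (FK ℂ N) a) - 1)
    (y : FK ℂ N) (hy : y ∈ riemannRochSpace W) :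
    ∃ (P Q : MvPolynomial (N.divisors) ℂ) (f : ℍ → ℂ), evF N Q ≠ 0 ∧ y * evF N Q = evF N P ∧
      MDiff f ∧ ∀ τ, f τ * evJ N Q τ = evJ N P τ * jDeriv τ := by
  obtain ⟨P, Q, hQ, hrel⟩ := exists_evF_div N y
  have hQJ : evJ N Q ≠ 0 := fun h => hQ ((evF_eq_zero_iff N Q).mpr fun τ => congrFun h τ)
  by_cases hy0 : y = 0
  · refine ⟨P, Q, 0, hQ, hrel, mdifferentiable_const, fun τ => ?_⟩
    have hP0 : evF N P = 0 := by rw [← hrel, hy0, zero_mul]
    rw [(evF_eq_zero_iff N P).mp hP0 τ]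
    simp
  · obtain ⟨f, hf, hfe⟩ := exists_mdiff_mul_eq_of_ordAt_le
      ((mdiff_evJ N P).mul jDeriv_mdiff) (mdiff_evJ N Q) hQJ
      (fun τ => ordAt_le_of_mem W hW hy hy0 hQ hrel τ)
    exact ⟨P, Q, f, hQ, hrel, hf, fun τ => hfe τ⟩

end DictB

/-- **Half (B), finite points.**  For `y` in the Riemann-Roch space of the divisor of `D x`, there
are polynomials `P, Q` with `y = P(J)/Q(J)` and a holomorphic function `f` on the upper half
plane with `f · Q(j_d) = P(j_d) · jDeriv`. -/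
theorem exists_mdiff_of_mem (N : ℕ) [NeZero N] (W : Divisor ℂ (FK ℂ N))
    (hW : ∀ v, W v = v.ordDifferential (D ℂ (FK ℂ N) (xgen ℂ N)))
    (y : FK ℂ N) (hy : y ∈ riemannRochSpace W) :
    ∃ (P Q : MvPolynomial (N.divisors) ℂ) (f : ℍ → ℂ), evF N Q ≠ 0 ∧ y * evF N Q = evF N P ∧
      MDiff f ∧ ∀ τ, f τ * evJ N Q τ = evJ N P τ * jDeriv τ :=
  DictB.exists_mdiff_of_mem_aux N W (DictB.divisor_D_xgen_of_pos N W hW) y hy

end Fermat.Agent.RR
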