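/-
RR project, package R4-cusp: the cusp side of the modular dictionary.
* cusp division: if `F` is holomorphic and `N`-periodic and `F * V = U` with `U`, `V` weakly
  holomorphic, `V ≠ 0`, then `F` is weakly holomorphic (`isWH_of_mul_eq`);
* positive `q`-order is equivalent to vanishing at `i∞` (`isZeroAtImInfty_of_order_pos`,
  `order_qLaurent_pos_of_isZeroAtImInfty`);
* `jDeriv = E₄² E₆ / Δ` at the cusp: `isWH_jDeriv`, `order_qLaurent_jDeriv`;
* the translates `f ∣[2] g` of a weight two cusp form on `Γ₀(N)`: `isWH_slash_cuspForm`,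
  `isZeroAtImInfty_slash_cuspForm`, `order_qLaurent_slash_cuspForm_pos`.
-/
import Mathlib
import Fermat.Agent.S24.CuspExp
import Fermat.Agent.S24.Translates
import Fermat.Agent.RR.HolOrder

set_option autoImplicit false

open UpperHalfPlane Complex Filter
open scoped Manifold MatrixGroups ComplexConjugate Nat Topology ModularForm

namespace Fermat.Agent.RR

open Fermat.Agent.S24 Fermat.Agent.S23

namespace DictCusp

/-! ### Generic period `h` -/

/-- Lower bound near `0` for an analytic function which is not locally zero. -/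
theorem exists_lower_bound {v : ℂ → ℂ} (hv : AnalyticAt ℂ v 0)
    (hne : ¬ ∀ᶠ q in 𝓝 (0 : ℂ), v q = 0) :
    ∃ (k : ℕ) (c : ℝ), 0 < c ∧ ∀ᶠ q in 𝓝 (0 : ℂ), c * ‖q‖ ^ k ≤ ‖v q‖ := by
  obtain ⟨k, w, hw, hw0, hev⟩ := hv.exists_eventuallyEq_pow_smul_nonzero_iff.mpr hne
  have hpos : 0 < ‖w 0‖ := norm_pos_iff.mpr hw0
  refine ⟨k, ‖w 0‖ / 2, by positivity, ?_⟩
  have hcont : ∀ᶠ q in 𝓝 (0 : ℂ), ‖w 0‖ / 2 < ‖w q‖ :=
    hw.continuousAt.norm.eventually (lt_mem_nhds (half_lt_self hpos))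
  filter_upwards [hev, hcont] with q h1 h2
  rw [h1, sub_zero, norm_smul, norm_pow, mul_comm]
  exact mul_le_mul_of_nonneg_left h2.le (by positivity)

/-- **Cusp division.** If `f` is holomorphic and `h`-periodic on `ℍ` and `f * V = U` with `U`, `V`
weakly holomorphic and `V ≠ 0`, then `f` is weakly holomorphic. -/
theorem isWH_of_mul_eq_real {h : ℝ} (hh : 0 < h) {f U V : ℍ → ℂ} (hf : MDiff f)
    (hper : Function.Periodic (f ∘ ofComplex) h) (hU : IsWH h U) (hV : IsWH h V) (hV0 : V ≠ 0)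
    (hmul : f * V = U) : IsWH h f := by
  obtain ⟨m, hm⟩ := hU.bdd
  obtain ⟨n, hn⟩ := hV.bdd
  set Vn : ℍ → ℂ := V * qFun h ^ n with hVn
  have hol := mdiff_mul_qpow (h := h) hV.holo n
  have per := periodic_mul_qpow hh.ne' hV.per n
  have han : AnalyticAt ℂ (cuspFunction h Vn) 0 := analyticAt_cusp hh hol per hn
  have hne : ¬ ∀ᶠ q in 𝓝 (0 : ℂ), cuspFunction h Vn q = 0 := by
    intro hz
    apply hV0
    have h1 : qExpansion h Vn = 0 := by
      ext i
      rw [qExpansion_coeff, map_zero]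
      have h2 : cuspFunction h Vn =ᶠ[𝓝 0] fun _ => (0 : ℂ) := hz
      rw [h2.iteratedDeriv_eq]
      simp
    have h3 := (qExpansion_eq_zero_iff hh per hol hn).mp h1
    ext τ
    have := congrFun h3 τ
    simp only [Pi.mul_apply, Pi.pow_apply, Pi.zero_apply, mul_eq_zero] at this
    rcases this with h4 | h4
    · exact h4
    · exact absurd h4 (pow_ne_zero n (qFun_ne_zero h τ))
  obtain ⟨k, c, hc, hev⟩ := exists_lower_bound han hne
  have hev' : ∀ᶠ τ in atImInfty, c * ‖qFun h τ‖ ^ k ≤ ‖Vn τ‖ := by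
    have h1 := (isZeroAtImInfty_qFun hh).eventually hev
    filter_upwards [h1] with τ hτ
    rwa [show cuspFunction h Vn (qFun h τ) = Vn τ from eq_cuspFunction τ hh.ne' per] at hτ
  refine ⟨hf, hper, m + k, ?_⟩
  obtain ⟨M, hM⟩ := Asymptotics.IsBigO.bound hm
  refine Asymptotics.IsBigO.of_bound (M / c) ?_
  filter_upwards [hM, hev'] with τ h1 h2
  simp only [Pi.one_apply, norm_one, mul_one] at h1 ⊢
  rw [le_div_iff₀ hc]
  have hq1 : ‖qFun h τ‖ ≤ 1 := (norm_qFun_lt_one hh τ).le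
  have hq0 : 0 ≤ ‖qFun h τ‖ := norm_nonneg _
  have hVle : ‖Vn τ‖ ≤ ‖V τ‖ := by
    simp only [hVn, Pi.mul_apply, Pi.pow_apply, norm_mul, norm_pow]
    exact mul_le_of_le_one_right (norm_nonneg _) (pow_le_one₀ hq0 hq1)
  have hUτ : U τ = f τ * V τ := by rw [← hmul]; rfl
  simp only [Pi.mul_apply, Pi.pow_apply, norm_mul, norm_pow] at h1 ⊢
  rw [hUτ, norm_mul] at h1
  calc ‖f τ‖ * ‖qFun h τ‖ ^ (m + k) * c
      = ‖f τ‖ * ‖qFun h τ‖ ^ m * (c * ‖qFun h τ‖ ^ k) := by rw [pow_add]; ring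
    _ ≤ ‖f τ‖ * ‖qFun h τ‖ ^ m * ‖V τ‖ :=
        mul_le_mul_of_nonneg_left (h2.trans hVle) (by positivity)
    _ = ‖f τ‖ * ‖V τ‖ * ‖qFun h τ‖ ^ m := by ring
    _ ≤ M := h1

/-- In the situation of `isWH_of_mul_eq_real`, the Laurent expansions multiply. -/
theorem qLaurent_mul_eq_real {h : ℝ} (hh : 0 < h) {f U V : ℍ → ℂ} (hf : MDiff f)
    (hper : Function.Periodic (f ∘ ofComplex) h) (hU : IsWH h U) (hV : IsWH h V) (hV0 : V ≠ 0)
    (hmul : f * V = U) : qLaurent h f * qLaurent h V = qLaurent h U := by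
  rw [← qLaurent_mul hh (isWH_of_mul_eq_real hh hf hper hU hV hV0 hmul) hV, hmul]

/-- A weakly holomorphic function whose Laurent `q`-expansion has positive order vanishes at
`i∞`. -/
theorem isZeroAtImInfty_of_order_pos_real {h : ℝ} (hh : 0 < h) {F : ℍ → ℂ} (hF : IsWH h F)
    (hord : 0 < (qLaurent h F).order) : IsZeroAtImInfty F := by
  obtain ⟨m, hm⟩ := hF.bdd
  set Fm : ℍ → ℂ := F * qFun h ^ m with hFm
  have hol := mdiff_mul_qpow (h := h) hF.holo m
  have per := periodic_mul_qpow hh.ne' hF.per m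
  have han : AnalyticAt ℂ (cuspFunction h Fm) 0 := analyticAt_cusp hh hol per hm
  -- the first `m + 1` coefficients vanish
  have hcoeff : ∀ i < m + 1, iteratedDeriv i (cuspFunction h Fm) 0 = 0 := by
    intro i hi
    have h1 : (qLaurent h F).coeff ((i : ℤ) - m) = 0 :=
      HahnSeries.coeff_eq_zero_of_lt_order (lt_of_le_of_lt (by omega) hord)
    rw [qLaurent_eq hh hF hm, Fermat.Agent.S24.coeff_qLaurentAt, sub_add_cancel,
      HahnSeries.ofPowerSeries_apply_coeff, qExpansion_coeff] at h1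
    rcases mul_eq_zero.mp h1 with h3 | h3
    · exact absurd h3 (inv_ne_zero (Nat.cast_ne_zero.mpr (Nat.factorial_ne_zero i)))
    · exact h3
  have hle : ((m + 1 : ℕ) : ℕ∞) ≤ analyticOrderAt (cuspFunction h Fm) 0 :=
    (natCast_le_analyticOrderAt_iff_iteratedDeriv_eq_zero han).mpr hcoeff
  obtain ⟨g, hg, hev⟩ := (natCast_le_analyticOrderAt han).mp hle
  have hev' : ∀ᶠ τ in atImInfty, F τ = qFun h τ * g (qFun h τ) := by
    have h1 := (isZeroAtImInfty_qFun hh).eventually hev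
    filter_upwards [h1] with τ hτ
    rw [show cuspFunction h Fm (qFun h τ) = Fm τ from eq_cuspFunction τ hh.ne' per] at hτ
    simp only [hFm, Pi.mul_apply, Pi.pow_apply, sub_zero, smul_eq_mul] at hτ
    have hq : qFun h τ ^ m ≠ 0 := pow_ne_zero m (qFun_ne_zero h τ)
    apply mul_right_cancel₀ hq
    rw [hτ, pow_succ]
    ring
  have hlim : Tendsto (fun τ : ℍ => qFun h τ * g (qFun h τ)) atImInfty (𝓝 0) := by
    have h1 : Tendsto (qFun h) atImInfty (𝓝 0) := isZeroAtImInfty_qFun hh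
    have h2 : Tendsto (fun τ : ℍ => g (qFun h τ)) atImInfty (𝓝 (g 0)) :=
      hg.continuousAt.tendsto.comp h1
    simpa using h1.mul h2
  exact hlim.congr' (hev'.mono fun τ hτ => hτ.symm)

/-- A nonzero holomorphic periodic function vanishing at `i∞` has a Laurent `q`-expansion of
positive order. -/
theorem order_qLaurent_pos_real {h : ℝ} (hh : 0 < h) {F : ℍ → ℂ} (hol : MDiff F)
    (per : Function.Periodic (F ∘ ofComplex) h) (hz : IsZeroAtImInfty F) (hF0 : F ≠ 0) :
    0 < (qLaurent h F).order := by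
  have hbdd : IsBoundedAtImInfty F := hz.isBoundedAtImInfty
  have hF : IsWH h F := IsWH.of_bounded hol per hbdd
  have hne : qLaurent h F ≠ 0 := fun h0 => hF0 ((qLaurent_eq_zero_iff hh hF).mp h0)
  have han := analyticAt_cusp hh hol per hbdd
  by_contra hcon
  have hle : (qLaurent h F).order ≤ 0 := not_lt.mp hcon
  apply hne
  rw [← HahnSeries.coeff_order_eq_zero]
  rw [qLaurent_of_bounded hh hol per hbdd] at hle ⊢
  rw [Fermat.Agent.S24.coeff_ofPowerSeries_int]
  split_ifs with h0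
  · have h1 : (HahnSeries.ofPowerSeries ℤ ℂ (qExpansion h F)).order = 0 := le_antisymm hle h0
    rw [h1, Int.toNat_zero, qExpansion_coeff_zero hh han per, hz.valueAtInfty_eq_zero]
  · rfl

end DictCusp

/-! ### Period `N` -/

/-- **Cusp division.** If `F` is holomorphic and `N`-periodic on `ℍ` and `F * V = U` with `U`,
`V` weakly holomorphic and `V ≠ 0`, then `F` is weakly holomorphic. -/
theorem isWH_of_mul_eq (N : ℕ) [NeZero N] {F U V : ℍ → ℂ} (hF : MDiff F)
    (hper : Function.Periodic (F ∘ ofComplex) (N : ℝ)) (hU : IsWH (N : ℝ) U)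
    (hV : IsWH (N : ℝ) V) (hV0 : V ≠ 0) (h : ∀ τ, F τ * V τ = U τ) : IsWH (N : ℝ) F :=
  DictCusp.isWH_of_mul_eq_real (natCast_pos_real N) hF hper hU hV hV0 (funext h)

/-- In the situation of `isWH_of_mul_eq`, the Laurent expansions multiply. -/
theorem qLaurent_mul_eq_of_mul_eq (N : ℕ) [NeZero N] {F U V : ℍ → ℂ} (hF : MDiff F)
    (hper : Function.Periodic (F ∘ ofComplex) (N : ℝ)) (hU : IsWH (N : ℝ) U)
    (hV : IsWH (N : ℝ) V) (hV0 : V ≠ 0) (h : ∀ τ, F τ * V τ = U τ) :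
    qLaurent (N : ℝ) F * qLaurent (N : ℝ) V = qLaurent (N : ℝ) U :=
  DictCusp.qLaurent_mul_eq_real (natCast_pos_real N) hF hper hU hV hV0 (funext h)

/-- A weakly holomorphic function whose Laurent `q`-expansion has positive order vanishes at
`i∞`. -/
theorem isZeroAtImInfty_of_order_pos (N : ℕ) [NeZero N] {F : ℍ → ℂ} (hF : IsWH (N : ℝ) F)
    (h : 0 < (qLaurent (N : ℝ) F).order) : IsZeroAtImInfty F :=
  DictCusp.isZeroAtImInfty_of_order_pos_real (natCast_pos_real N) hF h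

/-- A nonzero holomorphic `N`-periodic function vanishing at `i∞` has a Laurent `q`-expansion of
positive order. -/
theorem order_qLaurent_pos_of_isZeroAtImInfty (N : ℕ) [NeZero N] {F : ℍ → ℂ} (hol : MDiff F)
    (per : Function.Periodic (F ∘ ofComplex) (N : ℝ)) (hz : IsZeroAtImInfty F) (hF0 : F ≠ 0) :
    0 < (qLaurent (N : ℝ) F).order :=
  DictCusp.order_qLaurent_pos_real (natCast_pos_real N) hol per hz hF0

/-! ### `jDeriv` at the cusp -/

section JDeriv

open ModularForm EisensteinSeries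

local notation "Δ" => ModularForm.discriminant

theorem periodic_jDeriv : Function.Periodic (jDeriv ∘ ofComplex) (1 : ℝ) := by
  intro w
  have h4 := JAnalytic.mf_per E₄ w
  have h6 := JAnalytic.mf_per E₆ w
  have hΔ : (Δ ∘ ofComplex) (w + (1 : ℝ)) = (Δ ∘ ofComplex) w :=
    SlashInvariantFormClass.periodic_comp_ofComplex CuspForm.discriminant
      one_mem_strictPeriods_SL w
  simp only [Function.comp_apply] at h4 h6 hΔ ⊢
  simp only [jDeriv, h4, h6, hΔ]

/-- `jDeriv(z) q(z) → 1` at `i∞`. -/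
theorem tendsto_jDeriv_mul_qParam :
    Tendsto (fun z : ℍ => jDeriv z * cexp (2 * Real.pi * Complex.I * z)) atImInfty (𝓝 1) := by
  have t4 := JAnalytic.mf_tendsto E₄
  rw [E_qExpansion_coeff_zero _ ⟨2, rfl⟩] at t4
  have t6 := JAnalytic.mf_tendsto E₆
  rw [E_qExpansion_coeff_zero _ ⟨3, rfl⟩] at t6
  have tP := tendsto_atImInfty_tprod_one_sub_eta_q_pow
  have h := ((t4.pow 2).mul t6).div tP one_ne_zero
  simp only [one_pow, mul_one, div_one] at h
  refine h.congr fun z => ?_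
  have hq : cexp (2 * Real.pi * Complex.I * z) = Function.Periodic.qParam 1 (z : ℂ) := by
    simp [Function.Periodic.qParam]
  have hqne := JAnalytic.qParam_ne_zero z
  have hΔ := discriminant_ne_zero z
  have hprod := discriminant_eq_q_prod z
  rw [hq, jDeriv]
  rw [hprod] at hΔ ⊢
  have hP : (∏' n, (1 - eta_q n z) ^ 24) ≠ 0 := right_ne_zero_of_mul hΔ
  simp only [Pi.div_apply]
  field_simp

theorem tendsto_jDeriv_mul_qFun_pow (N : ℕ) [NeZero N] :
    Tendsto (jDeriv * qFun (N : ℝ) ^ N) atImInfty (𝓝 1) := by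
  refine tendsto_jDeriv_mul_qParam.congr fun z => ?_
  simp only [Pi.mul_apply, Pi.pow_apply, qFun_pow_self]

theorem isWH_jDeriv (N : ℕ) [NeZero N] : IsWH (N : ℝ) jDeriv := by
  refine ⟨jDeriv_mdiff, ?_, N, (tendsto_jDeriv_mul_qFun_pow N).isBigO_one ℝ⟩
  have := periodic_jDeriv.nat_mul N
  simpa using this

/-- The expansion of `jDeriv` in the parameter `exp (2 π i τ / N)` has a pole of order `N`. -/
theorem order_qLaurent_jDeriv (N : ℕ) [NeZero N] :
    (qLaurent (N : ℝ) jDeriv).order = -(N : ℤ) :=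
  order_qLaurent_of_tendsto N (isWH_jDeriv N) N one_ne_zero (tendsto_jDeriv_mul_qFun_pow N)

end JDeriv

/-! ### Translates of cusp forms -/

section CuspForm

open CongruenceSubgroup Matrix.SpecialLinearGroup

/-- Every `SL(2, ℤ)`-translate of a cusp form on `Γ₀(N)` vanishes at `i∞`. -/
theorem isZeroAtImInfty_slash_cuspForm (N : ℕ) [NeZero N] {k : ℤ} (f : CuspForm (Gamma0 N) k)
    (g : SL(2, ℤ)) : IsZeroAtImInfty (⇑f ∣[k] g) := by
  have hc : IsCusp (mapGL ℝ g • OnePoint.infty) ((Gamma0 N).map (mapGL ℝ)) := by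
    rw [Subgroup.IsArithmetic.isCusp_iff_isCusp_SL2Z, isCusp_SL2Z_iff']
    exact ⟨g, rfl⟩
  exact CuspFormClass.zero_at_cusps f hc (mapGL ℝ g) rfl

theorem mdiff_slash_cuspForm (N : ℕ) {k : ℤ} (f : CuspForm (Gamma0 N) k) (g : SL(2, ℤ)) :
    MDiff (⇑f ∣[k] g) := by
  rw [ModularForm.SL_slash]
  exact (CuspFormClass.holo f).slash k _

/-- Every `SL(2, ℤ)`-translate of a form on `Γ₀(N)` is invariant under `τ ↦ τ + N`. -/
theorem slash_cuspForm_vadd (N : ℕ) {k : ℤ} (f : CuspForm (Gamma0 N) k) (g : SL(2, ℤ))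
    (τ : ℍ) : (⇑f ∣[k] g) ((N : ℝ) +ᵥ τ) = (⇑f ∣[k] g) τ := by
  have hmem := Translates.conj_T_zpow_mem_Gamma0 N g
  have h1 : ⇑f ∣[k] (g * ModularGroup.T ^ (N : ℤ) * g⁻¹) = ⇑f :=
    SlashInvariantFormClass.slash_action_eq f _ (Subgroup.mem_map_of_mem _ hmem)
  have h2 : (⇑f ∣[k] g) ∣[k] (ModularGroup.T ^ (N : ℤ)) = ⇑f ∣[k] g := by
    conv_rhs => rw [← h1]
    rw [← SlashAction.slash_mul, ← SlashAction.slash_mul]
    congr 1
    group
  have h3 := congrFun h2 τ
  rw [ModularForm.SL_slash_apply] at h3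
  have h4 : ModularGroup.T ^ (N : ℤ) • τ = (N : ℝ) +ᵥ τ := by
    rw [UpperHalfPlane.modular_T_zpow_smul]
    simp
  have h5 : denom (((ModularGroup.T ^ (N : ℤ) : SL(2, ℤ))) : GL (Fin 2) ℝ) τ = 1 := by
    rw [ModularGroup.denom_apply, ModularGroup.coe_T_zpow]
    simp
  rw [h4, h5, one_zpow, mul_one] at h3
  exact h3

theorem periodic_slash_cuspForm (N : ℕ) {k : ℤ} (f : CuspForm (Gamma0 N) k) (g : SL(2, ℤ)) :
    Function.Periodic ((⇑f ∣[k] g) ∘ ofComplex) (N : ℝ) :=
  periodic_of_forall_vadd (slash_cuspForm_vadd N f g)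

/-- The translates of a cusp form on `Γ₀(N)` are weakly holomorphic of period `N`. -/
theorem isWH_slash_cuspForm (N : ℕ) [NeZero N] {k : ℤ} (f : CuspForm (Gamma0 N) k)
    (g : SL(2, ℤ)) : IsWH (N : ℝ) (⇑f ∣[k] g) :=
  IsWH.of_bounded (mdiff_slash_cuspForm N f g) (periodic_slash_cuspForm N f g)
    (isZeroAtImInfty_slash_cuspForm N f g).isBoundedAtImInfty

theorem slash_cuspForm_ne_zero (N : ℕ) {k : ℤ} (f : CuspForm (Gamma0 N) k) (hf : f ≠ 0)
    (g : SL(2, ℤ)) : ⇑f ∣[k] g ≠ 0 := by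
  intro h0
  apply hf
  have h1 : (⇑f ∣[k] g) ∣[k] g⁻¹ = ⇑f := by
    rw [← SlashAction.slash_mul, mul_inv_cancel, SlashAction.slash_one]
  rw [h0, SlashAction.zero_slash] at h1
  exact DFunLike.coe_injective h1.symm

/-- The expansion at `i∞` of a translate of a nonzero cusp form has positive order. -/
theorem order_qLaurent_slash_cuspForm_pos (N : ℕ) [NeZero N] {k : ℤ}
    (f : CuspForm (Gamma0 N) k) (hf : f ≠ 0) (g : SL(2, ℤ)) :
    0 < (qLaurent (N : ℝ) (⇑f ∣[k] g)).order :=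
  order_qLaurent_pos_of_isZeroAtImInfty N (mdiff_slash_cuspForm N f g)
    (periodic_slash_cuspForm N f g) (isZeroAtImInfty_slash_cuspForm N f g)
    (slash_cuspForm_ne_zero N f hf g)

/-- The expansion at `i∞` of a translate of a cusp form has no terms of exponent `≤ 0`. -/
theorem coeff_qLaurent_slash_cuspForm (N : ℕ) [NeZero N] {k : ℤ}
    (f : CuspForm (Gamma0 N) k) (g : SL(2, ℤ)) {i : ℤ} (hi : i ≤ 0) :
    (qLaurent (N : ℝ) (⇑f ∣[k] g)).coeff i = 0 := by
  by_cases hf : f = 0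
  · have h0 : (⇑f ∣[k] g) = 0 := by
      rw [hf]
      exact SlashAction.zero_slash k g
    rw [h0, (qLaurent_eq_zero_iff (natCast_pos_real N) (IsWH.zero _)).mpr rfl]
    rfl
  · exact HahnSeries.coeff_eq_zero_of_lt_order
      (lt_of_le_of_lt hi (order_qLaurent_slash_cuspForm_pos N f hf g))

end CuspForm

end Fermat.Agent.RR
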