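import Mathlib
import Fermat.Prelude.Def_AlgebraicCurve_Repartitions
import Fermat.Agent.S24.TranslatesJ
import Fermat.Agent.S24.CuspExp
import Fermat.Agent.S24.PlacesEmb
import Fermat.Agent.S24.Differentials
import Fermat.Agent.S24.EmbFinite
import Fermat.Agent.S22.Trivial
import Fermat.Agent.RR.HolOrder
import Fermat.Agent.RR.DictCusp
import Fermat.Agent.RR.DictDefs

/-!
# RR / R4 (modular dictionary), lower bound (B): invariance and the cusp conditions

Let `y` be an element of the function field `FK ℂ N` of `X₀(N)` with `y · Q(J) = P(J)`, and let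
`f` be a holomorphic function on `ℍ` with `f · Q(j_d) = P(j_d) · jDeriv` ("`f dτ = y dj`").

* `slash_eq_of_dict`: `f` is invariant of weight `2` under `Γ₀(N)`;
* `isZeroAtImInfty_slash_of_dict`: if `y ∈ L(div (dx))` then every translate `f ∣[2] g`,
  `g ∈ SL(2, ℤ)`, vanishes at `i∞`.

So `f` is a cusp form of weight `2` on `Γ₀(N)`.
-/

set_option autoImplicit false
set_option synthInstance.maxHeartbeats 200000

open UpperHalfPlane Filter Topology ModularForm
open scoped Manifold MatrixGroups ModularForm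

namespace Fermat.Agent.RR

open Fermat.Agent.S24 Fermat.Agent.S23 AlgebraicCurve KaehlerDifferential

namespace DictBCusp

/-- Cancellation of a nonzero holomorphic factor. -/
theorem eq_of_mul_eq_mul {F F' V : ℍ → ℂ} (hF : MDiff F) (hF' : MDiff F') (hV : MDiff V)
    (hV0 : V ≠ 0) (h : ∀ τ, F τ * V τ = F' τ * V τ) : F = F' := by
  have h0 : (F - F') * V = 0 := by
    funext τ
    simp only [Pi.mul_apply, Pi.sub_apply, Pi.zero_apply, sub_mul, h τ, sub_self]
  have h1 := ordAt_mul (hF.sub hF') hV UpperHalfPlane.I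
  rw [h0] at h1
  have h2 : ordAt (0 : ℍ → ℂ) UpperHalfPlane.I = ⊤ :=
    (ordAt_eq_top_iff (F := (0 : ℍ → ℂ)) mdifferentiable_const UpperHalfPlane.I).mpr rfl
  rw [h2] at h1
  have h3 := ordAt_ne_top hV hV0 UpperHalfPlane.I
  have h4 : ordAt (F - F') UpperHalfPlane.I = ⊤ := by
    by_contra h5
    exact (WithTop.add_ne_top.mpr ⟨h5, h3⟩) h1.symm
  exact sub_eq_zero.mp ((ordAt_eq_top_iff (hF.sub hF') UpperHalfPlane.I).mp h4)

/-- Polynomial expressions in holomorphic functions are holomorphic. -/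
theorem mdiff_eval {ι : Type*} (s : ι → ℍ → ℂ) (hs : ∀ i, MDiff (s i)) (P : MvPolynomial ι ℂ) :
    MDiff (fun τ : ℍ => MvPolynomial.eval (fun i => s i τ) P) := by
  induction P using MvPolynomial.induction_on with
  | C a =>
    have e : (fun τ : ℍ => MvPolynomial.eval (fun i => s i τ) (MvPolynomial.C a))
        = fun _ => a := by
      funext τ; simp
    rw [e]
    exact mdifferentiable_const
  | add p q hp hq =>
    have e : (fun τ : ℍ => MvPolynomial.eval (fun i => s i τ) (p + q))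
        = (fun τ : ℍ => MvPolynomial.eval (fun i => s i τ) p)
          + (fun τ : ℍ => MvPolynomial.eval (fun i => s i τ) q) := by
      funext τ; simp
    rw [e]
    exact hp.add hq
  | mul_X p i hp =>
    have e : (fun τ : ℍ => MvPolynomial.eval (fun i => s i τ) (p * MvPolynomial.X i))
        = (fun τ : ℍ => MvPolynomial.eval (fun i => s i τ) p) * s i := by
      funext τ; simp
    rw [e]
    exact hp.mul (hs i)

/-- Polynomial expressions in weakly holomorphic periodic functions: membership and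
`q`-expansion. -/
theorem isWH_eval_and {ι : Type*} {h : ℝ} (hh : 0 < h) (s : ι → ℍ → ℂ) (hs : ∀ i, IsWH h (s i))
    (P : MvPolynomial ι ℂ) :
    IsWH h (fun τ : ℍ => MvPolynomial.eval (fun i => s i τ) P) ∧
      qLaurent h (fun τ : ℍ => MvPolynomial.eval (fun i => s i τ) P)
        = MvPolynomial.aeval (fun i => qLaurent h (s i)) P := by
  induction P using MvPolynomial.induction_on with
  | C a =>
    have e : (fun τ : ℍ => MvPolynomial.eval (fun i => s i τ) (MvPolynomial.C a))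
        = fun _ => a := by
      funext τ; simp
    rw [e]
    refine ⟨IsWH.const h a, ?_⟩
    rw [qLaurent_const hh a, MvPolynomial.aeval_C, LaurentSeries.algebraMap_apply]
  | add p q hp hq =>
    have e : (fun τ : ℍ => MvPolynomial.eval (fun i => s i τ) (p + q))
        = (fun τ : ℍ => MvPolynomial.eval (fun i => s i τ) p)
          + (fun τ : ℍ => MvPolynomial.eval (fun i => s i τ) q) := by
      funext τ; simp
    rw [e]
    exact ⟨hp.1.add hh hq.1, by rw [qLaurent_add hh hp.1 hq.1, hp.2, hq.2, map_add]⟩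
  | mul_X p i hp =>
    have e : (fun τ : ℍ => MvPolynomial.eval (fun i => s i τ) (p * MvPolynomial.X i))
        = (fun τ : ℍ => MvPolynomial.eval (fun i => s i τ) p) * s i := by
      funext τ; simp
    rw [e]
    exact ⟨hp.1.mul (hs i), by
      rw [qLaurent_mul hh hp.1 (hs i), hp.2, map_mul, MvPolynomial.aeval_X]⟩

/-- A ring homomorphism out of the function field which is `C` on constants commutes with
polynomial expressions in the generators. -/
theorem map_aeval_Jgen (N : ℕ) (ι : FK ℂ N →+* LaurentSeries ℂ)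
    (hιC : ∀ a : ℂ, ι (algebraMap ℂ (FK ℂ N) a) = HahnSeries.C a)
    (P : MvPolynomial (N.divisors) ℂ) :
    ι (MvPolynomial.aeval (fun d : N.divisors => Jgen ℂ N d) P)
      = MvPolynomial.aeval (fun d : N.divisors => ι (Jgen ℂ N d)) P := by
  induction P using MvPolynomial.induction_on with
  | C a =>
    rw [MvPolynomial.aeval_C, MvPolynomial.aeval_C, hιC, LaurentSeries.algebraMap_apply]
  | add p q hp hq => rw [map_add, map_add, map_add, hp, hq]
  | mul_X p i hp =>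
    rw [map_mul, map_mul, map_mul, hp, MvPolynomial.aeval_X, MvPolynomial.aeval_X]

/-- The dictionary relation is transported by the weight-`2` slash action. -/
theorem slash_mul_eval (N : ℕ) (P Q : MvPolynomial (N.divisors) ℂ) (f : ℍ → ℂ)
    (hfun : ∀ τ, f τ * MvPolynomial.eval (fun d : N.divisors => jd d τ) Q
      = MvPolynomial.eval (fun d : N.divisors => jd d τ) P * jDeriv τ)
    (g : SL(2, ℤ)) (τ : ℍ) :
    (f ∣[(2 : ℤ)] g) τ * MvPolynomial.eval (fun d : N.divisors => jT d g τ) Q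
      = MvPolynomial.eval (fun d : N.divisors => jT d g τ) P * jDeriv τ := by
  have hd : denom g τ ≠ 0 := denom_ne_zero _ _
  have hd2 : denom g τ ^ 2 ≠ 0 := pow_ne_zero 2 hd
  have h1 := hfun (g • τ)
  rw [jDeriv_smul] at h1
  have e2 : denom g τ ^ (-(2 : ℤ)) = (denom g τ ^ 2)⁻¹ := by
    rw [zpow_neg]
    norm_cast
  rw [ModularForm.SL_slash_apply, e2]
  change f (g • τ) * (denom g τ ^ 2)⁻¹ * MvPolynomial.eval (fun d : N.divisors => jd d (g • τ)) Q
    = MvPolynomial.eval (fun d : N.divisors => jd d (g • τ)) P * jDeriv τ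
  calc f (g • τ) * (denom g τ ^ 2)⁻¹ * MvPolynomial.eval (fun d : N.divisors => jd d (g • τ)) Q
      = (f (g • τ) * MvPolynomial.eval (fun d : N.divisors => jd d (g • τ)) Q)
          * (denom g τ ^ 2)⁻¹ := by ring
    _ = (MvPolynomial.eval (fun d : N.divisors => jd d (g • τ)) P
          * (jDeriv τ * denom g τ ^ 2)) * (denom g τ ^ 2)⁻¹ := by rw [h1]
    _ = MvPolynomial.eval (fun d : N.divisors => jd d (g • τ)) P * jDeriv τ := by
        field_simp

theorem mdiff_slash {f : ℍ → ℂ} (hf : MDiff f) (g : SL(2, ℤ)) : MDiff (f ∣[(2 : ℤ)] g) :=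
  hf.slash 2 (g : GL (Fin 2) ℝ)

end DictBCusp

/-- (B), invariance: a holomorphic `f` with `f · Q(j_d) = P(j_d) · jDeriv`, `Q(j_d) ≢ 0`, is
invariant of weight `2` under `Γ₀(N)`. -/
theorem slash_eq_of_dict (N : ℕ) [NeZero N] (P Q : MvPolynomial (N.divisors) ℂ) (f : ℍ → ℂ)
    (hf : MDiff f)
    (hQ : ∃ τ, MvPolynomial.eval (fun d : N.divisors => jd d τ) Q ≠ 0)
    (hfun : ∀ τ, f τ * MvPolynomial.eval (fun d : N.divisors => jd d τ) Q
      = MvPolynomial.eval (fun d : N.divisors => jd d τ) P * jDeriv τ) :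
    ∀ γ ∈ CongruenceSubgroup.Gamma0 N, f ∣[(2 : ℤ)] γ = f := by
  intro γ hγ
  have hjT : ∀ d : N.divisors, jT d γ = jd d := fun d =>
    jT_of_mem_Gamma0 (Nat.dvd_of_mem_divisors d.2) hγ
  refine DictBCusp.eq_of_mul_eq_mul
    (V := fun τ => MvPolynomial.eval (fun d : N.divisors => jd d τ) Q)
    (DictBCusp.mdiff_slash hf γ) hf
    (DictBCusp.mdiff_eval (fun d : N.divisors => jd d) (fun d => jd_mdifferentiable d) Q) ?_ ?_
  · intro h
    obtain ⟨τ, hτ⟩ := hQ
    exact hτ (congrFun h τ)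
  · intro τ
    have h1 := DictBCusp.slash_mul_eval N P Q f hfun γ τ
    simp only [hjT] at h1
    rw [h1, hfun τ]

namespace DictBCusp

/-- `N`-periodicity of the translates of a `Γ₀(N)`-invariant function of weight `2`. -/
theorem slash_vadd (N : ℕ) (f : ℍ → ℂ)
    (hinv : ∀ γ ∈ CongruenceSubgroup.Gamma0 N, f ∣[(2 : ℤ)] γ = f) (g : SL(2, ℤ)) (τ : ℍ) :
    (f ∣[(2 : ℤ)] g) ((N : ℝ) +ᵥ τ) = (f ∣[(2 : ℤ)] g) τ := by
  have h1 : ((N : ℝ) +ᵥ τ) = ModularGroup.T ^ (N : ℤ) • τ := by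
    rw [modular_T_zpow_smul]; simp
  have h2 : (f ∣[(2 : ℤ)] g) ∣[(2 : ℤ)] (ModularGroup.T ^ (N : ℤ)) = f ∣[(2 : ℤ)] g := by
    rw [← SlashAction.slash_mul]
    have h3 : g * ModularGroup.T ^ (N : ℤ) = (g * ModularGroup.T ^ (N : ℤ) * g⁻¹) * g := by
      group
    rw [h3, SlashAction.slash_mul, hinv _ (Translates.conj_T_zpow_mem_Gamma0 N g)]
  have h4 := congrFun h2 τ
  have h5 := ModularGroup.coe_T_zpow (N : ℤ)
  have h10 : (ModularGroup.T ^ (N : ℤ)) 1 0 = 0 := by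
    show (ModularGroup.T ^ (N : ℤ)).1 1 0 = 0
    rw [h5]; rfl
  have h11 : (ModularGroup.T ^ (N : ℤ)) 1 1 = 1 := by
    show (ModularGroup.T ^ (N : ℤ)).1 1 1 = 1
    rw [h5]; rfl
  rw [ModularForm.SL_slash_apply, ModularGroup.denom_apply, h10, h11] at h4
  simp only [Int.cast_zero, zero_mul, Int.cast_one, zero_add, one_zpow, mul_one] at h4
  rw [h1, h4]

end DictBCusp

/-- (B), cusp conditions: if `y ∈ L(div (dx))`, `y · Q(J) = P(J)` and `f` is holomorphic with
`f · Q(j_d) = P(j_d) · jDeriv`, then every translate `f ∣[2] g` vanishes at `i∞`.  The embedding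
`ι` is the expansion at the cusp `g⁻¹ ∞` (`exists_embedding` for the algebra of weakly
holomorphic `N`-periodic functions). -/
theorem isZeroAtImInfty_slash_of_dict (N : ℕ) [NeZero N]
    (hres : ∀ (v : Place ℂ (FK ℂ N)) (h : FK ℂ N), h ∈ v.toValuationSubring →
      ∃ a : ℂ, 0 < v.ord (h - algebraMap ℂ (FK ℂ N) a) ∨ h = algebraMap ℂ (FK ℂ N) a)
    (hspan : Submodule.span (FK ℂ N) {(D ℂ (FK ℂ N) (xgen ℂ N) : Ω[FK ℂ N⁄ℂ])} = ⊤)
    (W : Divisor ℂ (FK ℂ N))
    (hW : ∀ v : Place ℂ (FK ℂ N), W v = v.ordDifferential (D ℂ (FK ℂ N) (xgen ℂ N)))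
    (y : FK ℂ N) (hy : y ∈ riemannRochSpace W)
    (P Q : MvPolynomial (N.divisors) ℂ)
    (hrel : y * MvPolynomial.aeval (fun d : N.divisors => Jgen ℂ N d) Q
      = MvPolynomial.aeval (fun d : N.divisors => Jgen ℂ N d) P)
    (hQ : MvPolynomial.aeval (fun d : N.divisors => Jgen ℂ N d) Q ≠ 0)
    (f : ℍ → ℂ) (hf : MDiff f)
    (hfun : ∀ τ, f τ * MvPolynomial.eval (fun d : N.divisors => jd d τ) Q
      = MvPolynomial.eval (fun d : N.divisors => jd d τ) P * jDeriv τ)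
    (g : SL(2, ℤ)) (ι : FK ℂ N →+* LaurentSeries ℂ)
    (hιC : ∀ a : ℂ, ι (algebraMap ℂ (FK ℂ N) a) = HahnSeries.C a)
    (hιJ : ∀ d, d ∣ N → ι (Jgen ℂ N d) = qLaurent (N : ℝ) (jT d g)) :
    IsZeroAtImInfty (f ∣[(2 : ℤ)] g) := by
  have hh : (0 : ℝ) < (N : ℝ) := natCast_pos_real N
  have hNpos : (0 : ℤ) < (N : ℤ) := by exact_mod_cast NeZero.pos N
  have hsWH : ∀ d : N.divisors, IsWH (N : ℝ) (fun τ : ℍ => jT d g τ) := fun d =>
    isWH_jT (NeZero.pos N) (Nat.dvd_of_mem_divisors d.2) g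
  -- the two polynomial expressions in the translates
  obtain ⟨hV, hVq⟩ := DictBCusp.isWH_eval_and hh (fun (d : N.divisors) (τ : ℍ) => jT d g τ) hsWH Q
  obtain ⟨hU, hUq⟩ := DictBCusp.isWH_eval_and hh (fun (d : N.divisors) (τ : ℍ) => jT d g τ) hsWH P
  set V : ℍ → ℂ := fun τ => MvPolynomial.eval (fun d : N.divisors => jT d g τ) Q with hVdef
  set U : ℍ → ℂ := fun τ => MvPolynomial.eval (fun d : N.divisors => jT d g τ) P with hUdef
  have hιfun : (fun d : N.divisors => ι (Jgen ℂ N d))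
      = fun d : N.divisors => qLaurent (N : ℝ) (fun τ : ℍ => jT d g τ) := by
    funext d
    exact hιJ d (Nat.dvd_of_mem_divisors d.2)
  have hιQ : ι (MvPolynomial.aeval (fun d : N.divisors => Jgen ℂ N d) Q) = qLaurent (N : ℝ) V := by
    rw [DictBCusp.map_aeval_Jgen N ι hιC Q, hιfun, hVq]
  have hιP : ι (MvPolynomial.aeval (fun d : N.divisors => Jgen ℂ N d) P) = qLaurent (N : ℝ) U := by
    rw [DictBCusp.map_aeval_Jgen N ι hιC P, hιfun, hUq]
  have hqV0 : qLaurent (N : ℝ) V ≠ 0 := by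
    rw [← hιQ]
    exact (map_ne_zero ι).mpr hQ
  have hV0 : V ≠ 0 := fun h0 => hqV0 ((qLaurent_eq_zero_iff hh hV).mpr h0)
  -- invariance and periodicity
  have hQ' : ∃ τ, MvPolynomial.eval (fun d : N.divisors => jd d τ) Q ≠ 0 := by
    by_contra hcon
    apply hV0
    funext τ
    by_contra hτ
    exact hcon ⟨g • τ, hτ⟩
  have hinv := slash_eq_of_dict N P Q f hf hQ' hfun
  have hmd : MDiff (f ∣[(2 : ℤ)] g) := DictBCusp.mdiff_slash hf g
  have hper : Function.Periodic ((f ∣[(2 : ℤ)] g) ∘ ofComplex) (N : ℝ) :=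
    periodic_of_forall_vadd (DictBCusp.slash_vadd N f hinv g)
  -- the relation for the translate
  have hrelg : ∀ τ, (f ∣[(2 : ℤ)] g) τ * V τ = (U * jDeriv) τ := fun τ =>
    DictBCusp.slash_mul_eval N P Q f hfun g τ
  have hκ : IsWH (N : ℝ) jDeriv := isWH_jDeriv N
  have hWHh : IsWH (N : ℝ) (f ∣[(2 : ℤ)] g) :=
    isWH_of_mul_eq N hmd hper (hU.mul hκ) hV hV0 hrelg
  have hfunq : (f ∣[(2 : ℤ)] g) * V = U * jDeriv := funext hrelg
  have hq1 : qLaurent (N : ℝ) (f ∣[(2 : ℤ)] g) * qLaurent (N : ℝ) V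
      = qLaurent (N : ℝ) U * qLaurent (N : ℝ) jDeriv := by
    rw [← qLaurent_mul hh hWHh hV, hfunq, qLaurent_mul hh hU hκ]
  have hq2 : ι y * qLaurent (N : ℝ) V = qLaurent (N : ℝ) U := by
    rw [← hιQ, ← hιP, ← map_mul, hrel]
  have hq3 : qLaurent (N : ℝ) (f ∣[(2 : ℤ)] g) = ι y * qLaurent (N : ℝ) jDeriv := by
    apply mul_right_cancel₀ hqV0
    rw [hq1, ← hq2]
    ring
  -- the case `y = 0`
  rcases eq_or_ne y 0 with rfl | hy0
  · rw [map_zero, zero_mul] at hq3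
    rw [(qLaurent_eq_zero_iff hh hWHh).mp hq3]
    exact zero_zeroAtFilter _
  -- orders
  have hκord : (qLaurent (N : ℝ) jDeriv).order = -(N : ℤ) := order_qLaurent_jDeriv N
  have hκ0 : qLaurent (N : ℝ) jDeriv ≠ 0 := by
    intro h0
    rw [h0, HahnSeries.order_zero] at hκord
    omega
  have hιy0 : ι y ≠ 0 := (map_ne_zero ι).mpr hy0
  have hjT1 : jT 1 g = jFun := by
    funext τ
    show jd 1 (g • τ) = jFun τ
    rw [jd_one, jFun_smul]
  have hx : (ι (xgen ℂ N)).order = -(N : ℤ) := by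
    have h1 : ι (xgen ℂ N) = qLaurent (N : ℝ) (jT 1 g) := hιJ 1 (one_dvd N)
    rw [h1, hjT1, order_qLaurent_jFun]
  have hxord0 : (ι (xgen ℂ N)).order ≠ 0 := by rw [hx]; omega
  obtain ⟨v, m, hm, hord, -⟩ := exists_place_order_eq_mul_ord (K := ℂ) ι (xgen ℂ N) hxord0
  have hx0 : xgen ℂ N ≠ 0 := by
    intro h0
    rw [h0, map_zero, HahnSeries.order_zero] at hxord0
    exact hxord0 rfl
  have hm' : (0 : ℤ) < (m : ℤ) := by exact_mod_cast hm
  have hordx : -(N : ℤ) = (m : ℤ) * v.ord (xgen ℂ N) := by rw [← hord _ hx0, hx]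
  have hneg : v.ord (xgen ℂ N) < 0 := by
    by_contra hcon
    have : 0 ≤ (m : ℤ) * v.ord (xgen ℂ N) := mul_nonneg hm'.le (not_lt.mp hcon)
    omega
  have hWv : W v = v.ord (xgen ℂ N) - 1 := by
    rw [hW v]
    exact ordDifferential_D_of_neg v (hres v) (xgen ℂ N) hspan (xgen ℂ N) hneg
  have hyv : -W v ≤ v.ord y := ((mem_riemannRochSpace_iff.mp hy) v).resolve_left hy0
  have hordy : (N : ℤ) + 1 ≤ (ι y).order := by
    rw [hord y hy0]
    have h1 : 1 - v.ord (xgen ℂ N) ≤ v.ord y := by rw [hWv] at hyv; linarith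
    have h2 : (m : ℤ) * (1 - v.ord (xgen ℂ N)) ≤ (m : ℤ) * v.ord y :=
      mul_le_mul_of_nonneg_left h1 hm'.le
    have h3 : (m : ℤ) * (1 - v.ord (xgen ℂ N)) = (m : ℤ) + (N : ℤ) := by
      rw [mul_sub, mul_one, ← hordx]; ring
    omega
  have hfin : 0 < (qLaurent (N : ℝ) (f ∣[(2 : ℤ)] g)).order := by
    rw [hq3, HahnSeries.order_mul hιy0 hκ0, hκord]
    omega
  exact isZeroAtImInfty_of_order_pos N hWHh hfin

/-- (B), cusp conditions, with the cusp embedding supplied by `exists_embedding`. -/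
theorem isZeroAtImInfty_slash_of_dict' (N : ℕ) [NeZero N]
    (hres : ∀ (v : Place ℂ (FK ℂ N)) (h : FK ℂ N), h ∈ v.toValuationSubring →
      ∃ a : ℂ, 0 < v.ord (h - algebraMap ℂ (FK ℂ N) a) ∨ h = algebraMap ℂ (FK ℂ N) a)
    (hspan : Submodule.span (FK ℂ N) {(D ℂ (FK ℂ N) (xgen ℂ N) : Ω[FK ℂ N⁄ℂ])} = ⊤)
    (W : Divisor ℂ (FK ℂ N))
    (hW : ∀ v : Place ℂ (FK ℂ N), W v = v.ordDifferential (D ℂ (FK ℂ N) (xgen ℂ N)))
    (y : FK ℂ N) (hy : y ∈ riemannRochSpace W)
    (P Q : MvPolynomial (N.divisors) ℂ)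
    (hrel : y * MvPolynomial.aeval (fun d : N.divisors => Jgen ℂ N d) Q
      = MvPolynomial.aeval (fun d : N.divisors => Jgen ℂ N d) P)
    (hQ : MvPolynomial.aeval (fun d : N.divisors => Jgen ℂ N d) Q ≠ 0)
    (f : ℍ → ℂ) (hf : MDiff f)
    (hfun : ∀ τ, f τ * MvPolynomial.eval (fun d : N.divisors => jd d τ) Q
      = MvPolynomial.eval (fun d : N.divisors => jd d τ) P * jDeriv τ)
    (g : SL(2, ℤ)) : IsZeroAtImInfty (f ∣[(2 : ℤ)] g) := by
  obtain ⟨ι, hιC, hιJ⟩ := exists_embedding (RingHom.id ℂ) N (WH (N : ℝ) (natCast_pos_real N))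
    (qL (N : ℝ) (natCast_pos_real N)) (qL_injective _ _) g
    (fun _ hd => isWH_jT (NeZero.pos N) hd g)
  exact isZeroAtImInfty_slash_of_dict N hres hspan W hW y hy P Q hrel hQ f hf hfun g ι
    (fun a => hιC a) (fun d hd => hιJ d hd)

/-- The function relation `Q(j_d) ≢ 0` follows from `Q(J) ≠ 0` in the function field. -/
theorem exists_eval_ne_zero_of_aeval_ne_zero (N : ℕ) [NeZero N] (Q : MvPolynomial (N.divisors) ℂ)
    (hQ : MvPolynomial.aeval (fun d : N.divisors => Jgen ℂ N d) Q ≠ 0) :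
    ∃ τ, MvPolynomial.eval (fun d : N.divisors => jd d τ) Q ≠ 0 := by
  have hh : (0 : ℝ) < (N : ℝ) := natCast_pos_real N
  obtain ⟨ι, hιC, hιJ⟩ := exists_embedding (RingHom.id ℂ) N (WH (N : ℝ) (natCast_pos_real N))
    (qL (N : ℝ) (natCast_pos_real N)) (qL_injective _ _) 1
    (fun _ hd => isWH_jT (NeZero.pos N) hd 1)
  have hsWH : ∀ d : N.divisors, IsWH (N : ℝ) (fun τ : ℍ => jT d 1 τ) := fun d =>
    isWH_jT (NeZero.pos N) (Nat.dvd_of_mem_divisors d.2) 1
  obtain ⟨hV, hVq⟩ := DictBCusp.isWH_eval_and hh (fun (d : N.divisors) (τ : ℍ) => jT d 1 τ) hsWH Q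
  have hιfun : (fun d : N.divisors => ι (Jgen ℂ N d))
      = fun d : N.divisors => qLaurent (N : ℝ) (fun τ : ℍ => jT d 1 τ) := by
    funext d
    exact hιJ d (Nat.dvd_of_mem_divisors d.2)
  have hιQ : ι (MvPolynomial.aeval (fun d : N.divisors => Jgen ℂ N d) Q)
      = qLaurent (N : ℝ) (fun τ => MvPolynomial.eval (fun d : N.divisors => jT d 1 τ) Q) := by
    rw [DictBCusp.map_aeval_Jgen N ι (fun a => hιC a) Q, hιfun, hVq]
  by_contra hcon
  apply (map_ne_zero ι).mpr hQ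
  rw [hιQ]
  apply (qLaurent_eq_zero_iff hh hV).mpr
  funext τ
  by_contra hτ
  refine hcon ⟨τ, ?_⟩
  have e : (fun d : N.divisors => jT d 1 τ) = fun d : N.divisors => jd d τ := by
    funext d
    rw [jT_one]
  rwa [e] at hτ

/-- (B), packaged: from `y ∈ L(div (dx))`, `y · Q(J) = P(J)` and a holomorphic `f` with
`f · Q(j_d) = P(j_d) · jDeriv`, a cusp form of weight `2` on `Γ₀(N)`. -/
theorem exists_cuspForm_of_dict (N : ℕ) [NeZero N]
    (hres : ∀ (v : Place ℂ (FK ℂ N)) (h : FK ℂ N), h ∈ v.toValuationSubring →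
      ∃ a : ℂ, 0 < v.ord (h - algebraMap ℂ (FK ℂ N) a) ∨ h = algebraMap ℂ (FK ℂ N) a)
    (hspan : Submodule.span (FK ℂ N) {(D ℂ (FK ℂ N) (xgen ℂ N) : Ω[FK ℂ N⁄ℂ])} = ⊤)
    (W : Divisor ℂ (FK ℂ N))
    (hW : ∀ v : Place ℂ (FK ℂ N), W v = v.ordDifferential (D ℂ (FK ℂ N) (xgen ℂ N)))
    (y : FK ℂ N) (hy : y ∈ riemannRochSpace W)
    (P Q : MvPolynomial (N.divisors) ℂ)
    (hrel : y * MvPolynomial.aeval (fun d : N.divisors => Jgen ℂ N d) Q
      = MvPolynomial.aeval (fun d : N.divisors => Jgen ℂ N d) P)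
    (hQ : MvPolynomial.aeval (fun d : N.divisors => Jgen ℂ N d) Q ≠ 0)
    (f : ℍ → ℂ) (hf : MDiff f)
    (hfun : ∀ τ, f τ * MvPolynomial.eval (fun d : N.divisors => jd d τ) Q
      = MvPolynomial.eval (fun d : N.divisors => jd d τ) P * jDeriv τ) :
    ∃ F : CuspForm (CongruenceSubgroup.Gamma0 N) 2, (F : ℍ → ℂ) = f :=
  ⟨Fermat.Agent.S22.mkCuspForm f hf
      (slash_eq_of_dict N P Q f hf (exists_eval_ne_zero_of_aeval_ne_zero N Q hQ) hfun)
      (fun g => isZeroAtImInfty_slash_of_dict' N hres hspan W hW y hy P Q hrel hQ f hf hfun g),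
    rfl⟩

end Fermat.Agent.RR
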