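import Mathlib
import Fermat.Agent.RR.Defs
import Fermat.Agent.RR.DictDefs
import Fermat.Agent.RR.DictC
import Fermat.Agent.RR.DictB
import Fermat.Agent.RR.DictBCusp
import Fermat.Agent.RR.PlaceFactsOf
import Fermat.Agent.S22.Trivial
import Fermat.Agent.S24.EmbFinite
import Fermat.Agent.S24.TranslatesJ
import Fermat.Agent.S24.CuspExp
import Fermat.Agent.S24.DiffSpan
import Fermat.Agent.S24.Degree

/-!
# RR / R4 (modular dictionary), half (B), final assembly

Every element `y` of the Riemann–Roch space of the divisor of `dx` (`x = j`) on `X₀(N)` over `ℂ`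
is in dictionary with a weight-2 cusp form on `Γ₀(N)`.
-/

set_option autoImplicit false
set_option synthInstance.maxHeartbeats 200000

open UpperHalfPlane AlgebraicCurve KaehlerDifferential
open scoped Manifold MatrixGroups ModularForm

namespace Fermat.Agent.RR

open Fermat.Agent.S24 Fermat.Agent.S23

/-- Half (B) of the modular dictionary: `L(div dx) → S₂(Γ₀(N))`. -/
theorem exists_cuspForm_of_mem (N : ℕ) [NeZero N]
    (W : Divisor ℂ (FK ℂ N)) (hW : ∀ v, W v = v.ordDifferential (D ℂ (FK ℂ N) (xgen ℂ N)))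
    (y : FK ℂ N) (hy : y ∈ riemannRochSpace W) :
    ∃ f : CuspForm (CongruenceSubgroup.Gamma0 N) 2, IsDict N y ⇑f := by
  have hx : Transcendental ℂ (xgen ℂ N) := transcendental_xgen ℂ N
  have hP : PlaceFacts ℂ (FK ℂ N) := placeFacts_of (xgen ℂ N) hx (DictB.finrank_FK_pos N)
  haveI : FiniteDimensional (IntermediateField.adjoin ℂ {xgen ℂ N}) (FK ℂ N) := hP.hfd _ hx
  have hspan : Submodule.span (FK ℂ N) {(D ℂ (FK ℂ N) (xgen ℂ N) : Ω[FK ℂ N⁄ℂ])} = ⊤ :=
    span_D_eq_top (xgen ℂ N) hx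
  obtain ⟨P, Q, f, hQ, hrel, hf, hfun⟩ := exists_mdiff_of_mem N W hW y hy
  have hQJ : ∃ τ, evJ N Q τ ≠ 0 := by
    by_contra hcon
    exact hQ ((evF_eq_zero_iff N Q).mpr fun τ => not_not.mp fun h => hcon ⟨τ, h⟩)
  have hinv : ∀ γ ∈ CongruenceSubgroup.Gamma0 N, f ∣[(2 : ℤ)] γ = f :=
    slash_eq_of_dict N P Q f hf hQJ hfun
  have hzero : ∀ g : SL(2, ℤ), IsZeroAtImInfty (f ∣[(2 : ℤ)] g) := by
    intro g
    obtain ⟨ι, hιC, hιJ⟩ := exists_embedding (K := ℂ) (RingHom.id ℂ) N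
      (WH (N : ℝ) (natCast_pos_real N)) (qL (N : ℝ) (natCast_pos_real N)) (qL_injective _ _) g
      (fun d hd => jT_mem_WH (NeZero.pos N) hd g)
    exact isZeroAtImInfty_slash_of_dict N hP.hres hspan W hW y hy P Q hrel hQ f hf hfun g ι
      (fun a => hιC a) (fun d hd => hιJ d hd)
  exact ⟨Fermat.Agent.S22.mkCuspForm f hf hinv hzero, P, Q, hQ, hrel, hfun⟩

end Fermat.Agent.RR
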