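import Fermat.Agent.S24.Bridge
import Fermat.Agent.S24.TranslatesJ
import Fermat.Agent.S24.CuspExp
import Fermat.Agent.S23.InvPoly
import Fermat.Agent.S23.CosetAlg

/-!
# RR / R4a: membership of invariant functions in the function field of `X₀(N)`

Let `G` be a holomorphic function on the upper half plane, invariant under `Γ₀(N)` and of at most
exponential growth at every cusp (i.e. every translate `z ↦ G (γ z)`, `γ ∈ SL(2, ℤ)`, is
`O(exp (2 π M Im z))` at `i∞`).  Then `G` is a rational function of `j` and `j_N`: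

* `DictMember.exists_rel`: there are polynomials `P`, `Q` in the functions `jd (d i)` (two of
  which are `j = jd 1` and `j_N = jd N`) with `Q(j, j_N) ≢ 0` and `G * Q(j, j_N) = P(j, j_N)`;
* `DictMember.exists_qLaurent_rel`: the same relation for the Laurent `q`-expansion of `G` and
  the formal series `Jser ℂ (d i)`;
* `DictMember.exists_FK_of_invariant`: the `q`-expansion of `G` lies in the function field
  `FK ℂ N`.

The proof is Lagrange interpolation over the cosets `SL(2, ℤ) / Γ₀(N)`: the coefficients of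
`∑_q G_q ∏_{q' ≠ q} (Y - j_{N,q'})` are holomorphic, `SL(2, ℤ)`-invariant and of exponential
growth, hence polynomials in `j`.
-/

set_option autoImplicit false

open UpperHalfPlane ModularForm ModularCurve Function Filter Complex Topology
open scoped MatrixGroups Manifold Real

namespace Fermat.Agent.RR

open Fermat.Agent.S23 Fermat.Agent.S24 CongruenceSubgroup

namespace DictMember

local notation "𝕢" => Periodic.qParam

/-! ### Growth of weakly holomorphic functions -/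

/-- A weakly holomorphic `N`-periodic function is `O(exp (2 π M Im z))` on `1 ≤ Im z`. -/
theorem exists_bound_of_isWH (N : ℕ) [NeZero N] {F : ℍ → ℂ} (hF : IsWH (N : ℝ) F) :
    ∃ (C : ℝ) (M : ℕ), ∀ z : ℍ, 1 ≤ z.im → ‖F z‖ ≤ C * Real.exp (2 * π * M * z.im) := by
  have hh : (0 : ℝ) < N := natCast_pos_real N
  obtain ⟨m, hm⟩ := hF.bdd
  set H : ℍ → ℂ := F * qFun (N : ℝ) ^ m with hH
  have holH : MDiff H := mdiff_mul_qpow hF.holo m
  have perH : Periodic (H ∘ ofComplex) (N : ℝ) := periodic_mul_qpow hh.ne' hF.per m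
  have hdiff : DifferentiableOn ℂ (cuspFunction (N : ℝ) H) (Metric.ball 0 1) :=
    differentiableOn_cuspFunction_ball hh perH holH hm
  set r : ℝ := Real.exp (-2 * π / N) with hr
  have hpi := Real.pi_pos
  have hr1 : r < 1 := by
    rw [hr, Real.exp_lt_one_iff]
    exact div_neg_of_neg_of_pos (by linarith) hh
  have hsub : Metric.closedBall (0 : ℂ) r ⊆ Metric.ball 0 1 :=
    Metric.closedBall_subset_ball hr1
  obtain ⟨C, hC⟩ := (isCompact_closedBall (0 : ℂ) r).exists_bound_of_continuousOn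
    (hdiff.continuousOn.mono hsub)
  refine ⟨|C|, m, fun z hz => ?_⟩
  have hq : ‖𝕢 (N : ℝ) (z : ℂ)‖ = Real.exp (-2 * π * z.im / N) :=
    Function.Periodic.norm_qParam (h := (N : ℝ)) (z : ℂ)
  have hqr : ‖𝕢 (N : ℝ) (z : ℂ)‖ ≤ r := by
    rw [hq, hr, Real.exp_le_exp]
    apply div_le_div_of_nonneg_right _ hh.le
    nlinarith
  have hmem : 𝕢 (N : ℝ) (z : ℂ) ∈ Metric.closedBall (0 : ℂ) r := by
    simpa using hqr
  have hval : cuspFunction (N : ℝ) H (𝕢 (N : ℝ) z) = H z :=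
    eq_cuspFunction z hh.ne' perH
  have h1 := hC _ hmem
  rw [hval] at h1
  have hHz : ‖H z‖ = ‖F z‖ * Real.exp (-2 * π * z.im / N) ^ m := by
    rw [hH, Pi.mul_apply, Pi.pow_apply, norm_mul, norm_pow, qFun_apply, hq]
  have hE : Real.exp (-2 * π * z.im / N) ^ m * Real.exp (2 * π * z.im / N) ^ m = 1 := by
    rw [← mul_pow, ← Real.exp_add]
    have : -2 * π * z.im / N + 2 * π * z.im / N = 0 := by ring
    rw [this, Real.exp_zero, one_pow]
  have hle : Real.exp (2 * π * z.im / N) ^ m ≤ Real.exp (2 * π * m * z.im) := by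
    rw [← Real.exp_nat_mul, Real.exp_le_exp]
    have hN1 : (1 : ℝ) ≤ N := by exact_mod_cast NeZero.one_le
    have hy : 0 < z.im := z.im_pos
    have h3 : 2 * π * z.im / N ≤ 2 * π * z.im := div_le_self (by positivity) hN1
    have hm0 : (0 : ℝ) ≤ m := Nat.cast_nonneg m
    nlinarith
  calc ‖F z‖ = ‖H z‖ * Real.exp (2 * π * z.im / N) ^ m := by
        rw [hHz, mul_assoc, hE, mul_one]
    _ ≤ |C| * Real.exp (2 * π * z.im / N) ^ m :=
        mul_le_mul_of_nonneg_right (h1.trans (le_abs_self C)) (by positivity)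
    _ ≤ |C| * Real.exp (2 * π * m * z.im) :=
        mul_le_mul_of_nonneg_left hle (abs_nonneg C)

/-! ### Translates of an invariant function -/

theorem mdiff_comp_smul (γ : SL(2, ℤ)) {G : ℍ → ℂ} (hG : MDiff G) :
    MDiff (fun z : ℍ => G (γ • z)) := by
  have h2 : MDiff (fun z : ℍ => (γ : GL (Fin 2) ℝ) • z) := mdifferentiable_smul (by simp)
  exact hG.comp h2

theorem periodic_comp_smul (N : ℕ) (γ : SL(2, ℤ)) {G : ℍ → ℂ}
    (hinv : ∀ δ ∈ Gamma0 N, ∀ z : ℍ, G (δ • z) = G z) :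
    Periodic ((fun z : ℍ => G (γ • z)) ∘ ofComplex) (N : ℝ) := by
  apply periodic_of_forall_vadd
  intro τ
  have h1 : ((N : ℝ) +ᵥ τ) = (ModularGroup.T ^ (N : ℤ)) • τ := by
    rw [UpperHalfPlane.modular_T_zpow_smul]
    simp
  show G (γ • ((N : ℝ) +ᵥ τ)) = G (γ • τ)
  rw [h1, ← mul_smul]
  have h2 : γ * ModularGroup.T ^ (N : ℤ) = (γ * ModularGroup.T ^ (N : ℤ) * γ⁻¹) * γ := by group
  rw [h2, mul_smul, hinv _ (Translates.conj_T_zpow_mem_Gamma0 N γ)]

theorem isWH_comp_smul (N : ℕ) [NeZero N] (γ : SL(2, ℤ)) {G : ℍ → ℂ} (hol : MDiff G)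
    (hinv : ∀ δ ∈ Gamma0 N, ∀ z : ℍ, G (δ • z) = G z)
    (hgrow : ∃ (C A : ℝ) (M : ℕ), ∀ z : ℍ, A ≤ z.im →
      ‖G (γ • z)‖ ≤ C * Real.exp (2 * π * M * z.im)) :
    IsWH (N : ℝ) (fun z : ℍ => G (γ • z)) := by
  obtain ⟨C, A, M, hb⟩ := hgrow
  exact isWH_of_bound N (mdiff_comp_smul γ hol) (periodic_comp_smul N γ hinv) M C A hb

/-! ### Coefficients of norm and interpolation polynomials -/

section Alg

variable {ι : Type*} [Fintype ι] [DecidableEq ι]

theorem coeff_IP_mem {R : Type*} [CommRing R] [Algebra ℂ R] (S : Subalgebra ℂ R) (a b : ι → R)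
    (ha : ∀ i, a i ∈ S) (hb : ∀ i, b i ∈ S) (j : ℕ) : (Coset.IP a b).coeff j ∈ S := by
  have h : Coset.IP a b =
      (Coset.IP (fun i => (⟨a i, ha i⟩ : S)) (fun i => (⟨b i, hb i⟩ : S))).map
        S.val.toRingHom := by
    rw [Coset.IP_map]
    rfl
  rw [h, Polynomial.coeff_map]
  exact SetLike.coe_mem _

theorem coeff_IP_apply (a b : ι → ℍ → ℂ) (j : ℕ) (z : ℍ) :
    ((Coset.IP a b).coeff j) z = (Coset.IP (fun i => a i z) (fun i => b i z)).coeff j := by
  have h := Coset.IP_map (Pi.evalRingHom (fun _ : ℍ => ℂ) z) a b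
  have h2 := congrArg (fun p : Polynomial ℂ => p.coeff j) h
  simp only [Polynomial.coeff_map] at h2
  exact h2

theorem coeff_IP_invariant (a b : ι → ℍ → ℂ) (e : ι ≃ ι) (z w : ℍ)
    (ha : ∀ i, a i w = a (e i) z) (hb : ∀ i, b i w = b (e i) z) (j : ℕ) :
    ((Coset.IP a b).coeff j) w = ((Coset.IP a b).coeff j) z := by
  rw [coeff_IP_apply, coeff_IP_apply, show (fun i => a i w) = fun i => a (e i) z from funext ha,
    show (fun i => b i w) = fun i => b (e i) z from funext hb]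
  exact congrArg (fun p : Polynomial ℂ => p.coeff j)
    (Coset.IP_comp_equiv e (fun i => a i z) (fun i => b i z))

end Alg

/-! ### The two families indexed by the cosets -/

/-- The translates of `j_N`, indexed by the cosets `g Γ₀(N)`. -/
noncomputable def aFam (N : ℕ) (q : X0 N) : ℍ → ℂ := jT N (q.out)⁻¹

/-- The translates of `G`, indexed by the cosets `g Γ₀(N)`. -/
noncomputable def bFam (N : ℕ) (G : ℍ → ℂ) (q : X0 N) : ℍ → ℂ := fun z => G ((q.out)⁻¹ • z)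

theorem out_smul_coset (N : ℕ) (γ : SL(2, ℤ)) (q : X0 N) :
    ((γ * q.out : SL(2, ℤ)) : X0 N) = (((γ • q : X0 N).out : SL(2, ℤ)) : X0 N) := by
  rw [QuotientGroup.out_eq']
  conv_rhs => rw [← QuotientGroup.out_eq' q]
  rfl

theorem aFam_smul (N : ℕ) (γ : SL(2, ℤ)) (q : X0 N) (z : ℍ) :
    aFam N q (γ • z) = aFam N (γ⁻¹ • q) z := by
  unfold aFam
  rw [← jT_mul]
  have h1 : (q.out)⁻¹ * γ = (γ⁻¹ * q.out)⁻¹ := by group
  rw [h1, jT_inv_eq_of_coset_eq dvd_rfl (out_smul_coset N γ⁻¹ q)]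

theorem apply_inv_eq_of_coset_eq (N : ℕ) {G : ℍ → ℂ}
    (hinv : ∀ δ ∈ Gamma0 N, ∀ z : ℍ, G (δ • z) = G z) {g g' : SL(2, ℤ)}
    (h : (g : X0 N) = g') (z : ℍ) : G (g⁻¹ • z) = G (g'⁻¹ • z) := by
  have h' : g⁻¹ * g' ∈ Gamma0 N := QuotientGroup.eq.mp h
  have h1 : g'⁻¹ = (g⁻¹ * g')⁻¹ * g⁻¹ := by group
  rw [h1, mul_smul, hinv _ (inv_mem h')]

theorem bFam_smul (N : ℕ) {G : ℍ → ℂ} (hinv : ∀ δ ∈ Gamma0 N, ∀ z : ℍ, G (δ • z) = G z)
    (γ : SL(2, ℤ)) (q : X0 N) (z : ℍ) : bFam N G q (γ • z) = bFam N G (γ⁻¹ • q) z := by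
  unfold bFam
  rw [← mul_smul]
  have h1 : (q.out)⁻¹ * γ = (γ⁻¹ * q.out)⁻¹ := by group
  rw [h1]
  exact apply_inv_eq_of_coset_eq N hinv (out_smul_coset N γ⁻¹ q) z

theorem aFam_one (N : ℕ) : aFam N ((1 : SL(2, ℤ)) : X0 N) = jd N := by
  unfold aFam
  have h : ((((1 : SL(2, ℤ)) : X0 N).out : SL(2, ℤ)) : X0 N) = ((1 : SL(2, ℤ)) : X0 N) :=
    QuotientGroup.out_eq' _
  rw [jT_inv_eq_of_coset_eq dvd_rfl h, inv_one, jT_one]

theorem bFam_one (N : ℕ) {G : ℍ → ℂ} (hinv : ∀ δ ∈ Gamma0 N, ∀ z : ℍ, G (δ • z) = G z)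
    (z : ℍ) : bFam N G ((1 : SL(2, ℤ)) : X0 N) z = G z := by
  unfold bFam
  have h : ((((1 : SL(2, ℤ)) : X0 N).out : SL(2, ℤ)) : X0 N) = ((1 : SL(2, ℤ)) : X0 N) :=
    QuotientGroup.out_eq' _
  rw [apply_inv_eq_of_coset_eq N hinv h z, inv_one, one_smul]

theorem aFam_ne (N : ℕ) [NeZero N] {q : X0 N} (hq : q ≠ ((1 : SL(2, ℤ)) : X0 N)) :
    aFam N q ≠ jd N := by
  intro h
  apply hq
  have h1 : jT N (q.out)⁻¹ = jT N (1 : SL(2, ℤ))⁻¹ := by
    rw [inv_one, jT_one]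
    exact h
  have h2 := coset_eq_of_jT_inv_eq (NeZero.pos N) h1
  rw [QuotientGroup.out_eq'] at h2
  exact h2

/-! ### Invariant weakly holomorphic functions are polynomials in `j` -/

theorem exists_poly_of_WH_invariant (N : ℕ) [NeZero N] {c : ℍ → ℂ} (hc : IsWH (N : ℝ) c)
    (hinv : ∀ (γ : SL(2, ℤ)) (z : ℍ), c (γ • z) = c z) :
    ∃ p : Polynomial ℂ, ∀ z : ℍ, c z = p.eval (jFun z) := by
  obtain ⟨C, M, hb⟩ := exists_bound_of_isWH N hc
  obtain ⟨p, -, hp⟩ := exists_polynomial_of_invariant c hc.holo hinv M C hb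
  exact ⟨p, hp⟩

/-! ### Assembling polynomials in two of the variables -/

/-- The polynomial `∑ j < n, pc j (X i1) * X iN ^ j`. -/
noncomputable def mkPoly {ι : Type*} (i1 iN : ι) (n : ℕ) (pc : ℕ → Polynomial ℂ) :
    MvPolynomial ι ℂ :=
  ∑ j ∈ Finset.range n,
    Polynomial.aeval (MvPolynomial.X i1 : MvPolynomial ι ℂ) (pc j) * MvPolynomial.X iN ^ j

theorem eval_mkPoly {ι : Type*} (i1 iN : ι) (n : ℕ) (pc : ℕ → Polynomial ℂ) (g : ι → ℂ) :
    MvPolynomial.eval g (mkPoly i1 iN n pc) =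
      ∑ j ∈ Finset.range n, (pc j).eval (g i1) * g iN ^ j := by
  unfold mkPoly
  rw [map_sum]
  refine Finset.sum_congr rfl fun j _ => ?_
  rw [map_mul, map_pow, MvPolynomial.eval_X]
  congr 1
  have h := Polynomial.aeval_algHom_apply (MvPolynomial.aeval g : MvPolynomial ι ℂ →ₐ[ℂ] ℂ)
    (MvPolynomial.X i1) (pc j)
  rw [MvPolynomial.aeval_X, Polynomial.coe_aeval_eq_eval] at h
  exact h.symm

/-! ### The main theorem -/

/-- **Membership, analytic form.**  A holomorphic `Γ₀(N)`-invariant function of exponential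
growth at all cusps is a rational function of `j` and `j_N`. -/
theorem exists_rel (N : ℕ) [NeZero N] {G : ℍ → ℂ} (hol : MDiff G)
    (hinv : ∀ δ ∈ Gamma0 N, ∀ z : ℍ, G (δ • z) = G z)
    (hgrow : ∀ γ : SL(2, ℤ), ∃ (C A : ℝ) (M : ℕ), ∀ z : ℍ, A ≤ z.im →
      ‖G (γ • z)‖ ≤ C * Real.exp (2 * π * M * z.im))
    {ι : Type*} (d : ι → ℕ) (i1 iN : ι) (h1 : d i1 = 1) (hN : d iN = N) :
    ∃ P Q : MvPolynomial ι ℂ,
      (∃ τ : ℍ, MvPolynomial.eval (fun i => jd (d i) τ) Q ≠ 0) ∧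
      ∀ τ : ℍ, G τ * MvPolynomial.eval (fun i => jd (d i) τ) Q =
        MvPolynomial.eval (fun i => jd (d i) τ) P := by
  classical
  haveI : Finite (X0 N) := Subgroup.finite_quotient_of_finiteIndex
  letI : Fintype (X0 N) := Fintype.ofFinite _
  have hh : (0 : ℝ) < N := natCast_pos_real N
  have hNpos : 0 < N := NeZero.pos N
  set q₀ : X0 N := ((1 : SL(2, ℤ)) : X0 N) with hq₀
  set n := Fintype.card (X0 N) with hn
  have hnpos : 0 < n := Fintype.card_pos
  have haWH : ∀ q, aFam N q ∈ WH (N : ℝ) hh := fun q => jT_mem_WH hNpos dvd_rfl _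
  have hbWH : ∀ q, bFam N G q ∈ WH (N : ℝ) hh := fun q =>
    isWH_comp_smul N _ hol hinv (hgrow _)
  -- the coefficients of the interpolation polynomials are polynomials in `j`
  have key : ∀ b : X0 N → ℍ → ℂ, (∀ q, b q ∈ WH (N : ℝ) hh) →
      (∀ (γ : SL(2, ℤ)) (q : X0 N) (z : ℍ), b q (γ • z) = b (γ⁻¹ • q) z) →
      ∀ j : ℕ, ∃ p : Polynomial ℂ, ∀ z : ℍ,
        ((Coset.IP (aFam N) b).coeff j) z = p.eval (jFun z) := by
    intro b hb hbs j
    refine exists_poly_of_WH_invariant N (coeff_IP_mem (WH (N : ℝ) hh) _ _ haWH hb j)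
      (fun γ z => ?_)
    exact coeff_IP_invariant (aFam N) b (MulAction.toPerm γ⁻¹) z (γ • z)
      (fun q => aFam_smul N γ q z) (fun q => hbs γ q z) j
  choose pP hpP using key (bFam N G) hbWH (fun γ q z => bFam_smul N hinv γ q z)
  choose pQ hpQ using key (fun _ => 1) (fun _ => one_mem _) (fun _ _ _ => rfl)
  -- evaluation of the assembled polynomials
  have hev : ∀ (b : X0 N → ℍ → ℂ) (pc : ℕ → Polynomial ℂ),
      (∀ j z, ((Coset.IP (aFam N) b).coeff j) z = (pc j).eval (jFun z)) → ∀ τ : ℍ,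
      MvPolynomial.eval (fun i => jd (d i) τ) (mkPoly i1 iN n pc) =
        b q₀ τ * ∏ q ∈ Finset.univ.erase q₀, (jd N τ - aFam N q τ) := by
    intro b pc hpc τ
    rw [eval_mkPoly, h1, hN, jd_one]
    have hdeg : (Coset.IP (fun q => aFam N q τ) (fun q => b q τ)).natDegree < n :=
      Coset.natDegree_IP_lt _ _ hnpos
    have h2 := Coset.eval_IP_self (fun q => aFam N q τ) (fun q => b q τ) q₀
    rw [Polynomial.eval_eq_sum_range' hdeg] at h2
    have ha0 : aFam N q₀ = jd N := aFam_one N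
    simp only [ha0] at h2
    rw [← h2]
    refine Finset.sum_congr rfl fun j _ => ?_
    rw [← hpc j τ, coeff_IP_apply]
  refine ⟨mkPoly i1 iN n pP, mkPoly i1 iN n pQ, ?_, fun τ => ?_⟩
  · -- non-vanishing
    have hjdWH : jd N ∈ WH (N : ℝ) hh := isWH_jd_of_dvd hNpos dvd_rfl
    set x : X0 N → WH (N : ℝ) hh := fun q => ⟨jd N - aFam N q, sub_mem hjdWH (haWH q)⟩ with hx
    have hxne : ∀ q ∈ Finset.univ.erase q₀, qL (N : ℝ) hh (x q) ≠ 0 := by
      intro q hq
      rw [Finset.mem_erase] at hq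
      rw [Ne, map_eq_zero_iff _ (qL_injective (N : ℝ) hh)]
      intro h0
      have h3 : jd N - aFam N q = 0 := congrArg Subtype.val h0
      exact aFam_ne N hq.1 (sub_eq_zero.mp h3).symm
    have hprod : (∏ q ∈ Finset.univ.erase q₀, x q) ≠ 0 := by
      intro h0
      have h4 := congrArg (qL (N : ℝ) hh) h0
      rw [map_prod, map_zero] at h4
      exact Finset.prod_ne_zero_iff.mpr hxne h4
    by_contra hall
    push Not at hall
    apply hprod
    apply Subtype.ext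
    funext τ
    have h5 := hall τ
    rw [hev (fun _ => 1) pQ hpQ τ] at h5
    simp only [Pi.one_apply, one_mul] at h5
    show ((WH (N : ℝ) hh).val (∏ q ∈ Finset.univ.erase q₀, x q)) τ = 0
    rw [map_prod, Finset.prod_apply]
    simpa [hx] using h5
  · rw [hev (fun _ => 1) pQ hpQ τ, hev (bFam N G) pP hpP τ, bFam_one N hinv]
    simp only [Pi.one_apply, one_mul]

/-! ### Consequences for Laurent expansions -/

theorem T_mem_Gamma0 (N : ℕ) : ModularGroup.T ∈ Gamma0 N := by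
  rw [Gamma0_mem]
  simp [ModularGroup.T]

/-- A holomorphic `Γ₀(N)`-invariant function of exponential growth at `i∞` is weakly
holomorphic and `1`-periodic. -/
theorem isWH_one_of_invariant (N : ℕ) {G : ℍ → ℂ} (hol : MDiff G)
    (hinv : ∀ δ ∈ Gamma0 N, ∀ z : ℍ, G (δ • z) = G z)
    (hgrow : ∃ (C A : ℝ) (M : ℕ), ∀ z : ℍ, A ≤ z.im →
      ‖G z‖ ≤ C * Real.exp (2 * π * M * z.im)) :
    IsWH 1 G := by
  obtain ⟨C, A, M, hb⟩ := hgrow
  have per : Periodic (G ∘ ofComplex) ((1 : ℕ) : ℝ) := by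
    rw [Nat.cast_one]
    apply periodic_of_forall_vadd
    intro τ
    rw [← UpperHalfPlane.modular_T_smul]
    exact hinv _ (T_mem_Gamma0 N) τ
  have h := isWH_of_bound 1 hol per M C A hb
  rwa [Nat.cast_one] at h

/-- **Membership, formal form.**  The Laurent `q`-expansion of a holomorphic `Γ₀(N)`-invariant
function of exponential growth at all cusps is a rational function of the formal series
`j(q)` and `j(q^N)`. -/
theorem exists_qLaurent_rel (N : ℕ) [NeZero N] {G : ℍ → ℂ} (hol : MDiff G)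
    (hinv : ∀ δ ∈ Gamma0 N, ∀ z : ℍ, G (δ • z) = G z)
    (hgrow : ∀ γ : SL(2, ℤ), ∃ (C A : ℝ) (M : ℕ), ∀ z : ℍ, A ≤ z.im →
      ‖G (γ • z)‖ ≤ C * Real.exp (2 * π * M * z.im))
    {ι : Type*} (d : ι → ℕ) (hd : ∀ i, 0 < d i) (i1 iN : ι) (h1 : d i1 = 1) (hN : d iN = N) :
    IsWH 1 G ∧ ∃ P Q : MvPolynomial ι ℂ,
      MvPolynomial.aeval (fun i => Jser ℂ (d i)) Q ≠ 0 ∧
      qLaurent 1 G * MvPolynomial.aeval (fun i => Jser ℂ (d i)) Q =
        MvPolynomial.aeval (fun i => Jser ℂ (d i)) P ∧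
      ∀ τ : ℍ, G τ * MvPolynomial.eval (fun i => jd (d i) τ) Q =
        MvPolynomial.eval (fun i => jd (d i) τ) P := by
  have hWH : IsWH 1 G := isWH_one_of_invariant N hol hinv (by simpa using hgrow 1)
  obtain ⟨P, Q, ⟨τ0, hτ0⟩, hrel⟩ := exists_rel N hol hinv hgrow d i1 iN h1 hN
  refine ⟨hWH, P, Q, ?_, ?_, hrel⟩
  · intro h0
    have h2 := (bridge ℂ (RingHom.id ℂ) d hd Q).mp h0 τ0
    rw [MvPolynomial.map_id] at h2
    exact hτ0 h2
  · rw [Bridge.aeval_Jser_eq_qL d hd, Bridge.aeval_Jser_eq_qL d hd]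
    have h2 : (⟨G, hWH⟩ : WH 1 one_pos) * MvPolynomial.aeval (Bridge.jdWH d hd) Q =
        MvPolynomial.aeval (Bridge.jdWH d hd) P := by
      apply Subtype.ext
      funext τ
      show G τ * (MvPolynomial.aeval (Bridge.jdWH d hd) Q : WH 1 one_pos).1 τ =
        (MvPolynomial.aeval (Bridge.jdWH d hd) P : WH 1 one_pos).1 τ
      rw [Bridge.aeval_jdWH_apply, Bridge.aeval_jdWH_apply, hrel]
    have h3 := congrArg (qL 1 one_pos) h2
    rw [map_mul] at h3
    exact h3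

theorem aeval_Jser_mem_FK (N : ℕ) {ι : Type*} (d : ι → ℕ) (hdN : ∀ i, d i ∣ N)
    (P : MvPolynomial ι ℂ) : MvPolynomial.aeval (fun i => Jser ℂ (d i)) P ∈ FK ℂ N := by
  induction P using MvPolynomial.induction_on with
  | C a =>
    rw [MvPolynomial.aeval_C]
    exact (FK ℂ N).algebraMap_mem a
  | add p q hp hq =>
    rw [map_add]
    exact add_mem hp hq
  | mul_X p i hp =>
    rw [map_mul, MvPolynomial.aeval_X]
    exact mul_mem hp (Jser_mem ℂ N (hdN i))

theorem coe_aeval_Jgen (N : ℕ) {ι : Type*} (d : ι → ℕ) (hdN : ∀ i, d i ∣ N)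
    (P : MvPolynomial ι ℂ) :
    ((MvPolynomial.aeval (fun i => Jgen ℂ N (d i)) P : FK ℂ N) : LaurentSeries ℂ) =
      MvPolynomial.aeval (fun i => Jser ℂ (d i)) P := by
  have h := AlgHom.congr_fun
    (MvPolynomial.comp_aeval (fun i => Jgen ℂ N (d i)) (FK ℂ N).val) P
  rw [AlgHom.comp_apply] at h
  rw [show ((MvPolynomial.aeval (fun i => Jgen ℂ N (d i)) P : FK ℂ N) : LaurentSeries ℂ) =
    (FK ℂ N).val (MvPolynomial.aeval (fun i => Jgen ℂ N (d i)) P) from rfl, h]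
  congr 2
  funext i
  exact coe_Jgen ℂ N (hdN i)

/-- **Membership in the function field.**  The Laurent `q`-expansion of a holomorphic
`Γ₀(N)`-invariant function `G` of exponential growth at all cusps is an element `y` of the
function field `FK ℂ N`, with `y * Q(J) = P(J)` and `G * Q(j) = P(j)` for polynomials `P`, `Q`
in the generators (any family of divisors of `N` containing `1` and `N`). -/
theorem exists_FK_rel (N : ℕ) [NeZero N] {G : ℍ → ℂ} (hol : MDiff G)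
    (hinv : ∀ δ ∈ Gamma0 N, ∀ z : ℍ, G (δ • z) = G z)
    (hgrow : ∀ γ : SL(2, ℤ), ∃ (C A : ℝ) (M : ℕ), ∀ z : ℍ, A ≤ z.im →
      ‖G (γ • z)‖ ≤ C * Real.exp (2 * π * M * z.im))
    {ι : Type*} (d : ι → ℕ) (hdN : ∀ i, d i ∣ N) (i1 iN : ι) (h1 : d i1 = 1) (hN : d iN = N) :
    IsWH 1 G ∧ ∃ y : FK ℂ N, ((y : FK ℂ N) : LaurentSeries ℂ) = qLaurent 1 G ∧
      ∃ P Q : MvPolynomial ι ℂ,
        MvPolynomial.aeval (fun i => Jgen ℂ N (d i)) Q ≠ 0 ∧
        y * MvPolynomial.aeval (fun i => Jgen ℂ N (d i)) Q =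
          MvPolynomial.aeval (fun i => Jgen ℂ N (d i)) P ∧
        ∀ τ : ℍ, G τ * MvPolynomial.eval (fun i => jd (d i) τ) Q =
          MvPolynomial.eval (fun i => jd (d i) τ) P := by
  have hd : ∀ i, 0 < d i := fun i => Nat.pos_of_dvd_of_pos (hdN i) (NeZero.pos N)
  obtain ⟨hWH, P, Q, hQ, hPQ, hrel⟩ := exists_qLaurent_rel N hol hinv hgrow d hd i1 iN h1 hN
  have hmem : qLaurent 1 G ∈ FK ℂ N := by
    have h : qLaurent 1 G = MvPolynomial.aeval (fun i => Jser ℂ (d i)) P /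
        MvPolynomial.aeval (fun i => Jser ℂ (d i)) Q := by
      rw [eq_div_iff hQ, hPQ]
    rw [h]
    exact div_mem (aeval_Jser_mem_FK N d hdN P) (aeval_Jser_mem_FK N d hdN Q)
  refine ⟨hWH, ⟨qLaurent 1 G, hmem⟩, rfl, P, Q, ?_, ?_, hrel⟩
  · intro h0
    apply hQ
    rw [← coe_aeval_Jgen N d hdN Q, h0]
    rfl
  · apply Subtype.ext
    show qLaurent 1 G *
        ((MvPolynomial.aeval (fun i => Jgen ℂ N (d i)) Q : FK ℂ N) : LaurentSeries ℂ) =
      ((MvPolynomial.aeval (fun i => Jgen ℂ N (d i)) P : FK ℂ N) : LaurentSeries ℂ)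
    rw [coe_aeval_Jgen N d hdN, coe_aeval_Jgen N d hdN, hPQ]

/-- The Laurent `q`-expansion of a holomorphic `Γ₀(N)`-invariant function of exponential growth
at all cusps lies in the function field `FK ℂ N`. -/
theorem qLaurent_mem_FK (N : ℕ) [NeZero N] {G : ℍ → ℂ} (hol : MDiff G)
    (hinv : ∀ δ ∈ Gamma0 N, ∀ z : ℍ, G (δ • z) = G z)
    (hgrow : ∀ γ : SL(2, ℤ), ∃ (C A : ℝ) (M : ℕ), ∀ z : ℍ, A ≤ z.im →
      ‖G (γ • z)‖ ≤ C * Real.exp (2 * π * M * z.im)) :
    IsWH 1 G ∧ qLaurent 1 G ∈ FK ℂ N := by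
  obtain ⟨hWH, y, hy, -⟩ := exists_FK_rel N hol hinv hgrow (ι := Bool)
    (fun b => if b then N else 1) (fun b => by cases b <;> simp) false true (by simp) (by simp)
  exact ⟨hWH, hy ▸ y.2⟩

end DictMember

end Fermat.Agent.RR
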