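/-
RR project, package R4-mem: every weight two cusp form on `Γ₀(N)` is `y dj` for a rational
function `y = P/Q` of the functions `j(dτ)`, `d ∣ N` (analytic form of the dictionary relation).

`f * Q(j(d·)) = P(j(d·)) * jDeriv` on `ℍ`, with `Q(j(d·)) ≢ 0`.

Route: `G := f E₄ E₆ / Δ` is holomorphic, `Γ₀(N)`-invariant, of exponential growth at all
cusps, hence a rational function of `j`, `j_N` (`DictMember.exists_rel`); and
`f * j * (j - 1728) = G * jDeriv`.
-/
import Mathlib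
import Fermat.Agent.RR.DictMember
import Fermat.Agent.RR.HolOrder

set_option autoImplicit false

open UpperHalfPlane ModularForm Function Filter Complex Topology EisensteinSeries
open scoped MatrixGroups Manifold Real

namespace Fermat.Agent.RR

open Fermat.Agent.S23 Fermat.Agent.S24 CongruenceSubgroup

namespace DictLagrange

local notation "Δ" => ModularForm.discriminant

/-- The weight zero function `f E₄ E₆ / Δ` attached to a weight two form. -/
noncomputable def Gf (f : ℍ → ℂ) (z : ℍ) : ℂ := f z * E₄ z * E₆ z / Δ z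

theorem Gf_mdiff {f : ℍ → ℂ} (hf : MDiff f) : MDiff (Gf f) := by
  have h1 : MDiff (fun τ : ℍ => f τ * E₄ τ * E₆ τ) :=
    (hf.mul (JAnalytic.mf_hol E₄)).mul (JAnalytic.mf_hol E₆)
  rw [UpperHalfPlane.mdifferentiable_iff] at h1 ⊢
  have h2 := UpperHalfPlane.mdifferentiable_iff.mp discriminant_mdifferentiable
  intro z hz
  have h3 : DifferentiableWithinAt ℂ
      (fun w => ((fun τ : ℍ => f τ * E₄ τ * E₆ τ) ∘ ofComplex) w / ((Δ : ℍ → ℂ) ∘ ofComplex) w)
      {z : ℂ | 0 < z.im} z :=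
    (h1 z hz).div (h2 z hz) (discriminant_ne_zero _)
  exact h3

/-- the translate of `Gf f` by `γ` is `Gf` of the weight two slash of `f`. -/
theorem Gf_smul (f : ℍ → ℂ) (γ : SL(2, ℤ)) (z : ℍ) :
    Gf f (γ • z) = Gf (f ∣[(2 : ℤ)] γ) z := by
  have hd : denom γ z ≠ 0 := denom_ne_zero _ _
  simp only [Gf]
  rw [JAnalytic.mf_smul E₄ γ z, JAnalytic.mf_smul E₆ γ z, discriminant_smul,
    ModularForm.SL_slash_apply]
  have e2 : denom γ z ^ (-(2 : ℤ)) = (denom γ z ^ (2 : ℕ))⁻¹ := by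
    rw [zpow_neg, ← zpow_natCast]; norm_num
  have e4 : denom γ z ^ (4 : ℤ) = denom γ z ^ (4 : ℕ) := by
    rw [← zpow_natCast]; norm_num
  have e6 : denom γ z ^ (6 : ℤ) = denom γ z ^ (6 : ℕ) := by
    rw [← zpow_natCast]; norm_num
  have e12 : denom γ z ^ (12 : ℤ) = denom γ z ^ (12 : ℕ) := by
    rw [← zpow_natCast]; norm_num
  simp only [e2, e4, e6, e12]
  have hΔ := discriminant_ne_zero z
  field_simp

/-- growth of `Gf h` at `i∞` for `h` bounded at `i∞`. -/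
theorem Gf_grow {h : ℍ → ℂ} (hh : IsBoundedAtImInfty h) :
    ∃ (C A : ℝ), ∀ z : ℍ, A ≤ z.im → ‖Gf h z‖ ≤ C * Real.exp (2 * π * z.im) := by
  obtain ⟨C1, A1, h1⟩ := (UpperHalfPlane.isBoundedAtImInfty_iff).mp hh
  obtain ⟨C4, A4, h4⟩ := (UpperHalfPlane.isBoundedAtImInfty_iff).mp (JAnalytic.mf_bdd E₄)
  obtain ⟨C6, A6, h6⟩ := (UpperHalfPlane.isBoundedAtImInfty_iff).mp (JAnalytic.mf_bdd E₆)
  obtain ⟨CD, hCD⟩ := (Asymptotics.isBigO_iff.mp exp_isBigO_discriminant)
  obtain ⟨AD, hAD⟩ := (UpperHalfPlane.atImInfty_mem _).mp hCD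
  refine ⟨C1 * C4 * C6 * CD, max (max A1 A4) (max A6 AD), fun z hz => ?_⟩
  have hz1 : A1 ≤ z.im := le_trans (le_trans (le_max_left _ _) (le_max_left _ _)) hz
  have hz4 : A4 ≤ z.im := le_trans (le_trans (le_max_right _ _) (le_max_left _ _)) hz
  have hz6 : A6 ≤ z.im := le_trans (le_trans (le_max_left _ _) (le_max_right _ _)) hz
  have hzD : AD ≤ z.im := le_trans (le_trans (le_max_right _ _) (le_max_right _ _)) hz
  have b1 := h1 z hz1
  have b4 := h4 z hz4
  have b6 := h6 z hz6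
  have bD : ‖Real.exp (-2 * π * z.im)‖ ≤ CD * ‖Δ z‖ := hAD z hzD
  rw [Real.norm_of_nonneg (Real.exp_pos _).le] at bD
  have hΔ : 0 < ‖Δ z‖ := norm_pos_iff.mpr (discriminant_ne_zero z)
  have hexp : Real.exp (-2 * π * z.im) * Real.exp (2 * π * z.im) = 1 := by
    rw [← Real.exp_add]
    have : -2 * π * z.im + 2 * π * z.im = 0 := by ring
    rw [this, Real.exp_zero]
  have hep : 0 < Real.exp (2 * π * z.im) := Real.exp_pos _
  -- `1 ≤ CD * ‖Δ z‖ * exp (2π im z)`
  have hone : 1 ≤ CD * ‖Δ z‖ * Real.exp (2 * π * z.im) := by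
    calc (1 : ℝ) = Real.exp (-2 * π * z.im) * Real.exp (2 * π * z.im) := hexp.symm
      _ ≤ CD * ‖Δ z‖ * Real.exp (2 * π * z.im) := by
        exact mul_le_mul_of_nonneg_right bD hep.le
  have hC1 : 0 ≤ C1 := le_trans (norm_nonneg _) b1
  have hC4 : 0 ≤ C4 := le_trans (norm_nonneg _) b4
  have hC6 : 0 ≤ C6 := le_trans (norm_nonneg _) b6
  have hnum : ‖h z * E₄ z * E₆ z‖ ≤ C1 * C4 * C6 := by
    rw [norm_mul, norm_mul]
    exact mul_le_mul (mul_le_mul b1 b4 (norm_nonneg _) hC1) b6 (norm_nonneg _)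
      (mul_nonneg hC1 hC4)
  simp only [Gf]
  rw [norm_div, div_le_iff₀ hΔ]
  calc ‖h z * E₄ z * E₆ z‖ ≤ C1 * C4 * C6 := hnum
    _ = C1 * C4 * C6 * 1 := (mul_one _).symm
    _ ≤ C1 * C4 * C6 * (CD * ‖Δ z‖ * Real.exp (2 * π * z.im)) :=
        mul_le_mul_of_nonneg_left hone (mul_nonneg (mul_nonneg hC1 hC4) hC6)
    _ = C1 * C4 * C6 * CD * Real.exp (2 * π * z.im) * ‖Δ z‖ := by ring

/-- the key algebraic identity `f * j * (j - 1728) = (f E₄ E₆ / Δ) * jDeriv`. -/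
theorem mul_jFun_eq (f : ℍ → ℂ) (τ : ℍ) :
    f τ * (jFun τ * (jFun τ - 1728)) = Gf f τ * jDeriv τ := by
  have hΔ := discriminant_ne_zero τ
  rw [jFun_sub_1728]
  simp only [Gf, jDeriv, jFun]
  field_simp

/-- evaluation of a polynomial at the functions `j(dτ)` is holomorphic. -/
theorem mdiff_eval {ι : Type*} (d : ι → ℕ) (Q : MvPolynomial ι ℂ) :
    MDiff (fun τ : ℍ => MvPolynomial.eval (fun i => jd (d i) τ) Q) := by
  induction Q using MvPolynomial.induction_on with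
  | C a =>
    simp only [MvPolynomial.eval_C]
    exact mdifferentiable_const
  | add p q hp hq =>
    simp only [map_add]
    exact hp.add hq
  | mul_X p i hp =>
    simp only [map_mul, MvPolynomial.eval_X]
    exact hp.mul (jd_mdifferentiable (d i))

/-- holomorphic functions on `ℍ` have no zero divisors. -/
theorem mdiff_mul_eq_zero' {u v : ℍ → ℂ} (hu : MDiff u) (hv : MDiff v)
    (h : ∀ z, u z * v z = 0) : u = 0 ∨ v = 0 := by
  have huv : u * v = 0 := funext h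
  have h1 := ordAt_mul hu hv UpperHalfPlane.I
  have h2 : ordAt (u * v) UpperHalfPlane.I = ⊤ := (ordAt_eq_top_iff (hu.mul hv) _).mpr huv
  rw [h2] at h1
  rcases WithTop.add_eq_top.mp h1.symm with h3 | h3
  · exact Or.inl ((ordAt_eq_top_iff hu _).mp h3)
  · exact Or.inr ((ordAt_eq_top_iff hv _).mp h3)

theorem jFun_mul_sub_ne_zero : (fun τ : ℍ => jFun τ * (jFun τ - 1728)) ≠ 0 := by
  obtain ⟨τ, hτ⟩ := jFun_surjective 1
  intro h
  have := congrFun h τ
  rw [hτ] at this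
  norm_num at this

end DictLagrange

open DictLagrange

/-- **Dictionary, analytic relation for cusp forms.** Every weight two cusp form `f` on
`Γ₀(N)` satisfies `f * Q(j(d·)) = P(j(d·)) * jDeriv` for polynomials `P`, `Q` in the
`j(dτ)`, `d ∣ N`, with `Q(j(d·)) ≢ 0`. -/
theorem exists_poly_of_cuspForm (N : ℕ) [NeZero N] (f : CuspForm (Gamma0 N) 2) :
    ∃ P Q : MvPolynomial (N.divisors) ℂ,
      (∃ τ : ℍ, MvPolynomial.eval (fun d : N.divisors => jd (d : ℕ) τ) Q ≠ 0) ∧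
      ∀ τ : ℍ, f τ * MvPolynomial.eval (fun d : N.divisors => jd (d : ℕ) τ) Q =
        MvPolynomial.eval (fun d : N.divisors => jd (d : ℕ) τ) P * jDeriv τ := by
  have hN : N ≠ 0 := NeZero.ne N
  have hol : MDiff (Gf ⇑f) := Gf_mdiff (CuspFormClass.holo f)
  have hinv : ∀ δ ∈ Gamma0 N, ∀ z : ℍ, Gf (⇑f) (δ • z) = Gf (⇑f) z := by
    intro δ hδ z
    rw [Gf_smul]
    have h1 : (⇑f) ∣[(2 : ℤ)] δ = ⇑f :=
      SlashInvariantFormClass.slash_action_eq f _ ⟨δ, hδ, rfl⟩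
    rw [h1]
  have hgrow : ∀ γ : SL(2, ℤ), ∃ (C A : ℝ) (M : ℕ), ∀ z : ℍ, A ≤ z.im →
      ‖Gf (⇑f) (γ • z)‖ ≤ C * Real.exp (2 * π * M * z.im) := by
    intro γ
    have hz : IsZeroAtImInfty (⇑f ∣[(2 : ℤ)] γ) := CuspFormClass.zero_at_infty_slash f γ
    obtain ⟨C, A, h⟩ := Gf_grow hz.isBoundedAtImInfty
    refine ⟨C, A, 1, fun z hzA => ?_⟩
    rw [Gf_smul]
    simpa using h z hzA
  set i1 : N.divisors := ⟨1, Nat.one_mem_divisors.mpr hN⟩ with hi1
  set iN : N.divisors := ⟨N, Nat.mem_divisors_self N hN⟩ with hiN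
  obtain ⟨P₀, Q₀, ⟨τ₀, hτ₀⟩, hrel⟩ := DictMember.exists_rel N hol hinv hgrow
    (fun d : N.divisors => (d : ℕ)) i1 iN rfl rfl
  refine ⟨P₀, MvPolynomial.X i1 * (MvPolynomial.X i1 - MvPolynomial.C 1728) * Q₀, ?_, ?_⟩
  · -- non-vanishing
    by_contra hcon
    push Not at hcon
    have hev : ∀ τ : ℍ, (jFun τ * (jFun τ - 1728)) *
        MvPolynomial.eval (fun d : N.divisors => jd (d : ℕ) τ) Q₀ = 0 := by
      intro τ
      have := hcon τ
      simpa [hi1, jd_one] using this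
    have hm1 : MDiff (fun τ : ℍ => jFun τ * (jFun τ - 1728)) :=
      jFun_mdifferentiable.mul (jFun_mdifferentiable.sub mdifferentiable_const)
    rcases mdiff_mul_eq_zero' hm1 (mdiff_eval (fun d : N.divisors => (d : ℕ)) Q₀) hev
      with h | h
    · exact jFun_mul_sub_ne_zero h
    · exact hτ₀ (congrFun h τ₀)
  · intro τ
    have h1 := hrel τ
    have h2 := mul_jFun_eq (⇑f) τ
    simp only [map_mul, map_sub, MvPolynomial.eval_X, MvPolynomial.eval_C, hi1, jd_one]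
    calc f τ * (jFun τ * (jFun τ - 1728) *
          MvPolynomial.eval (fun d : N.divisors => jd (d : ℕ) τ) Q₀)
        = (f τ * (jFun τ * (jFun τ - 1728))) *
          MvPolynomial.eval (fun d : N.divisors => jd (d : ℕ) τ) Q₀ := by ring
      _ = Gf (⇑f) τ * jDeriv τ *
          MvPolynomial.eval (fun d : N.divisors => jd (d : ℕ) τ) Q₀ := by rw [h2]
      _ = (Gf (⇑f) τ * MvPolynomial.eval (fun d : N.divisors => jd (d : ℕ) τ) Q₀) *
          jDeriv τ := by ring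
      _ = MvPolynomial.eval (fun d : N.divisors => jd (d : ℕ) τ) P₀ * jDeriv τ := by rw [h1]

end Fermat.Agent.RR
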