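/-
RR package R3: abstract duality.

Setting: `F / K` a function field with its divisors (prelude `AlgebraicCurve.Divisor K F`), an
abstract "adele space" `V` (an `F`-vector space) with its `K`-subspaces `A D` (adeles bounded by
the divisor `D`), the diagonal `δ : F → V`, the principal divisor map `dv : F → Divisor K F` and
the Riemann-Roch spaces `L D`.  Assuming Riemann's theorem
`dim L(D) - dim V / (A(D) + F) = deg D + 1 - g` (structure `Duality.Axioms`), we prove:

* all `K`-linear functionals on `V` vanishing on some `A(D) + F` (Weil differentials) are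
  `F`-multiples of a single nonzero one (`Axioms.exists_tw_eq`);
* if `θ` is such a functional vanishing on `A(W) + F` and `W` is maximal with this property,
  then `dim V / (A(D) + F) = dim L(W - D)` for all `D` (`Axioms.duality`);
* hence Riemann-Roch `dim L(D) - dim L(W - D) = deg D + 1 - g`, `g = dim L(W)` and
  `deg W = 2 dim L(W) - 2`.
-/
import Mathlib
import Fermat.Prelude.Def_AlgebraicCurve_DivisorClassGroup

set_option autoImplicit false
set_option linter.unusedSectionVars false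

open AlgebraicCurve Module

namespace Fermat.Agent.RR

namespace Duality

variable {K F V : Type*} [Field K] [Field F] [Algebra K F] [AddCommGroup V] [Module K V]
  [Module F V] [IsScalarTower K F V]

/-- The twist `α ↦ ω (x • α)` of a `K`-linear functional on `V` by an element `x` of `F`. -/
def tw (x : F) (ω : Module.Dual K V) : Module.Dual K V :=
  ω.comp (Algebra.lsmul K K V x)

theorem tw_apply (x : F) (ω : Module.Dual K V) (α : V) : tw x ω α = ω (x • α) := rfl

theorem tw_tw (x y : F) (ω : Module.Dual K V) : tw x (tw y ω) = tw (x * y) ω := by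
  ext α
  rw [tw_apply, tw_apply, tw_apply, mul_comm, mul_smul]

theorem tw_one (ω : Module.Dual K V) : tw (1 : F) ω = ω := by
  ext α
  rw [tw_apply, one_smul]

theorem tw_zero_left (ω : Module.Dual K V) : tw (0 : F) ω = 0 := by
  ext α
  rw [tw_apply, zero_smul, map_zero, LinearMap.zero_apply]

theorem tw_zero_right (x : F) : tw x (0 : Module.Dual K V) = 0 := by
  ext α
  rw [tw_apply, LinearMap.zero_apply, LinearMap.zero_apply]

/-- `x ↦ tw x ω` as a `K`-linear map. -/
def twLin (ω : Module.Dual K V) : F →ₗ[K] Module.Dual K V where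
  toFun x := tw x ω
  map_add' x y := by
    ext α
    rw [LinearMap.add_apply, tw_apply, tw_apply, tw_apply, add_smul, map_add]
  map_smul' c x := by
    ext α
    rw [RingHom.id_apply, LinearMap.smul_apply, tw_apply, tw_apply, smul_assoc, map_smul]

theorem twLin_apply (ω : Module.Dual K V) (x : F) : twLin ω x = tw x ω := rfl

theorem eq_zero_of_tw_eq_zero {x : F} (hx : x ≠ 0) {ω : Module.Dual K V} (h : tw x ω = 0) :
    ω = 0 := by
  have h1 := congrArg (tw x⁻¹) h
  rwa [tw_tw, inv_mul_cancel₀ hx, tw_one, tw_zero_right] at h1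

theorem twLin_injective {ω : Module.Dual K V} (hω : ω ≠ 0) :
    Function.Injective (twLin (F := F) ω) := by
  rw [← LinearMap.ker_eq_bot, Submodule.eq_bot_iff]
  intro x hx
  by_contra hx0
  exact hω (eq_zero_of_tw_eq_zero hx0 (LinearMap.mem_ker.mp hx))

/-- An effective divisor has nonnegative degree. -/
theorem degree_nonneg {D : Divisor K F} (h : 0 ≤ D) : 0 ≤ Divisor.degree D := by
  unfold Divisor.degree
  rw [Finsupp.liftAddHom_apply]
  apply Finsupp.sum_nonneg
  intro v _
  have h1 : 0 ≤ D v := h v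
  exact mul_nonneg h1 (Int.natCast_nonneg _)

/-- The hypotheses on the abstract adele space: functoriality, and Riemann's theorem. -/
structure Axioms (A : Divisor K F → Submodule K V) (L : Divisor K F → Submodule K F)
    (δ : F →ₗ[K] V) (dv : F → Divisor K F) (g : ℤ) : Prop where
  mono : ∀ D D' : Divisor K F, D ≤ D' → A D ≤ A D'
  smul_mem : ∀ x : F, x ≠ 0 → ∀ (D : Divisor K F) (α : V), α ∈ A D → x • α ∈ A (D - dv x)
  smul_diag : ∀ x f : F, x • δ f = δ (x * f)
  deg_dv : ∀ x : F, x ≠ 0 → Divisor.degree (dv x) = 0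
  dv_inv : ∀ x : F, x ≠ 0 → dv x⁻¹ = -dv x
  mem_L_iff : ∀ x : F, x ≠ 0 → ∀ D : Divisor K F, x ∈ L D ↔ 0 ≤ D + dv x
  finite_L : ∀ D : Divisor K F, FiniteDimensional K (L D)
  finite_H1 : ∀ D : Divisor K F, FiniteDimensional K (V ⧸ (A D ⊔ LinearMap.range δ))
  riemann : ∀ D : Divisor K F, (Module.finrank K (L D) : ℤ)
      - (Module.finrank K (V ⧸ (A D ⊔ LinearMap.range δ)) : ℤ) = Divisor.degree D + 1 - g
  cover : ∀ α : V, ∃ D : Divisor K F, α ∈ A D
  exists_pos : ∃ P : Divisor K F, 0 ≤ P ∧ 0 < Divisor.degree P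

/-- The space of Weil differentials vanishing on `A D + F`. -/
def Omega (A : Divisor K F → Submodule K V) (δ : F →ₗ[K] V) (D : Divisor K F) :
    Submodule K (Module.Dual K V) :=
  (A D ⊔ LinearMap.range δ).dualAnnihilator

theorem mem_Omega_iff {A : Divisor K F → Submodule K V} {δ : F →ₗ[K] V} {D : Divisor K F}
    {ω : Module.Dual K V} :
    ω ∈ Omega A δ D ↔ (∀ α ∈ A D, ω α = 0) ∧ ∀ f : F, ω (δ f) = 0 := by
  rw [Omega, Submodule.mem_dualAnnihilator]
  constructor
  · intro h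
    exact ⟨fun α hα => h α (Submodule.mem_sup_left hα),
      fun f => h _ (Submodule.mem_sup_right (LinearMap.mem_range_self _ f))⟩
  · rintro ⟨h1, h2⟩ w hw
    obtain ⟨β, hβ, γ, ⟨f, rfl⟩, rfl⟩ := Submodule.mem_sup.mp hw
    rw [map_add, h1 β hβ, h2 f, add_zero]

variable {A : Divisor K F → Submodule K V} {L : Divisor K F → Submodule K F}
  {δ : F →ₗ[K] V} {dv : F → Divisor K F} {g : ℤ}

theorem Axioms.L_eq_bot (h : Axioms A L δ dv g) {D : Divisor K F}
    (hD : Divisor.degree D < 0) : L D = ⊥ := by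
  rw [Submodule.eq_bot_iff]
  intro x hx
  by_contra hx0
  have h1 := (h.mem_L_iff x hx0 D).mp hx
  have h2 := degree_nonneg h1
  rw [map_add, h.deg_dv x hx0, add_zero] at h2
  omega

theorem Axioms.smul_mem_iff (h : Axioms A L δ dv g) {x : F} (hx : x ≠ 0) (D : Divisor K F)
    (α : V) : x • α ∈ A (D - dv x) ↔ α ∈ A D := by
  refine ⟨fun hα => ?_, h.smul_mem x hx D α⟩
  have h1 := h.smul_mem x⁻¹ (inv_ne_zero hx) _ _ hα
  rwa [inv_smul_smul₀ hx, h.dv_inv x hx, sub_neg_eq_add, sub_add_cancel] at h1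

theorem Axioms.sup_range_eq_top_of_smul (h : Axioms A L δ dv g) {x : F} (hx : x ≠ 0)
    (D : Divisor K F) (hD : A (D - dv x) ⊔ LinearMap.range δ = ⊤) :
    A D ⊔ LinearMap.range δ = ⊤ := by
  rw [eq_top_iff]
  intro α _
  have hα : x • α ∈ A (D - dv x) ⊔ LinearMap.range δ := by rw [hD]; trivial
  obtain ⟨β, hβ, γ, ⟨f, rfl⟩, hsum⟩ := Submodule.mem_sup.mp hα
  have h1 : α = x⁻¹ • β + δ (x⁻¹ * f) := by
    rw [← h.smul_diag, ← smul_add, hsum, inv_smul_smul₀ hx]
  rw [h1]
  refine Submodule.add_mem_sup ?_ (LinearMap.mem_range_self _ _)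
  rw [← h.smul_mem_iff hx D, smul_inv_smul₀ hx]
  exact hβ

theorem Axioms.exists_le_mem (h : Axioms A L δ dv g) (s : Finset V) :
    ∃ D : Divisor K F, 0 ≤ D ∧ ∀ α ∈ s, α ∈ A D := by
  classical
  induction s using Finset.induction_on with
  | empty => exact ⟨0, le_rfl, by simp⟩
  | insert a s _ ih =>
    obtain ⟨D, hD0, hD⟩ := ih
    obtain ⟨D', hD'⟩ := h.cover a
    refine ⟨D ⊔ D', le_sup_of_le_left hD0, ?_⟩
    intro α hα
    rcases Finset.mem_insert.mp hα with rfl | hα
    · exact h.mono _ _ le_sup_right hD'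
    · exact h.mono _ _ le_sup_left (hD α hα)

/-- Some `A D₀ + F` is everything. -/
theorem Axioms.exists_eq_top (h : Axioms A L δ dv g) :
    ∃ D₀ : Divisor K F, A D₀ ⊔ LinearMap.range δ = ⊤ := by
  classical
  have := h.finite_H1 0
  obtain ⟨s, hs⟩ :=
    (Module.Finite.fg_top : (⊤ : Submodule K (V ⧸ (A 0 ⊔ LinearMap.range δ))).FG)
  have hsurj := Submodule.mkQ_surjective (A 0 ⊔ LinearMap.range δ)
  obtain ⟨D₀, hD₀, hmem⟩ := h.exists_le_mem (s.image (Function.surjInv hsurj))
  refine ⟨D₀, ?_⟩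
  have hle : A 0 ⊔ LinearMap.range δ ≤ A D₀ ⊔ LinearMap.range δ :=
    sup_le_sup_right (h.mono _ _ hD₀) _
  have hmap : Submodule.map (A 0 ⊔ LinearMap.range δ).mkQ (A D₀ ⊔ LinearMap.range δ) = ⊤ := by
    rw [eq_top_iff, ← hs, Submodule.span_le]
    intro q hq
    refine ⟨Function.surjInv hsurj q, ?_, Function.surjInv_eq hsurj q⟩
    exact Submodule.mem_sup_left (hmem _ (Finset.mem_image_of_mem _ hq))
  have h1 := Submodule.comap_map_mkQ (A 0 ⊔ LinearMap.range δ) (A D₀ ⊔ LinearMap.range δ)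
  rw [hmap, Submodule.comap_top, sup_eq_right.mpr hle] at h1
  exact h1.symm

/-- `A D + F` is everything as soon as `deg D` is large. -/
theorem Axioms.exists_bound (h : Axioms A L δ dv g) :
    ∃ c : ℤ, ∀ D : Divisor K F, c ≤ Divisor.degree D → A D ⊔ LinearMap.range δ = ⊤ := by
  obtain ⟨D₀, hD₀⟩ := h.exists_eq_top
  refine ⟨Divisor.degree D₀ + g, fun D hD => ?_⟩
  have := h.finite_L (D - D₀)
  have h1 := h.riemann (D - D₀)
  have h2 : 0 < Module.finrank K (L (D - D₀)) := by
    have h3 : (0 : ℤ) ≤ Module.finrank K (V ⧸ (A (D - D₀) ⊔ LinearMap.range δ)) :=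
      Int.natCast_nonneg _
    rw [map_sub] at h1
    omega
  obtain ⟨⟨z, hz⟩, hz0⟩ := Module.finrank_pos_iff_exists_ne_zero.mp h2
  have hz0' : z ≠ 0 := fun h0 => hz0 (Subtype.ext h0)
  have h3 := (h.mem_L_iff z hz0' _).mp hz
  rw [sub_add_eq_add_sub, sub_nonneg] at h3
  apply h.sup_range_eq_top_of_smul (inv_ne_zero hz0')
  rw [h.dv_inv z hz0', sub_neg_eq_add, eq_top_iff, ← hD₀]
  exact sup_le_sup_right (h.mono _ _ h3) _

theorem Axioms.finite_Omega (h : Axioms A L δ dv g) (D : Divisor K F) :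
    FiniteDimensional K (Omega A δ D) := by
  have := h.finite_H1 D
  exact Module.Finite.equiv (Submodule.dualQuotEquivDualAnnihilator (A D ⊔ LinearMap.range δ))

theorem Axioms.finrank_Omega (_h : Axioms A L δ dv g) (D : Divisor K F) :
    Module.finrank K (Omega A δ D) = Module.finrank K (V ⧸ (A D ⊔ LinearMap.range δ)) := by
  rw [Omega, ← (Submodule.dualQuotEquivDualAnnihilator (A D ⊔ LinearMap.range δ)).finrank_eq,
    Subspace.dual_finrank_eq]

/-- Twisting by `x ∈ L (D - E)` maps `Ω(D)` into `Ω(E)`. -/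
theorem Axioms.tw_mem_Omega (h : Axioms A L δ dv g) {D E : Divisor K F} {ω : Module.Dual K V}
    (hω : ω ∈ Omega A δ D) {x : F} (hx : x ∈ L (D - E)) : tw x ω ∈ Omega A δ E := by
  rcases eq_or_ne x 0 with rfl | hx0
  · rw [tw_zero_left]; exact Submodule.zero_mem _
  rw [mem_Omega_iff] at hω ⊢
  refine ⟨fun α hα => ?_, fun f => ?_⟩
  · rw [tw_apply]
    apply hω.1
    have h1 := (h.mem_L_iff x hx0 _).mp hx
    rw [sub_add_eq_add_sub, sub_nonneg] at h1
    exact h.mono _ _ (sub_le_iff_le_add.mpr h1) (h.smul_mem x hx0 E α hα)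
  · rw [tw_apply, h.smul_diag]; exact hω.2 _

/-- The Weil differentials form an `F`-vector space of dimension at most one. -/
theorem Axioms.exists_tw_eq (h : Axioms A L δ dv g) {D₁ D₂ : Divisor K F}
    {ω₁ ω₂ : Module.Dual K V} (h₁ : ω₁ ∈ Omega A δ D₁) (h₂ : ω₂ ∈ Omega A δ D₂)
    (hne : ω₁ ≠ 0) : ∃ x : F, ω₂ = tw x ω₁ := by
  rcases eq_or_ne ω₂ 0 with rfl | hne₂
  · exact ⟨0, (tw_zero_left _).symm⟩
  obtain ⟨c, hc⟩ := h.exists_bound
  obtain ⟨P, hP0, hPdeg⟩ := h.exists_pos
  -- a large multiple `B = n • P`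
  set m : ℤ := |c| + |Divisor.degree D₁| + |Divisor.degree D₂| + 3 * |g| + 4 with hm
  have hm0 : 0 ≤ m := by positivity
  obtain ⟨n, hn⟩ : ∃ n : ℕ, (n : ℤ) = m := ⟨m.toNat, Int.toNat_of_nonneg hm0⟩
  set B : Divisor K F := n • P with hB
  have hBdeg : Divisor.degree B = n * Divisor.degree P := by
    rw [hB, map_nsmul, nsmul_eq_mul]
  have hBm : m ≤ Divisor.degree B := by
    rw [hBdeg, hn]; nlinarith
  have hc1 : c ≤ Divisor.degree (D₁ + B) := by
    rw [map_add]; linarith [le_abs_self c, neg_abs_le (Divisor.degree D₁),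
      abs_nonneg (Divisor.degree D₂), abs_nonneg g]
  have hc2 : c ≤ Divisor.degree (D₂ + B) := by
    rw [map_add]; linarith [le_abs_self c, neg_abs_le (Divisor.degree D₂),
      abs_nonneg (Divisor.degree D₁), abs_nonneg g]
  have hnegB : Divisor.degree (-B) < 0 := by
    rw [map_neg]; linarith [abs_nonneg c, abs_nonneg (Divisor.degree D₁),
      abs_nonneg (Divisor.degree D₂), abs_nonneg g]
  -- dimensions
  have := h.finite_L (D₁ + B)
  have := h.finite_L (D₂ + B)
  have := h.finite_Omega (-B)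
  have hl : ∀ D : Divisor K F, c ≤ Divisor.degree D →
      (Module.finrank K (L D) : ℤ) = Divisor.degree D + 1 - g := by
    intro D hD
    have h1 := h.riemann D
    have h2 : Module.finrank K (V ⧸ (A D ⊔ LinearMap.range δ)) = 0 := by
      have : Subsingleton (V ⧸ (A D ⊔ LinearMap.range δ)) :=
        Submodule.Quotient.subsingleton_iff.mpr (hc D hD)
      exact Module.finrank_zero_of_subsingleton
    rw [h2] at h1
    push_cast at h1
    linarith
  have hl1 := hl _ hc1
  have hl2 := hl _ hc2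
  have hΩ : (Module.finrank K (Omega A δ (-B)) : ℤ) = Divisor.degree B - 1 + g := by
    have h1 := h.riemann (-B)
    rw [h.L_eq_bot hnegB, finrank_bot, ← h.finrank_Omega, map_neg] at h1
    push_cast at h1
    linarith
  -- the two subspaces
  set U₁ : Submodule K (Module.Dual K V) := Submodule.map (twLin ω₁) (L (D₁ + B)) with hU₁
  set U₂ : Submodule K (Module.Dual K V) := Submodule.map (twLin ω₂) (L (D₂ + B)) with hU₂
  have hU₁le : U₁ ≤ Omega A δ (-B) := by
    rintro _ ⟨x, hx, rfl⟩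
    exact h.tw_mem_Omega h₁ (by rwa [sub_neg_eq_add])
  have hU₂le : U₂ ≤ Omega A δ (-B) := by
    rintro _ ⟨x, hx, rfl⟩
    exact h.tw_mem_Omega h₂ (by rwa [sub_neg_eq_add])
  have hf₁ : Module.finrank K U₁ = Module.finrank K (L (D₁ + B)) :=
    ((Submodule.equivMapOfInjective (twLin ω₁) (twLin_injective hne) (L (D₁ + B))).finrank_eq).symm
  have hf₂ : Module.finrank K U₂ = Module.finrank K (L (D₂ + B)) :=
    ((Submodule.equivMapOfInjective (twLin ω₂) (twLin_injective hne₂) (L (D₂ + B))).finrank_eq).symm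
  have hsum := Submodule.finrank_sup_add_finrank_inf_eq U₁ U₂
  have hsup : Module.finrank K ↥(U₁ ⊔ U₂) ≤ Module.finrank K (Omega A δ (-B)) :=
    Submodule.finrank_mono (sup_le hU₁le hU₂le)
  have hpos : 0 < Module.finrank K ↥(U₁ ⊓ U₂) := by
    have e1 : (Module.finrank K ↥(U₁ ⊔ U₂) : ℤ) + Module.finrank K ↥(U₁ ⊓ U₂)
        = Module.finrank K U₁ + Module.finrank K U₂ := by exact_mod_cast hsum
    have e2 : (Module.finrank K ↥(U₁ ⊔ U₂) : ℤ) ≤ Module.finrank K (Omega A δ (-B)) := by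
      exact_mod_cast hsup
    rw [hf₁, hf₂, hl1, hl2, map_add, map_add] at e1
    rw [hΩ] at e2
    have e3 : (0 : ℤ) < Module.finrank K ↥(U₁ ⊓ U₂) := by
      linarith [le_abs_self c, neg_abs_le (Divisor.degree D₁), neg_abs_le (Divisor.degree D₂),
        le_abs_self g, abs_nonneg c]
    exact_mod_cast e3
  obtain ⟨⟨η, hη⟩, hη0⟩ :=
    (Module.finrank_pos_iff_exists_ne_zero (R := K) (M := ↥(U₁ ⊓ U₂))).mp hpos
  have hη0' : η ≠ 0 := fun h0 => hη0 (Subtype.ext h0)
  obtain ⟨⟨x₁, -, hx₁⟩, ⟨x₂, -, hx₂⟩⟩ := Submodule.mem_inf.mp hη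
  rw [twLin_apply] at hx₁ hx₂
  have hx₂0 : x₂ ≠ 0 := by
    rintro rfl
    rw [tw_zero_left] at hx₂
    exact hη0' hx₂.symm
  refine ⟨x₂⁻¹ * x₁, ?_⟩
  rw [← tw_tw, hx₁, ← hx₂, tw_tw, inv_mul_cancel₀ hx₂0, tw_one]

/-- **Duality.**  If `θ` is a Weil differential whose divisor is `W`, then the index of
speciality of `D` is `dim L (W - D)`. -/
theorem Axioms.duality (h : Axioms A L δ dv g) {W : Divisor K F} {θ : Module.Dual K V}
    (hθ : θ ∈ Omega A δ W) (hmax : ∀ D : Divisor K F, (∀ α ∈ A D, θ α = 0) → D ≤ W)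
    (D : Divisor K F) :
    Module.finrank K (V ⧸ (A D ⊔ LinearMap.range δ)) = Module.finrank K (L (W - D)) := by
  have hθ0 : θ ≠ 0 := by
    rintro rfl
    obtain ⟨P, hP0, hPdeg⟩ := h.exists_pos
    have h1 := hmax (W + P) (fun α _ => rfl)
    have hP : P ≤ 0 := by simpa using h1
    have h2 := degree_nonneg (neg_nonneg.mpr hP)
    rw [map_neg] at h2
    linarith
  rw [← h.finrank_Omega D]
  have hinj : Function.Injective (twLin (F := F) θ) := twLin_injective hθ0
  have hmap : Submodule.map (twLin θ) (L (W - D)) = Omega A δ D := by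
    apply le_antisymm
    · rintro _ ⟨x, hx, rfl⟩
      exact h.tw_mem_Omega hθ hx
    · intro ω hω
      obtain ⟨x, rfl⟩ := h.exists_tw_eq hθ hω hθ0
      refine ⟨x, ?_, rfl⟩
      rcases eq_or_ne x 0 with rfl | hx0
      · exact Submodule.zero_mem _
      have h1 : D - dv x ≤ W := by
        apply hmax
        intro β hβ
        have h2 : x⁻¹ • β ∈ A D := by
          rw [← h.smul_mem_iff hx0 D, smul_inv_smul₀ hx0]; exact hβ
        have h3 := (mem_Omega_iff.mp hω).1 _ h2
        rwa [tw_apply, smul_inv_smul₀ hx0] at h3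
      show x ∈ L (W - D)
      rw [h.mem_L_iff x hx0, sub_add_eq_add_sub, sub_nonneg]
      exact sub_le_iff_le_add.mp h1
  rw [← hmap]
  exact ((Submodule.equivMapOfInjective (twLin θ) hinj (L (W - D))).finrank_eq).symm

/-- **Riemann-Roch.** -/
theorem Axioms.riemann_roch (h : Axioms A L δ dv g) {W : Divisor K F} {θ : Module.Dual K V}
    (hθ : θ ∈ Omega A δ W) (hmax : ∀ D : Divisor K F, (∀ α ∈ A D, θ α = 0) → D ≤ W)
    (D : Divisor K F) :
    (Module.finrank K (L D) : ℤ) - (Module.finrank K (L (W - D)) : ℤ)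
      = Divisor.degree D + 1 - g := by
  rw [← h.duality hθ hmax D]
  exact h.riemann D

/-- The genus is `dim L(W)`. -/
theorem Axioms.finrank_L_canonical (h : Axioms A L δ dv g) {W : Divisor K F}
    {θ : Module.Dual K V} (hθ : θ ∈ Omega A δ W)
    (hmax : ∀ D : Divisor K F, (∀ α ∈ A D, θ α = 0) → D ≤ W)
    (h0 : Module.finrank K (L 0) = 1) : (Module.finrank K (L W) : ℤ) = g := by
  have h1 := h.riemann_roch hθ hmax 0
  rw [sub_zero, h0, map_zero] at h1
  push_cast at h1
  linarith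

/-- `deg W = 2 g - 2`, in the form `deg W = 2 dim L(W) - 2`. -/
theorem Axioms.degree_canonical (h : Axioms A L δ dv g) {W : Divisor K F}
    {θ : Module.Dual K V} (hθ : θ ∈ Omega A δ W)
    (hmax : ∀ D : Divisor K F, (∀ α ∈ A D, θ α = 0) → D ≤ W)
    (h0 : Module.finrank K (L 0) = 1) :
    Divisor.degree W = 2 * (Module.finrank K (L W) : ℤ) - 2 := by
  have h1 := h.riemann_roch hθ hmax W
  have h2 := h.finrank_L_canonical hθ hmax h0
  rw [sub_self, h0] at h1
  push_cast at h1
  linarith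

end Duality

end Fermat.Agent.RR
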