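import Fermat.Agent.RR.Defs
import Fermat.Agent.RR.DualityAbs
import Fermat.Agent.S24.Principal

/-!
# RR package D: duality `i(D) = l(W - D)` from a maximal Weil differential

Given Riemann's theorem and a `K`-linear functional `θ` on repartitions which kills `F` and
`repartitionsOf W` but not `repartitionsOf (W + v)` for any place `v`:
`finrank (H1 D) = finrank L(W - D)` for every divisor `D`.
(Classical counting argument: the Weil differentials form an `F`-space of dimension `≤ 1`;
the abstract argument is in `DualityAbs.lean`, this file instantiates it with the prelude's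
repartitions.)
-/

set_option autoImplicit false

noncomputable section

namespace Fermat.Agent.RR

open AlgebraicCurve

variable {K F : Type*} [Field K] [Field F] [Algebra K F]

namespace DualityInst

/-- The principal divisor of `f` (and `0` for `f = 0`). -/
def dv (hpd : HasPrincipalDivisors K F) (f : F) : Divisor K F :=
  open Classical in if h : f ≠ 0 then (hpd.exists_divisor f h).choose else 0

theorem dv_apply (hpd : HasPrincipalDivisors K F) {f : F} (hf : f ≠ 0) (v : Place K F) :
    dv hpd f v = v.ord f := by
  unfold dv
  rw [dif_pos hf]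
  exact (hpd.exists_divisor f hf).choose_spec.1 v

theorem degree_dv (hpd : HasPrincipalDivisors K F) {f : F} (hf : f ≠ 0) :
    Divisor.degree (dv hpd f) = 0 := by
  unfold dv
  rw [dif_pos hf]
  exact (hpd.exists_divisor f hf).choose_spec.2

theorem dv_inv (hpd : HasPrincipalDivisors K F) {f : F} (hf : f ≠ 0) :
    dv hpd f⁻¹ = -dv hpd f := by
  ext v
  rw [Finsupp.neg_apply, dv_apply hpd (inv_ne_zero hf), dv_apply hpd hf, Place.ord_inv]

theorem range_diagRep : LinearMap.range (diagRep K F) = principalRepartitions K F := by
  ext α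
  rw [mem_principalRepartitions_iff]
  constructor
  · rintro ⟨f, rfl⟩
    exact ⟨f, rfl⟩
  · rintro ⟨f, hf⟩
    exact ⟨f, Subtype.ext hf.symm⟩

theorem smul_coe (x : F) (α : ↥(repartitions K F)) (v : Place K F) :
    ((x • α : ↥(repartitions K F)) : Place K F → F) v = x * (α : Place K F → F) v := rfl

theorem smul_mem_repartitionsOf (hpd : HasPrincipalDivisors K F) {x : F} (hx : x ≠ 0)
    (D : Divisor K F) (α : ↥(repartitions K F)) (hα : α ∈ repartitionsOf D) :
    x • α ∈ repartitionsOf (D - dv hpd x) := by
  rw [mem_repartitionsOf_iff] at hα ⊢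
  intro v
  rw [smul_coe]
  rcases hα v with h0 | h1
  · left; rw [h0, mul_zero]
  · by_cases h0 : (α : Place K F → F) v = 0
    · left; rw [h0, mul_zero]
    · right
      rw [v.ord_mul hx h0, Finsupp.sub_apply, dv_apply hpd hx]
      omega

theorem mem_riemannRochSpace_iff_dv (hpd : HasPrincipalDivisors K F) {x : F} (hx : x ≠ 0)
    (D : Divisor K F) : x ∈ riemannRochSpace D ↔ 0 ≤ D + dv hpd x := by
  rw [mem_riemannRochSpace_iff, Finsupp.le_def]
  refine forall_congr' fun v => ?_
  rw [Finsupp.add_apply, dv_apply hpd hx, Finsupp.zero_apply]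
  constructor
  · rintro (h | h)
    · exact absurd h hx
    · omega
  · intro h
    right; omega

/-- Every repartition has finitely many poles. -/
theorem finite_poles (hfin : ∀ y : F, Transcendental K y → {v : Place K F | 0 < v.ord y}.Finite)
    (α : ↥(repartitions K F)) :
    {v : Place K F | ¬ v.adicValuation ((α : Place K F → F) v) ≤ 1}.Finite := by
  obtain ⟨a, ha⟩ := α
  show {v : Place K F | ¬ v.adicValuation (a v) ≤ 1}.Finite
  unfold repartitions at ha
  induction ha using Algebra.adjoin_induction with
  | mem x hx => exact hx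
  | algebraMap f =>
    refine (Fermat.Agent.S24.Principal.finite_ord_ne_zero hfin f).subset ?_
    intro v hv
    have h1 : v.ord f < 0 := v.not_adicValuation_le_one_iff.mp hv
    exact ne_of_lt h1
  | add x y _ _ hx hy =>
    refine (hx.union hy).subset ?_
    intro v hv
    by_contra hcon
    simp only [Set.mem_union, Set.mem_ofPred_eq, not_or, not_not] at hcon
    exact hv ((Valuation.map_add _ _ _).trans (max_le hcon.1 hcon.2))
  | mul x y _ _ hx hy =>
    refine (hx.union hy).subset ?_
    intro v hv
    by_contra hcon
    simp only [Set.mem_union, Set.mem_ofPred_eq, not_or, not_not] at hcon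
    apply hv
    show v.adicValuation (x v * y v) ≤ 1
    rw [map_mul]
    exact mul_le_one' hcon.1 hcon.2

/-- Every repartition lies in some `repartitionsOf D`. -/
theorem exists_mem_repartitionsOf
    (hfin : ∀ y : F, Transcendental K y → {v : Place K F | 0 < v.ord y}.Finite)
    (α : ↥(repartitions K F)) : ∃ D : Divisor K F, α ∈ repartitionsOf D := by
  classical
  have hP := finite_poles hfin α
  refine ⟨Finsupp.onFinset hP.toFinset
    (fun v => max (-v.ord ((α : Place K F → F) v)) 0) ?_, ?_⟩
  · intro v hv
    rw [Set.Finite.mem_toFinset, Set.mem_ofPred_eq, v.not_adicValuation_le_one_iff]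
    by_contra hcon
    apply hv
    rw [max_eq_right]
    omega
  · rw [mem_repartitionsOf_iff]
    intro v
    right
    rw [Finsupp.onFinset_apply]
    have := le_max_left (-v.ord ((α : Place K F → F) v)) 0
    omega

/-- There is an effective divisor of positive degree. -/
theorem exists_pos (hP : PlaceFacts K F) :
    ∃ P : Divisor K F, 0 ≤ P ∧ 0 < Divisor.degree P := by
  obtain ⟨x, hx⟩ := hP.htr
  have hsum := hP.hsum x hx
  have hfd := hP.hfd x hx
  have hpos : 0 < Module.finrank (IntermediateField.adjoin K {x}) F := Module.finrank_pos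
  obtain ⟨v, -⟩ : ∃ v : Place K F, 0 < v.ord x := by
    by_contra hcon
    have hempty : {v : Place K F | 0 < v.ord x} = ∅ := by
      ext v
      simp only [Set.mem_ofPred_eq, Set.mem_empty_iff_false, iff_false]
      exact fun hv => hcon ⟨v, hv⟩
    rw [hempty, finsum_mem_empty] at hsum
    have : (0 : ℤ) < Module.finrank (IntermediateField.adjoin K {x}) F := by exact_mod_cast hpos
    omega
  refine ⟨Finsupp.single v 1, ?_, ?_⟩
  · rw [Finsupp.le_def]
    intro w
    classical
    rw [Finsupp.zero_apply, Finsupp.single_apply]
    split_ifs <;> norm_num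
  · rw [Divisor.degree_single, hP.hdeg v]
    norm_num

theorem axioms_of (hP : PlaceFacts K F) (hR : RiemannFacts K F)
    (hpd : HasPrincipalDivisors K F) :
    Duality.Axioms (V := ↥(repartitions K F)) repartitionsOf riemannRochSpace (diagRep K F)
      (dv hpd) (Module.finrank K (H1 (0 : Divisor K F)) : ℤ) where
  mono := fun _ _ h => repartitionsOf_mono h
  smul_mem := fun _ hx D α hα => smul_mem_repartitionsOf hpd hx D α hα
  smul_diag := fun _ _ => rfl
  deg_dv := fun _ hx => degree_dv hpd hx
  dv_inv := fun _ hx => dv_inv hpd hx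
  mem_L_iff := fun _ hx D => mem_riemannRochSpace_iff_dv hpd hx D
  finite_L := hR.finite_L
  finite_H1 := fun D => by
    rw [range_diagRep]
    exact hR.finite_H1 D
  riemann := fun D => by
    rw [range_diagRep]
    exact hR.riemann D
  cover := exists_mem_repartitionsOf hP.hfin
  exists_pos := exists_pos hP

/-- A functional vanishing on `repartitionsOf W` but on no `repartitionsOf (W + v)` vanishes
on `repartitionsOf D` only if `D ≤ W`. -/
theorem le_of_vanishing (W : Divisor K F) (θ : ↥(repartitions K F) →ₗ[K] K)
    (h2 : ∀ α ∈ repartitionsOf W, θ α = 0)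
    (h3 : ∀ v : Place K F, ∃ α ∈ repartitionsOf (W + Finsupp.single v 1), θ α ≠ 0)
    (D : Divisor K F) (hD : ∀ α ∈ repartitionsOf D, θ α = 0) : D ≤ W := by
  classical
  rw [Finsupp.le_def]
  intro v
  by_contra hcon
  rw [not_le] at hcon
  obtain ⟨α, hα, hθα⟩ := h3 v
  apply hθα
  have h4 : α - singleRep v ((α : Place K F → F) v) ∈ repartitionsOf W := by
    rw [mem_repartitionsOf_iff] at hα ⊢
    intro w
    show ((α : Place K F → F) w - (singleRep v ((α : Place K F → F) v) : Place K F → F) w) = 0
      ∨ -W w ≤ w.ord ((α : Place K F → F) w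
        - (singleRep v ((α : Place K F → F) v) : Place K F → F) w)
    by_cases hw : w = v
    · left
      rw [hw, singleRep_apply_self, sub_self]
    · rw [singleRep_apply_of_ne hw, sub_zero]
      have h5 := hα w
      rwa [Finsupp.add_apply, Finsupp.single_apply, if_neg (fun h => hw h.symm), add_zero] at h5
  have h6 : singleRep v ((α : Place K F → F) v) ∈ repartitionsOf D := by
    rw [mem_repartitionsOf_iff] at hα ⊢
    intro w
    by_cases hw : w = v
    · rw [hw, singleRep_apply_self]
      have h5 := hα v
      rw [Finsupp.add_apply, Finsupp.single_apply, if_pos rfl] at h5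
      rcases h5 with h5 | h5
      · left; exact h5
      · right; omega
    · left
      exact singleRep_apply_of_ne hw _
  have h7 := h2 _ h4
  rw [map_sub, hD _ h6, sub_zero] at h7
  exact h7

end DualityInst

theorem finrank_H1_eq (hP : PlaceFacts K F) (hR : RiemannFacts K F) (W : Divisor K F)
    (θ : ↥(repartitions K F) →ₗ[K] K)
    (h1 : ∀ f : F, θ (diagRep K F f) = 0)
    (h2 : ∀ α ∈ repartitionsOf W, θ α = 0)
    (h3 : ∀ v : Place K F, ∃ α ∈ repartitionsOf (W + Finsupp.single v 1), θ α ≠ 0)
    (D : Divisor K F) :
    Module.finrank K (H1 D) = Module.finrank K (riemannRochSpace (W - D)) := by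
  have hpd : HasPrincipalDivisors K F :=
    Fermat.Agent.S24.hasPrincipalDivisors_of hP.hdeg hP.hfin hP.hsum
  have hax := DualityInst.axioms_of hP hR hpd
  have hθ : θ ∈ Duality.Omega (V := ↥(repartitions K F)) repartitionsOf (diagRep K F) W :=
    Duality.mem_Omega_iff.mpr ⟨h2, h1⟩
  have key := hax.duality hθ (DualityInst.le_of_vanishing W θ h2 h3) D
  rw [DualityInst.range_diagRep] at key
  exact key

end Fermat.Agent.RR

end
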