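import Mathlib

/-!
# Tate's trace for finite-potent endomorphisms, base file
(J. Tate, *Residues of differentials on curves*, §1)

`θ : V →ₗ[K] V` is finite-potent if `θ ^ n V` is finite-dimensional for some `n`; its trace
`ftr θ` is the ordinary trace of `θ` on `θ ^ n V` (`n` large).  This file contains the definition,
the key characterisation `ftr_eq_trace_restrict` (the trace can be computed on any
finite-dimensional `θ`-stable subspace containing some `θ ^ n V`), and (T1), (T3), homogeneity.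
-/

set_option autoImplicit false

namespace Fermat.Agent.RR

variable {K V : Type*} [Field K] [AddCommGroup V] [Module K V]

/-- `θ` is finite-potent: some power of `θ` has finite-dimensional range. -/
def IsFinitePotent (θ : V →ₗ[K] V) : Prop :=
  ∃ n : ℕ, FiniteDimensional K (LinearMap.range (θ ^ n))

namespace FinitePotent

/-- A `θ`-stable subspace is stable under the powers of `θ`. -/
theorem pow_mem_of_stable (θ : V →ₗ[K] V) (W : Submodule K V) (hW : ∀ x ∈ W, θ x ∈ W)
    (k : ℕ) : ∀ x ∈ W, (θ ^ k) x ∈ W := by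
  induction k with
  | zero => intro x hx; simpa using hx
  | succ k ih =>
    intro x hx
    rw [pow_succ', Module.End.mul_apply]
    exact hW _ (ih x hx)

/-- The range of a power of `θ` is `θ`-stable. -/
theorem range_pow_stable (θ : V →ₗ[K] V) (k : ℕ) :
    ∀ x ∈ LinearMap.range (θ ^ k), θ x ∈ LinearMap.range (θ ^ k) := by
  rintro x ⟨y, rfl⟩
  exact ⟨θ y, by rw [← Module.End.mul_apply, ← Module.End.mul_apply, ← pow_succ, ← pow_succ']⟩

/-- The ranges of the powers decrease. -/
theorem range_pow_le_of_le (θ : V →ₗ[K] V) {m k : ℕ} (h : m ≤ k) :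
    LinearMap.range (θ ^ k) ≤ LinearMap.range (θ ^ m) := by
  obtain ⟨j, rfl⟩ := Nat.exists_eq_add_of_le h
  rintro x ⟨y, rfl⟩
  exact ⟨(θ ^ j) y, by rw [← Module.End.mul_apply, ← pow_add]⟩

/-- `θ`, as a map `W → U`, when `θ W ⊆ U`. -/
def restrictTo {V' : Type*} [AddCommGroup V'] [Module K V'] (θ : V →ₗ[K] V') (W : Submodule K V)
    (U : Submodule K V') (h : ∀ x ∈ W, θ x ∈ U) : W →ₗ[K] U :=
  (θ.domRestrict W).codRestrict U (fun x => h x x.2)

@[simp] theorem coe_restrictTo {V' : Type*} [AddCommGroup V'] [Module K V'] (θ : V →ₗ[K] V')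
    (W : Submodule K V) (U : Submodule K V') (h : ∀ x ∈ W, θ x ∈ U) (x : W) :
    ((restrictTo θ W U h x : U) : V') = θ x := rfl

/-- One step: if `θ W ⊆ U ⊆ W` then the traces of `θ` on `W` and `U` agree. -/
theorem trace_restrict_eq_of_map_le (θ : V →ₗ[K] V) (W U : Submodule K V)
    [FiniteDimensional K W] [FiniteDimensional K U]
    (hW : ∀ x ∈ W, θ x ∈ W) (hU : ∀ x ∈ U, θ x ∈ U) (hUW : U ≤ W) (hWU : ∀ x ∈ W, θ x ∈ U) :
    LinearMap.trace K W (θ.restrict hW) = LinearMap.trace K U (θ.restrict hU) := by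
  have h1 : θ.restrict hW = (Submodule.inclusion hUW) ∘ₗ (restrictTo θ W U hWU) := by
    ext x
    rfl
  have h2 : θ.restrict hU = (restrictTo θ W U hWU) ∘ₗ (Submodule.inclusion hUW) := by
    ext x
    rfl
  rw [h1, h2, LinearMap.trace_comp_comm']

/-- If `θ ^ k W ⊆ U ⊆ W` (all stable) then the traces of `θ` on `W` and `U` agree. -/
theorem trace_restrict_eq_of_pow_map_le (θ : V →ₗ[K] V) (k : ℕ) :
    ∀ (W U : Submodule K V) [FiniteDimensional K W] [FiniteDimensional K U]
      (hW : ∀ x ∈ W, θ x ∈ W) (hU : ∀ x ∈ U, θ x ∈ U), U ≤ W → W.map (θ ^ k) ≤ U →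
      LinearMap.trace K W (θ.restrict hW) = LinearMap.trace K U (θ.restrict hU) := by
  induction k with
  | zero =>
    intro W U _ _ hW hU hUW hk
    have hWU : W ≤ U := by
      intro x hx
      exact hk ⟨x, hx, by simp⟩
    obtain rfl : U = W := le_antisymm hUW hWU
    rfl
  | succ k ih =>
    intro W U _ _ hW hU hUW hk
    let U' : Submodule K V := U ⊔ W.map (θ ^ k)
    have hU'W : U' ≤ W := by
      refine sup_le hUW ?_
      rintro _ ⟨x, hx, rfl⟩
      exact pow_mem_of_stable θ W hW k x hx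
    have : FiniteDimensional K U' := Submodule.finiteDimensional_of_le hU'W
    have hU'U : ∀ x ∈ U', θ x ∈ U := by
      intro x hx
      obtain ⟨u, hu, w, hw, rfl⟩ := Submodule.mem_sup.mp hx
      rw [map_add]
      refine U.add_mem (hU u hu) ?_
      obtain ⟨y, hy, rfl⟩ := hw
      exact hk ⟨y, hy, by rw [pow_succ', Module.End.mul_apply]⟩
    have hU' : ∀ x ∈ U', θ x ∈ U' := fun x hx => (le_sup_left : U ≤ U') (hU'U x hx)
    rw [ih W U' hW hU' hU'W le_sup_right,
      trace_restrict_eq_of_map_le θ U' U hU' hU le_sup_left hU'U]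

end FinitePotent

open Classical in
/-- Tate's trace of a finite-potent endomorphism (junk value `0` if `θ` is not finite-potent). -/
noncomputable def ftr (θ : V →ₗ[K] V) : K :=
  if h : IsFinitePotent θ then
    haveI : FiniteDimensional K (LinearMap.range (θ ^ Nat.find h)) := Nat.find_spec h
    LinearMap.trace K (LinearMap.range (θ ^ Nat.find h))
      (θ.restrict (FinitePotent.range_pow_stable θ (Nat.find h)))
  else 0

namespace FinitePotent

open Classical in
/-- Unfolding of the definition of `ftr` for a finite-potent endomorphism. -/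
theorem exists_ftr_eq (θ : V →ₗ[K] V) (h : IsFinitePotent θ) :
    ∃ (m : ℕ) (_ : FiniteDimensional K (LinearMap.range (θ ^ m))),
      ftr θ = LinearMap.trace K (LinearMap.range (θ ^ m))
        (θ.restrict (range_pow_stable θ m)) := by
  refine ⟨Nat.find h, Nat.find_spec h, ?_⟩
  rw [ftr, dif_pos h]

/-- `ftr` of a non-finite-potent endomorphism is `0`. -/
theorem ftr_eq_zero_of_not (θ : V →ₗ[K] V) (h : ¬ IsFinitePotent θ) : ftr θ = 0 := by
  rw [ftr, dif_neg h]

/-- For `c ≠ 0`, `c • θ` is finite-potent iff `θ` is. -/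
theorem isFinitePotent_smul_iff {c : K} (hc : c ≠ 0) (θ : V →ₗ[K] V) :
    IsFinitePotent (c • θ) ↔ IsFinitePotent θ := by
  have hr : ∀ n : ℕ, LinearMap.range ((c • θ) ^ n) = LinearMap.range (θ ^ n) := by
    intro n
    rw [smul_pow]
    exact LinearMap.range_smul _ _ (pow_ne_zero n hc)
  constructor
  · rintro ⟨n, hn⟩
    exact ⟨n, by rw [← hr n]; exact hn⟩
  · rintro ⟨n, hn⟩
    exact ⟨n, by rw [hr n]; exact hn⟩

end FinitePotent

open FinitePotent

/-- Characterisation: the trace can be computed on ANY finite-dimensional `θ`-stable subspace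
containing the range of some power of `θ`. -/
theorem ftr_eq_trace_restrict (θ : V →ₗ[K] V) (W : Submodule K V) [FiniteDimensional K W]
    (hW : ∀ w ∈ W, θ w ∈ W) (n : ℕ) (hn : LinearMap.range (θ ^ n) ≤ W) :
    ftr θ = LinearMap.trace K W (θ.restrict hW) := by
  have hfp : IsFinitePotent θ := ⟨n, Submodule.finiteDimensional_of_le hn⟩
  obtain ⟨m, hm, hftr⟩ := exists_ftr_eq θ hfp
  rw [hftr]
  let S : Submodule K V := W ⊔ LinearMap.range (θ ^ m)
  have hR := range_pow_stable θ m
  have hS : ∀ x ∈ S, θ x ∈ S := by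
    intro x hx
    obtain ⟨w, hw, r, hr, rfl⟩ := Submodule.mem_sup.mp hx
    rw [map_add]
    exact S.add_mem ((le_sup_left : W ≤ S) (hW w hw))
      ((le_sup_right : LinearMap.range (θ ^ m) ≤ S) (hR r hr))
  have h1 := trace_restrict_eq_of_pow_map_le θ n S W hS hW le_sup_left
    (by
      rintro _ ⟨x, -, rfl⟩
      exact hn ⟨x, rfl⟩)
  have h2 := trace_restrict_eq_of_pow_map_le θ m S
    (LinearMap.range (θ ^ m)) hS hR le_sup_right
    (by
      rintro _ ⟨x, -, rfl⟩
      exact ⟨x, rfl⟩)
  exact h2.symm.trans h1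

theorem ftr_eq_trace [FiniteDimensional K V] (θ : V →ₗ[K] V) :
    ftr θ = LinearMap.trace K V θ := by
  rw [ftr_eq_trace_restrict θ ⊤ (fun _ _ => Submodule.mem_top) 0 le_top]
  exact LinearMap.trace_restrict_eq_of_forall_mem ⊤ θ (fun _ => Submodule.mem_top)

theorem ftr_of_pow_eq_zero (θ : V →ₗ[K] V) (n : ℕ) (h : θ ^ n = 0) : ftr θ = 0 := by
  rw [ftr_eq_trace_restrict θ ⊥ (fun x hx => by
    rw [(Submodule.mem_bot K).mp hx, map_zero]; exact Submodule.zero_mem _) n
    (by rw [h, LinearMap.range_zero])]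
  have h0 : (θ.restrict (p := (⊥ : Submodule K V)) (q := ⊥) (fun x hx => by
    rw [(Submodule.mem_bot K).mp hx, map_zero]; exact Submodule.zero_mem _)) = 0 :=
    Subsingleton.elim _ _
  rw [h0, map_zero]

theorem ftr_smul (c : K) (θ : V →ₗ[K] V) : ftr (c • θ) = c * ftr θ := by
  rcases eq_or_ne c 0 with rfl | hc
  · rw [zero_smul, zero_mul]
    exact ftr_of_pow_eq_zero 0 1 (pow_one 0)
  · by_cases hfp : IsFinitePotent θ
    · obtain ⟨n, hn⟩ := hfp
      have hW := range_pow_stable θ n
      have hW' : ∀ x ∈ LinearMap.range (θ ^ n), (c • θ) x ∈ LinearMap.range (θ ^ n) :=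
        fun x hx => Submodule.smul_mem _ c (hW x hx)
      rw [ftr_eq_trace_restrict θ (LinearMap.range (θ ^ n)) hW n le_rfl,
        ftr_eq_trace_restrict (c • θ) (LinearMap.range (θ ^ n)) hW' n
          (by rw [smul_pow]; exact LinearMap.range_smul_le_range _ _)]
      have h1 : (c • θ).restrict hW' = c • θ.restrict hW := by
        ext x
        rfl
      rw [h1, map_smul, smul_eq_mul]
    · rw [ftr_eq_zero_of_not θ hfp,
        ftr_eq_zero_of_not (c • θ) (fun h => hfp ((isFinitePotent_smul_iff hc θ).mp h)), mul_zero]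

end Fermat.Agent.RR
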