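/-
RR / T1 (part 2): Tate's trace of finite-potent endomorphisms: additivity (T4), commutation (T5)
and additivity along a stable subspace (T2).
-/
import Mathlib
import Fermat.Agent.RR.FinitePotentBase

set_option autoImplicit false

namespace Fermat.Agent.RR

variable {K V : Type*} [Field K] [AddCommGroup V] [Module K V]

namespace FinitePotent

/-- The sum of the ranges of `φ * w`, `w` running over the words of length `k` in `θ₁, θ₂`. -/
noncomputable def wordRange (θ₁ θ₂ : V →ₗ[K] V) : ℕ → (V →ₗ[K] V) → Submodule K V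
  | 0, φ => LinearMap.range φ
  | k + 1, φ => wordRange θ₁ θ₂ k (φ * θ₁) ⊔ wordRange θ₁ θ₂ k (φ * θ₂)

theorem wordRange_zero (θ₁ θ₂ φ : V →ₗ[K] V) :
    wordRange θ₁ θ₂ 0 φ = LinearMap.range φ := rfl

theorem wordRange_succ (θ₁ θ₂ : V →ₗ[K] V) (k : ℕ) (φ : V →ₗ[K] V) :
    wordRange θ₁ θ₂ (k + 1) φ =
      wordRange θ₁ θ₂ k (φ * θ₁) ⊔ wordRange θ₁ θ₂ k (φ * θ₂) := rfl

theorem wordRange_succ_le (θ₁ θ₂ : V →ₗ[K] V) (k : ℕ) (φ : V →ₗ[K] V) :
    wordRange θ₁ θ₂ (k + 1) φ ≤ wordRange θ₁ θ₂ k φ := by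
  induction k generalizing φ with
  | zero =>
    rw [wordRange_succ, wordRange_zero, wordRange_zero, wordRange_zero]
    refine sup_le ?_ ?_
    · rintro _ ⟨x, rfl⟩; exact ⟨θ₁ x, rfl⟩
    · rintro _ ⟨x, rfl⟩; exact ⟨θ₂ x, rfl⟩
  | succ k ih =>
    rw [wordRange_succ, wordRange_succ θ₁ θ₂ k φ]
    exact sup_le_sup (ih _) (ih _)

theorem map_wordRange (θ₁ θ₂ ψ : V →ₗ[K] V) (k : ℕ) (φ : V →ₗ[K] V) :
    (wordRange θ₁ θ₂ k φ).map ψ = wordRange θ₁ θ₂ k (ψ * φ) := by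
  induction k generalizing φ with
  | zero =>
    rw [wordRange_zero, wordRange_zero, ← LinearMap.range_comp]; rfl
  | succ k ih =>
    rw [wordRange_succ, wordRange_succ, Submodule.map_sup, ih, ih, mul_assoc, mul_assoc]

theorem finiteDimensional_wordRange (θ₁ θ₂ : V →ₗ[K] V) (k : ℕ) (φ : V →ₗ[K] V)
    (h : ∀ l : List (V →ₗ[K] V), l.length = k → (∀ θ ∈ l, θ = θ₁ ∨ θ = θ₂) →
      FiniteDimensional K (LinearMap.range (φ * l.prod))) :
    FiniteDimensional K (wordRange θ₁ θ₂ k φ) := by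
  induction k generalizing φ with
  | zero =>
    have := h [] rfl (by simp)
    rw [List.prod_nil, mul_one] at this
    exact this
  | succ k ih =>
    rw [wordRange_succ]
    have := ih (φ * θ₁) (fun l hl hl' => by
      have := h (θ₁ :: l) (by simp [hl]) (by
        intro θ hθ
        rcases List.mem_cons.1 hθ with rfl | hθ
        · exact Or.inl rfl
        · exact hl' θ hθ)
      rwa [List.prod_cons, ← mul_assoc] at this)
    have := ih (φ * θ₂) (fun l hl hl' => by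
      have := h (θ₂ :: l) (by simp [hl]) (by
        intro θ hθ
        rcases List.mem_cons.1 hθ with rfl | hθ
        · exact Or.inr rfl
        · exact hl' θ hθ)
      rwa [List.prod_cons, ← mul_assoc] at this)
    infer_instance

theorem range_mul_pow_left_le (θ₁ θ₂ : V →ₗ[K] V) (k : ℕ) (φ : V →ₗ[K] V) :
    LinearMap.range (φ * θ₁ ^ k) ≤ wordRange θ₁ θ₂ k φ := by
  induction k generalizing φ with
  | zero => simp [wordRange_zero]
  | succ k ih =>
    rw [wordRange_succ, pow_succ', ← mul_assoc]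
    exact le_sup_of_le_left (ih _)

theorem range_mul_pow_right_le (θ₁ θ₂ : V →ₗ[K] V) (k : ℕ) (φ : V →ₗ[K] V) :
    LinearMap.range (φ * θ₂ ^ k) ≤ wordRange θ₁ θ₂ k φ := by
  induction k generalizing φ with
  | zero => simp [wordRange_zero]
  | succ k ih =>
    rw [wordRange_succ, pow_succ', ← mul_assoc]
    exact le_sup_of_le_right (ih _)

theorem range_mul_pow_add_le (θ₁ θ₂ : V →ₗ[K] V) (k : ℕ) (φ : V →ₗ[K] V) :
    LinearMap.range (φ * (θ₁ + θ₂) ^ k) ≤ wordRange θ₁ θ₂ k φ := by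
  induction k generalizing φ with
  | zero => simp [wordRange_zero]
  | succ k ih =>
    rw [wordRange_succ, pow_succ', ← mul_assoc, mul_add, add_mul]
    rintro _ ⟨x, rfl⟩
    rw [LinearMap.add_apply]
    exact Submodule.add_mem_sup (ih _ ⟨x, rfl⟩) (ih _ ⟨x, rfl⟩)

theorem wordRange_stable_left (θ₁ θ₂ : V →ₗ[K] V) (k : ℕ) :
    ∀ w ∈ wordRange θ₁ θ₂ k 1, θ₁ w ∈ wordRange θ₁ θ₂ k 1 := by
  intro w hw
  have h1 : θ₁ w ∈ (wordRange θ₁ θ₂ k 1).map θ₁ := Submodule.mem_map_of_mem hw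
  rw [map_wordRange, mul_one] at h1
  refine wordRange_succ_le θ₁ θ₂ k 1 ?_
  rw [wordRange_succ, one_mul]
  exact Submodule.mem_sup_left h1

theorem wordRange_stable_right (θ₁ θ₂ : V →ₗ[K] V) (k : ℕ) :
    ∀ w ∈ wordRange θ₁ θ₂ k 1, θ₂ w ∈ wordRange θ₁ θ₂ k 1 := by
  intro w hw
  have h1 : θ₂ w ∈ (wordRange θ₁ θ₂ k 1).map θ₂ := Submodule.mem_map_of_mem hw
  rw [map_wordRange, mul_one] at h1
  refine wordRange_succ_le θ₁ θ₂ k 1 ?_
  rw [wordRange_succ, one_mul, one_mul]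
  exact Submodule.mem_sup_right h1

end FinitePotent

open FinitePotent in
/-- (T4) additivity: if every word of length `n` in `θ₁, θ₂` has finite-dimensional range. -/
theorem ftr_add (θ₁ θ₂ : V →ₗ[K] V) (n : ℕ)
    (h : ∀ l : List (V →ₗ[K] V), l.length = n → (∀ θ ∈ l, θ = θ₁ ∨ θ = θ₂) →
      FiniteDimensional K (LinearMap.range l.prod)) :
    ftr (θ₁ + θ₂) = ftr θ₁ + ftr θ₂ := by
  have : FiniteDimensional K (wordRange θ₁ θ₂ n 1) :=
    finiteDimensional_wordRange θ₁ θ₂ n 1 (fun l hl hl' => by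
      rw [one_mul]; exact h l hl hl')
  have h1 := wordRange_stable_left θ₁ θ₂ n
  have h2 := wordRange_stable_right θ₁ θ₂ n
  have h12 : ∀ w ∈ wordRange θ₁ θ₂ n 1, (θ₁ + θ₂) w ∈ wordRange θ₁ θ₂ n 1 := fun w hw =>
    Submodule.add_mem _ (h1 w hw) (h2 w hw)
  rw [ftr_eq_trace_restrict θ₁ _ h1 n (by simpa using range_mul_pow_left_le θ₁ θ₂ n 1),
    ftr_eq_trace_restrict θ₂ _ h2 n (by simpa using range_mul_pow_right_le θ₁ θ₂ n 1),
    ftr_eq_trace_restrict (θ₁ + θ₂) _ h12 n (by simpa using range_mul_pow_add_le θ₁ θ₂ n 1),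
    ← map_add]
  rfl

namespace FinitePotent

theorem comp_pow_succ_apply {V' : Type*} [AddCommGroup V'] [Module K V'] (φ : V' →ₗ[K] V)
    (ψ : V →ₗ[K] V') (k : ℕ) (x : V') :
    ((ψ ∘ₗ φ) ^ (k + 1)) x = ψ (((φ ∘ₗ ψ) ^ k) (φ x)) := by
  induction k generalizing x with
  | zero => simp
  | succ k ih =>
    rw [pow_succ, Module.End.mul_apply, ih, pow_succ (φ ∘ₗ ψ) k, Module.End.mul_apply]
    rfl

theorem pow_range_stable (θ : V →ₗ[K] V) (n : ℕ) :
    ∀ u ∈ LinearMap.range (θ ^ n), θ u ∈ LinearMap.range (θ ^ n) := by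
  rintro _ ⟨y, rfl⟩
  exact ⟨θ y, by rw [← Module.End.mul_apply, ← Module.End.mul_apply, ← pow_succ, ← pow_succ']⟩

/-- Additivity of the trace in a short exact sequence of finite-dimensional spaces. -/
theorem trace_eq_add_of_exact {A B C : Type*} [AddCommGroup A] [Module K A] [AddCommGroup B]
    [Module K B] [AddCommGroup C] [Module K C] [FiniteDimensional K A] [FiniteDimensional K B]
    [FiniteDimensional K C] (i : A →ₗ[K] B) (p : B →ₗ[K] C) (hi : Function.Injective i)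
    (hp : Function.Surjective p) (hex : LinearMap.range i = LinearMap.ker p)
    (a : A →ₗ[K] A) (b : B →ₗ[K] B) (c : C →ₗ[K] C) (hab : b ∘ₗ i = i ∘ₗ a)
    (hbc : p ∘ₗ b = c ∘ₗ p) :
    LinearMap.trace K B b = LinearMap.trace K A a + LinearMap.trace K C c := by
  obtain ⟨s, hs⟩ := p.exists_rightInverse_of_surjective (LinearMap.range_eq_top.2 hp)
  obtain ⟨r, hr⟩ := i.exists_leftInverse_of_injective (LinearMap.ker_eq_bot.2 hi)
  have hpi : ∀ x, p (i x) = 0 := fun x => by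
    have : i x ∈ LinearMap.ker p := hex ▸ LinearMap.mem_range_self i x
    exact this
  have hps : ∀ z, p (s z) = z := fun z => LinearMap.congr_fun hs z
  have hri : ∀ x, r (i x) = x := fun x => LinearMap.congr_fun hr x
  set t : B →ₗ[K] A := r ∘ₗ (LinearMap.id - s ∘ₗ p) with ht
  have h1 : i ∘ₗ t + s ∘ₗ p = LinearMap.id := by
    ext y
    have hy : y - s (p y) ∈ LinearMap.ker p := by
      rw [LinearMap.mem_ker, map_sub, hps, sub_self]
    rw [← hex] at hy
    obtain ⟨x, hx⟩ := hy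
    have : t y = x := by
      simp only [ht, LinearMap.comp_apply, LinearMap.sub_apply, LinearMap.id_apply]
      rw [← hx, hri]
    simp only [LinearMap.add_apply, LinearMap.comp_apply, LinearMap.id_apply, this, hx]
    abel
  have h2 : t ∘ₗ i = LinearMap.id := by
    ext x
    simp only [ht, LinearMap.comp_apply, LinearMap.sub_apply, LinearMap.id_apply, hpi, map_zero,
      sub_zero, hri]
  calc LinearMap.trace K B b = LinearMap.trace K B (b ∘ₗ (i ∘ₗ t + s ∘ₗ p)) := by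
        rw [h1, LinearMap.comp_id]
    _ = LinearMap.trace K B (i ∘ₗ (a ∘ₗ t)) + LinearMap.trace K B ((b ∘ₗ s) ∘ₗ p) := by
        rw [LinearMap.comp_add, map_add, ← LinearMap.comp_assoc, hab, LinearMap.comp_assoc,
          LinearMap.comp_assoc]
    _ = LinearMap.trace K A ((a ∘ₗ t) ∘ₗ i) + LinearMap.trace K C (p ∘ₗ (b ∘ₗ s)) := by
        rw [LinearMap.trace_comp_comm' i (a ∘ₗ t), LinearMap.trace_comp_comm' p (b ∘ₗ s)]
    _ = LinearMap.trace K A a + LinearMap.trace K C c := by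
        rw [LinearMap.comp_assoc, h2, LinearMap.comp_id, ← LinearMap.comp_assoc, hbc,
          LinearMap.comp_assoc, hs, LinearMap.comp_id]

end FinitePotent

open FinitePotent in
/-- (T5) `Tr (φ ψ) = Tr (ψ φ)`. -/
theorem ftr_comp_comm {V' : Type*} [AddCommGroup V'] [Module K V'] (φ : V' →ₗ[K] V)
    (ψ : V →ₗ[K] V') (h : IsFinitePotent (φ ∘ₗ ψ)) :
    IsFinitePotent (ψ ∘ₗ φ) ∧ ftr (φ ∘ₗ ψ) = ftr (ψ ∘ₗ φ) := by
  obtain ⟨n, hn⟩ := h
  have hWα := pow_range_stable (φ ∘ₗ ψ) n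
  have hW'β : ∀ x ∈ (LinearMap.range ((φ ∘ₗ ψ) ^ n)).map ψ,
      (ψ ∘ₗ φ) x ∈ (LinearMap.range ((φ ∘ₗ ψ) ^ n)).map ψ := by
    rintro _ ⟨w, hw, rfl⟩
    exact Submodule.mem_map_of_mem (hWα w hw)
  have hle : LinearMap.range ((ψ ∘ₗ φ) ^ (n + 1)) ≤ (LinearMap.range ((φ ∘ₗ ψ) ^ n)).map ψ := by
    rintro _ ⟨x, rfl⟩
    rw [comp_pow_succ_apply]
    exact Submodule.mem_map_of_mem ⟨φ x, rfl⟩
  have hfd' : FiniteDimensional K ((LinearMap.range ((φ ∘ₗ ψ) ^ n)).map ψ) := inferInstance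
  refine ⟨⟨n + 1, Submodule.finiteDimensional_of_le hle⟩, ?_⟩
  rw [ftr_eq_trace_restrict (φ ∘ₗ ψ) _ hWα n le_rfl,
    ftr_eq_trace_restrict (ψ ∘ₗ φ) _ hW'β (n + 1) hle]
  have hφ : ∀ x ∈ (LinearMap.range ((φ ∘ₗ ψ) ^ n)).map ψ, φ x ∈ LinearMap.range ((φ ∘ₗ ψ) ^ n) := by
    rintro _ ⟨w, hw, rfl⟩
    exact hWα w hw
  have hψ : ∀ w ∈ LinearMap.range ((φ ∘ₗ ψ) ^ n), ψ w ∈ (LinearMap.range ((φ ∘ₗ ψ) ^ n)).map ψ :=
    fun w hw => Submodule.mem_map_of_mem hw
  exact LinearMap.trace_comp_comm' (ψ.restrict hψ) (φ.restrict hφ)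

open FinitePotent in
/-- (T2) additivity along a stable subspace. -/
theorem ftr_eq_restrict_add_mapQ (θ : V →ₗ[K] V) (hθ : IsFinitePotent θ) (W : Submodule K V)
    (hW : ∀ w ∈ W, θ w ∈ W) :
    ftr θ = ftr (θ.restrict hW) + ftr (W.mapQ W θ (fun w hw => hW w hw)) := by
  obtain ⟨n, hn⟩ := hθ
  have hU := pow_range_stable θ n
  -- the subspace `U ∩ W` of `W`
  have hA : ∀ w ∈ (LinearMap.range (θ ^ n)).comap W.subtype,
      θ.restrict hW w ∈ (LinearMap.range (θ ^ n)).comap W.subtype := fun w hw => hU _ hw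
  have hAn : LinearMap.range ((θ.restrict hW) ^ n) ≤ (LinearMap.range (θ ^ n)).comap W.subtype := by
    rintro _ ⟨w, rfl⟩
    rw [Module.End.pow_restrict]
    exact ⟨w, rfl⟩
  let i : (LinearMap.range (θ ^ n)).comap W.subtype →ₗ[K] LinearMap.range (θ ^ n) :=
    W.subtype.restrict (fun w hw => hw)
  have hi : Function.Injective i := by
    intro x y hxy
    have : ((i x : LinearMap.range (θ ^ n)) : V) = (i y : LinearMap.range (θ ^ n)) :=
      congrArg Subtype.val hxy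
    exact Subtype.ext (Subtype.ext this)
  have hAfd : FiniteDimensional K ((LinearMap.range (θ ^ n)).comap W.subtype) :=
    FiniteDimensional.of_injective i hi
  -- the image of `U` in `V ⧸ W`
  have hC : ∀ x ∈ (LinearMap.range (θ ^ n)).map W.mkQ,
      (W.mapQ W θ (fun w hw => hW w hw)) x ∈ (LinearMap.range (θ ^ n)).map W.mkQ := by
    rintro _ ⟨u, hu, rfl⟩
    exact Submodule.mem_map_of_mem (hU u hu)
  have hCn : LinearMap.range ((W.mapQ W θ (fun w hw => hW w hw)) ^ n) ≤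
      (LinearMap.range (θ ^ n)).map W.mkQ := by
    rintro _ ⟨x, rfl⟩
    obtain ⟨v, rfl⟩ := W.mkQ_surjective x
    rw [← Submodule.mapQ_pow]
    exact Submodule.mem_map_of_mem ⟨v, rfl⟩
  let p : LinearMap.range (θ ^ n) →ₗ[K] (LinearMap.range (θ ^ n)).map W.mkQ :=
    W.mkQ.restrict (fun u hu => Submodule.mem_map_of_mem hu)
  have hp : Function.Surjective p := by
    rintro ⟨_, u, hu, rfl⟩
    exact ⟨⟨u, hu⟩, rfl⟩
  have hex : LinearMap.range i = LinearMap.ker p := by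
    ext ⟨u, hu⟩
    constructor
    · rintro ⟨⟨w, hw⟩, hwu⟩
      have h1 : (w : V) = u := congrArg Subtype.val hwu
      rw [LinearMap.mem_ker]
      apply Subtype.ext
      show W.mkQ u = 0
      rw [← h1]
      simp
    · intro h
      rw [LinearMap.mem_ker] at h
      have h1 : W.mkQ u = 0 := congrArg Subtype.val h
      have h2 : u ∈ W := by simpa using h1
      exact ⟨⟨⟨u, h2⟩, hu⟩, rfl⟩
  have hCfd : FiniteDimensional K ((LinearMap.range (θ ^ n)).map W.mkQ) := inferInstance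
  rw [ftr_eq_trace_restrict θ _ hU n le_rfl, ftr_eq_trace_restrict _ _ hA n hAn,
    ftr_eq_trace_restrict _ _ hC n hCn]
  exact trace_eq_add_of_exact i p hi hp hex _ _ _ rfl rfl

end Fermat.Agent.RR
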