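/-
RR / G1: the global residue theorem (Tate's method) on the prelude adeles.
`∑ᵥ res_v (f dg) = 0` for `f g : F`, where `res_v (f dg) = tres (O v) (f ·) (g ·)` on `V = F`.
Proof: on `V = repartitions K F`, `A = repartitionsOf 0`, `B = principalRepartitions`:
`res_A + res_B = res_(A+B) + res_(A∩B)`, `B` is stable, `V/(A+B) = H1 0` and `A ∩ B = L(0)` are
finite-dimensional, so `res_A = 0`; and `res_A` is the sum of the local residues.
-/
import Mathlib
import Fermat.Prelude.Def_AlgebraicCurve_Repartitions
import Fermat.Agent.RR.Residue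

set_option autoImplicit false

noncomputable section

namespace Fermat.Agent.RR

open AlgebraicCurve

variable {K F : Type*} [Field K] [Field F] [Algebra K F]

namespace GlobalRes

/-- Membership in the valuation subring in terms of the adic valuation. -/
theorem adicValuation_le_one_iff_mem (v : Place K F) (x : F) :
    v.adicValuation x ≤ 1 ↔ x ∈ v.toValuationSubring := by
  refine ⟨fun h => ?_, v.adicValuation_le_one_of_mem⟩
  rcases v.adicValuation_le_one_iff.mp h with rfl | h0
  · exact zero_mem _
  rcases eq_or_ne x 0 with rfl | hx0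
  · exact zero_mem _
  obtain ⟨π, hπ⟩ := IsDiscreteValuationRing.exists_irreducible v.toValuationSubring
  obtain ⟨u, hu⟩ := v.exists_unit_mul_zpow hx0 hπ
  obtain ⟨n, hn⟩ := Int.eq_ofNat_of_zero_le h0
  rw [hu, hn, zpow_natCast]
  exact mul_mem (u : v.toValuationSubring).2 (pow_mem π.2 n)

/-- The diagonal embedding `F → repartitions`, as a `K`-linear map. -/
def diag : F →ₗ[K] ↥(repartitions K F) where
  toFun f := algebraMap F ↥(repartitions K F) f
  map_add' a b := map_add _ a b
  map_smul' c a := by
    apply Subtype.ext
    funext v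
    simp [Algebra.smul_def]

@[simp] theorem diag_apply (f : F) (v : Place K F) :
    ((diag (K := K) f : ↥(repartitions K F)) : Place K F → F) v = f := rfl

/-- Multiplication by `f : F` on the repartitions, as a `K`-linear map. -/
def mulRep (f : F) : ↥(repartitions K F) →ₗ[K] ↥(repartitions K F) where
  toFun α := f • α
  map_add' a b := smul_add f a b
  map_smul' c a := by
    apply Subtype.ext
    funext v
    simp [Algebra.smul_def, mul_left_comm]

@[simp] theorem mulRep_apply (f : F) (α : ↥(repartitions K F)) (v : Place K F) :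
    ((mulRep (K := K) f α : ↥(repartitions K F)) : Place K F → F) v
      = f * (α : Place K F → F) v := rfl

theorem commute_mulRep (f g : F) : Commute (mulRep (K := K) f) (mulRep g) := by
  apply LinearMap.ext
  intro α
  apply Subtype.ext
  funext v
  simp [Module.End.mul_apply, mul_left_comm]

theorem commute_mulLeft (f g : F) :
    Commute (LinearMap.mulLeft K f) (LinearMap.mulLeft K g) := by
  apply LinearMap.ext
  intro a
  simp [Module.End.mul_apply, mul_left_comm]

/-- Evaluation at a place, as a `K`-linear map. -/
def evalAt (v : Place K F) : ↥(repartitions K F) →ₗ[K] F where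
  toFun α := (α : Place K F → F) v
  map_add' _ _ := rfl
  map_smul' _ _ := rfl

@[simp] theorem evalAt_apply (v : Place K F) (α : ↥(repartitions K F)) :
    evalAt v α = (α : Place K F → F) v := rfl

theorem evalAt_surjective (v : Place K F) : Function.Surjective (evalAt (K := K) (F := F) v) :=
  fun f => ⟨diag f, rfl⟩

/-- The indicator repartition of a set of places. -/
def indic (T : Set (Place K F)) : ↥(repartitions K F) := by
  classical
  exact ⟨fun v => if v ∈ T then 1 else 0, mem_repartitions_of_finite (by
    convert Set.finite_empty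
    ext v
    simp only [Set.mem_ofPred_eq, Set.mem_empty_iff_false, iff_false, not_not]
    split_ifs <;> simp)⟩

theorem indic_apply_of_mem {T : Set (Place K F)} {v : Place K F} (hv : v ∈ T) :
    ((indic T : ↥(repartitions K F)) : Place K F → F) v = 1 := by
  simp [indic, hv]

theorem indic_apply_of_notMem {T : Set (Place K F)} {v : Place K F} (hv : v ∉ T) :
    ((indic T : ↥(repartitions K F)) : Place K F → F) v = 0 := by
  simp [indic, hv]

/-- The repartition with value `c` at `v` and `0` elsewhere, `K`-linear in `c`. -/
def sgl (v : Place K F) : F →ₗ[K] ↥(repartitions K F) where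
  toFun c := c • indic {v}
  map_add' a b := add_smul a b _
  map_smul' c a := by
    apply Subtype.ext
    funext w
    simp [Algebra.smul_def, mul_assoc]

theorem sgl_apply_self (v : Place K F) (c : F) :
    ((sgl (K := K) v c : ↥(repartitions K F)) : Place K F → F) v = c := by
  show c * ((indic {v} : ↥(repartitions K F)) : Place K F → F) v = c
  rw [indic_apply_of_mem (Set.mem_singleton v), mul_one]

theorem sgl_apply_of_ne {v w : Place K F} (h : w ≠ v) (c : F) :
    ((sgl (K := K) v c : ↥(repartitions K F)) : Place K F → F) w = 0 := by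
  show c * ((indic {v} : ↥(repartitions K F)) : Place K F → F) w = 0
  rw [indic_apply_of_notMem (by simpa using h), mul_zero]

section IntAt

variable (O : Place K F → Submodule K F)

/-- The repartitions that are integral (lie in `O v`) at all places `v ∈ T`. -/
def intAt (T : Set (Place K F)) : Submodule K ↥(repartitions K F) :=
  ⨅ v ∈ T, (O v).comap (evalAt v)

theorem mem_intAt {T : Set (Place K F)} {α : ↥(repartitions K F)} :
    α ∈ intAt O T ↔ ∀ v ∈ T, (α : Place K F → F) v ∈ O v := by
  simp [intAt, Submodule.mem_iInf]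

theorem intAt_union (T T' : Set (Place K F)) :
    intAt O (T ∪ T') = intAt O T ⊓ intAt O T' := iInf_union

theorem intAt_singleton (v : Place K F) : intAt O {v} = (O v).comap (evalAt v) := by
  simp [intAt]

variable {O}

theorem intAt_univ (hO : ∀ (v : Place K F) (f : F), f ∈ O v ↔ f ∈ v.toValuationSubring) :
    intAt O Set.univ = repartitionsOf (0 : Divisor K F) := by
  ext α
  rw [mem_intAt]
  show _ ↔ ∀ v : Place K F, v.adicValuation ((α : Place K F → F) v)
    ≤ WithZero.exp ((0 : Divisor K F) v)
  simp [hO, adicValuation_le_one_iff_mem]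

theorem intAt_sup_singleton {T : Set (Place K F)} {v : Place K F} (hv : v ∉ T) :
    intAt O T ⊔ intAt O {v} = ⊤ := by
  rw [eq_top_iff]
  intro α _
  have h1 : sgl v ((α : Place K F → F) v) ∈ intAt O T := by
    rw [mem_intAt]
    intro u hu
    rw [sgl_apply_of_ne (ne_of_mem_of_not_mem hu hv)]
    exact zero_mem _
  have h2 : α - sgl v ((α : Place K F → F) v) ∈ intAt O {v} := by
    rw [mem_intAt]
    intro u hu
    rw [Set.mem_singleton_iff] at hu
    subst hu
    show (α : Place K F → F) u - ((sgl (K := K) u ((α : Place K F → F) u) : ↥(repartitions K F))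
      : Place K F → F) u ∈ O u
    rw [sgl_apply_self, sub_self]
    exact zero_mem _
  have h3 := Submodule.add_mem_sup h1 h2
  rwa [add_sub_cancel] at h3

open Classical in
theorem evalAt_sum_sgl (P : Finset (Place K F)) (w : Place K F → F) (u : Place K F) :
    ((∑ v ∈ P, sgl (K := K) v (w v) : ↥(repartitions K F)) : Place K F → F) u
      = if u ∈ P then w u else 0 := by
  classical
  have h1 : ((∑ v ∈ P, sgl (K := K) v (w v) : ↥(repartitions K F)) : Place K F → F) u
      = ∑ v ∈ P, evalAt u (sgl (K := K) v (w v)) := by
    rw [← map_sum]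
    rfl
  rw [h1]
  have h2 : ∀ v ∈ P, evalAt u (sgl (K := K) v (w v)) = if u = v then w v else 0 := by
    intro v _
    by_cases huv : u = v
    · subst huv
      rw [if_pos rfl, evalAt_apply, sgl_apply_self]
    · rw [if_neg huv, evalAt_apply, sgl_apply_of_ne huv]
  rw [Finset.sum_congr rfl h2, Finset.sum_ite_eq]

theorem almostStable_intAt (hO : ∀ (v : Place K F) (f : F), f ∈ O v ↔ f ∈ v.toValuationSubring)
    (hloc : ∀ (v : Place K F) (f : F), AlmostStable (O v) (LinearMap.mulLeft K f))
    (f : F) (hf : {v : Place K F | f ∉ v.toValuationSubring}.Finite) (T : Set (Place K F)) :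
    AlmostStable (intAt O T) (mulRep f) := by
  classical
  choose Wc hWfd hWle using fun v => hloc v f
  refine ⟨hf.toFinset.sup (fun v => (Wc v).map (sgl v)), ?_, ?_⟩
  · have := hWfd
    infer_instance
  · rintro _ ⟨α, hα, rfl⟩
    rw [SetLike.mem_coe, mem_intAt] at hα
    have key : ∀ v : Place K F, ∃ w ∈ Wc v, v ∈ T → f * (α : Place K F → F) v - w ∈ O v := by
      intro v
      by_cases hv : v ∈ T
      · have hmem : f * (α : Place K F → F) v ∈ O v ⊔ Wc v :=
          hWle v ⟨(α : Place K F → F) v, hα v hv, rfl⟩
        obtain ⟨o, ho, w, hw, how⟩ := Submodule.mem_sup.mp hmem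
        refine ⟨w, hw, fun _ => ?_⟩
        rw [← how, add_sub_cancel_right]
        exact ho
      · exact ⟨0, zero_mem _, fun h => absurd h hv⟩
    choose w hwW hw using key
    have hγW : (∑ v ∈ hf.toFinset, sgl (K := K) v (w v))
        ∈ hf.toFinset.sup (fun v => (Wc v).map (sgl v)) :=
      Submodule.sum_mem _ fun v hv =>
        (Finset.le_sup (f := fun v => (Wc v).map (sgl v)) hv)
          (Submodule.mem_map_of_mem (hwW v))
    have h1 : mulRep f α - ∑ v ∈ hf.toFinset, sgl (K := K) v (w v) ∈ intAt O T := by
      rw [mem_intAt]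
      intro u hu
      show f * (α : Place K F → F) u
        - ((∑ v ∈ hf.toFinset, sgl (K := K) v (w v) : ↥(repartitions K F)) : Place K F → F) u
          ∈ O u
      rw [evalAt_sum_sgl]
      split_ifs with huP
      · exact hw u hu
      · rw [sub_zero, hO]
        have hfu : f ∈ u.toValuationSubring := by
          by_contra hcon
          exact huP (hf.mem_toFinset.mpr hcon)
        exact mul_mem hfu ((hO u _).mp (hα u hu))
    have h3 := Submodule.add_mem_sup h1 hγW
    rwa [sub_add_cancel] at h3

theorem mulRep_mem_principal (h : F) (a : ↥(repartitions K F))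
    (ha : a ∈ principalRepartitions K F) : mulRep h a ∈ principalRepartitions K F := by
  rw [mem_principalRepartitions_iff] at ha ⊢
  obtain ⟨c, hc⟩ := ha
  refine ⟨h * c, ?_⟩
  funext v
  rw [mulRep_apply, hc]

theorem finiteDimensional_inf (hL0 : FiniteDimensional K (riemannRochSpace (0 : Divisor K F))) :
    FiniteDimensional K
      ↥(repartitionsOf (0 : Divisor K F) ⊓ principalRepartitions K F) := by
  have hle : repartitionsOf (0 : Divisor K F) ⊓ principalRepartitions K F
      ≤ (riemannRochSpace (0 : Divisor K F)).map (diag (K := K)) := by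
    rintro α ⟨hα0, hαB⟩
    obtain ⟨c, hc⟩ := mem_principalRepartitions_iff.mp hαB
    refine ⟨c, ?_, ?_⟩
    · intro v
      have := hα0 v
      rwa [hc] at this
    · apply Subtype.ext
      rw [hc]
      rfl
  exact Submodule.finiteDimensional_of_le hle

/-- Tate's argument: the residue of `f dg` along `repartitionsOf 0` vanishes. -/
theorem tres_repartitionsOf_zero
    (hO : ∀ (v : Place K F) (f : F), f ∈ O v ↔ f ∈ v.toValuationSubring)
    (hloc : ∀ (v : Place K F) (f : F), AlmostStable (O v) (LinearMap.mulLeft K f))
    (hpoles : ∀ f : F, {v : Place K F | f ∉ v.toValuationSubring}.Finite)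
    (hL0 : FiniteDimensional K (riemannRochSpace (0 : Divisor K F)))
    (hH1 : FiniteDimensional K (H1 (0 : Divisor K F))) (f g : F) :
    tres (repartitionsOf (0 : Divisor K F)) (mulRep f) (mulRep g) = 0 := by
  have hfg := commute_mulRep (K := K) f g
  have hA : ∀ h : F, AlmostStable (repartitionsOf (0 : Divisor K F)) (mulRep h) := fun h => by
    rw [← intAt_univ hO]
    exact almostStable_intAt hO hloc h (hpoles h) _
  have hB : ∀ h : F, AlmostStable (principalRepartitions K F) (mulRep h) := fun h => by
    refine ⟨⊥, inferInstance, ?_⟩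
    rw [sup_bot_eq]
    rintro _ ⟨a, ha, rfl⟩
    exact mulRep_mem_principal h a ha
  have h4 := tres_add_tres (repartitionsOf (0 : Divisor K F)) (principalRepartitions K F) hfg
    (hA f) (hA g) (hB f) (hB g)
  rw [tres_eq_zero_of_stable (principalRepartitions K F) hfg (mulRep_mem_principal f)
      (mulRep_mem_principal g),
    tres_eq_zero_of_cofinite _ hfg hH1,
    tres_eq_zero_of_finite _ hfg (finiteDimensional_inf hL0)] at h4
  simpa using h4

theorem tres_intAt_union_singleton
    (hO : ∀ (v : Place K F) (f : F), f ∈ O v ↔ f ∈ v.toValuationSubring)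
    (hloc : ∀ (v : Place K F) (f : F), AlmostStable (O v) (LinearMap.mulLeft K f))
    (hpoles : ∀ f : F, {v : Place K F | f ∉ v.toValuationSubring}.Finite)
    (f g : F) {T : Set (Place K F)} {v : Place K F} (hv : v ∉ T) :
    tres (intAt O (T ∪ {v})) (mulRep f) (mulRep g)
      = tres (intAt O T) (mulRep f) (mulRep g) + tres (intAt O {v}) (mulRep f) (mulRep g) := by
  have hfg := commute_mulRep (K := K) f g
  have aS : ∀ (h : F) (T' : Set (Place K F)), AlmostStable (intAt O T') (mulRep h) :=
    fun h T' => almostStable_intAt hO hloc h (hpoles h) T'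
  have h4 := tres_add_tres (intAt O T) (intAt O {v}) hfg (aS f T) (aS g T) (aS f {v}) (aS g {v})
  rw [intAt_sup_singleton hv, ← intAt_union,
    tres_eq_zero_of_stable ⊤ hfg (fun _ _ => Submodule.mem_top) (fun _ _ => Submodule.mem_top),
    zero_add] at h4
  exact h4.symm

theorem tres_intAt_singleton
    (hloc : ∀ (v : Place K F) (f : F), AlmostStable (O v) (LinearMap.mulLeft K f))
    (f g : F) (v : Place K F) :
    tres (intAt O {v}) (mulRep f) (mulRep g)
      = tres (O v) (LinearMap.mulLeft K f) (LinearMap.mulLeft K g) := by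
  rw [intAt_singleton]
  exact tres_comap (evalAt v) (evalAt_surjective v) (O v) (LinearMap.ext fun _ => rfl)
    (LinearMap.ext fun _ => rfl) (commute_mulRep f g) (hloc v f) (hloc v g)

end IntAt

end GlobalRes

open GlobalRes in
/-- **Residue theorem** (Tate): the sum of the local residues of `f dg` vanishes.
`O v` is the valuation ring of `v` as a `K`-subspace of `F`. -/
theorem sum_tres_eq_zero (O : Place K F → Submodule K F)
    (hO : ∀ (v : Place K F) (f : F), f ∈ O v ↔ f ∈ v.toValuationSubring)
    (hloc : ∀ (v : Place K F) (f : F), AlmostStable (O v) (LinearMap.mulLeft K f))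
    (hpoles : ∀ f : F, {v : Place K F | f ∉ v.toValuationSubring}.Finite)
    (hL0 : FiniteDimensional K (riemannRochSpace (0 : Divisor K F)))
    (hH1 : FiniteDimensional K (H1 (0 : Divisor K F))) (f g : F) :
    ∑ᶠ v : Place K F, tres (O v) (LinearMap.mulLeft K f) (LinearMap.mulLeft K g) = 0 := by
  classical
  have hfg := commute_mulRep (K := K) f g
  set S : Finset (Place K F) := (hpoles f).toFinset ∪ (hpoles g).toFinset with hS
  have hmemS : ∀ (v : Place K F), v ∉ S → f ∈ v.toValuationSubring ∧ g ∈ v.toValuationSubring := by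
    intro v hv
    rw [hS, Finset.mem_union, not_or, Set.Finite.mem_toFinset, Set.Finite.mem_toFinset] at hv
    exact ⟨not_not.mp hv.1, not_not.mp hv.2⟩
  set T₀ : Set (Place K F) := {v | v ∉ S} with hT₀
  have hind : ∀ s : Finset (Place K F), s ⊆ S →
      tres (intAt O (T₀ ∪ ↑s)) (mulRep f) (mulRep g)
        = tres (intAt O T₀) (mulRep f) (mulRep g)
          + ∑ v ∈ s, tres (O v) (LinearMap.mulLeft K f) (LinearMap.mulLeft K g) := by
    intro s
    induction s using Finset.induction_on with
    | empty => intro _; simp
    | insert v s hvs ih =>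
      intro hsub
      have hvS : v ∈ S := hsub (Finset.mem_insert_self v s)
      have hss : s ⊆ S := fun u hu => hsub (Finset.mem_insert_of_mem hu)
      have hvT : v ∉ T₀ ∪ (↑s : Set (Place K F)) := by
        rintro (h | h)
        · exact h hvS
        · exact hvs (Finset.mem_coe.mp h)
      have hset : T₀ ∪ (↑(insert v s) : Set (Place K F)) = (T₀ ∪ ↑s) ∪ {v} := by
        rw [Finset.coe_insert, Set.union_singleton, Set.union_insert]
      rw [hset, tres_intAt_union_singleton hO hloc hpoles f g hvT, ih hss,
        tres_intAt_singleton hloc, Finset.sum_insert hvs]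
      ring
  have hstab : ∀ h : F, (∀ v : Place K F, v ∉ S → h ∈ v.toValuationSubring) →
      ∀ a ∈ intAt O T₀, mulRep h a ∈ intAt O T₀ := by
    intro h hh a ha
    rw [mem_intAt] at ha ⊢
    intro v hv
    rw [mulRep_apply, hO]
    exact mul_mem (hh v hv) ((hO v _).mp (ha v hv))
  have h0 : tres (intAt O T₀) (mulRep f) (mulRep g) = 0 :=
    tres_eq_zero_of_stable _ hfg (hstab f fun v hv => (hmemS v hv).1)
      (hstab g fun v hv => (hmemS v hv).2)
  have htot := hind S subset_rfl
  have huniv : T₀ ∪ (↑S : Set (Place K F)) = Set.univ := by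
    ext v
    simp only [Set.mem_union, Set.mem_univ, iff_true, hT₀, Finset.mem_coe]
    by_cases hv : v ∈ S
    · exact Or.inr hv
    · exact Or.inl hv
  rw [huniv, intAt_univ hO, tres_repartitionsOf_zero hO hloc hpoles hL0 hH1, h0, zero_add] at htot
  rw [finsum_eq_sum_of_support_subset (s := S), ← htot]
  intro v hv
  by_contra hvS
  apply hv
  have hvS' : v ∉ S := fun h => hvS (Finset.mem_coe.mpr h)
  refine tres_eq_zero_of_stable _ (commute_mulLeft f g) ?_ ?_
  · intro a ha
    rw [LinearMap.mulLeft_apply, hO]
    exact mul_mem (hmemS v hvS').1 ((hO v a).mp ha)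
  · intro a ha
    rw [LinearMap.mulLeft_apply, hO]
    exact mul_mem (hmemS v hvS').2 ((hO v a).mp ha)

end Fermat.Agent.RR
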