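/-
RR / T2: Tate's abstract residue `res_A (f dg)` for commuting endomorphisms `f g` of a
`K`-vector space `V` that almost preserve a subspace `A`.
Reference: J. Tate, Residues of differentials on curves (1968), §1-§2.
We use the single formula  tres A f g = Tr_V ([π, g] ∘ f),  π a projection onto `A`
(`[π, g] ∘ f` lies in E₀(A) = {θ | θ V ≺ A, θ A ≺ 0}, a finite-potent subspace).
-/
import Mathlib
import Fermat.Agent.RR.FinitePotent

set_option autoImplicit false
set_option linter.unusedVariables false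

namespace Fermat.Agent.RR

variable {K V : Type*} [Field K] [AddCommGroup V] [Module K V]

/-- `A ≺ B`: `A` is contained in `B` up to a finite-dimensional subspace. -/
def AlmostLE (A B : Submodule K V) : Prop :=
  ∃ W : Submodule K V, FiniteDimensional K W ∧ A ≤ B ⊔ W

/-- `f A ≺ A`. -/
def AlmostStable (A : Submodule K V) (f : V →ₗ[K] V) : Prop := AlmostLE (A.map f) A

namespace Residue

section calculus

variable {V' : Type*} [AddCommGroup V'] [Module K V']

theorem almostLE_of_le {A B : Submodule K V} (h : A ≤ B) : AlmostLE A B :=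
  ⟨⊥, inferInstance, le_trans h le_sup_left⟩

theorem almostLE_refl (A : Submodule K V) : AlmostLE A A := almostLE_of_le le_rfl

theorem almostLE_of_fd (A B : Submodule K V) [FiniteDimensional K A] : AlmostLE A B :=
  ⟨A, inferInstance, le_sup_right⟩

theorem almostLE_trans {A B C : Submodule K V} (h₁ : AlmostLE A B) (h₂ : AlmostLE B C) :
    AlmostLE A C := by
  obtain ⟨W₁, hW₁, h₁⟩ := h₁
  obtain ⟨W₂, hW₂, h₂⟩ := h₂
  exact ⟨W₂ ⊔ W₁, inferInstance, h₁.trans (by rw [← sup_assoc]; exact sup_le_sup_right h₂ _)⟩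

theorem almostLE_map {A B : Submodule K V} (h : AlmostLE A B) (θ : V →ₗ[K] V') :
    AlmostLE (A.map θ) (B.map θ) := by
  obtain ⟨W, hW, h⟩ := h
  exact ⟨W.map θ, inferInstance, by rw [← Submodule.map_sup]; exact Submodule.map_mono h⟩

theorem almostLE_sup {A B C : Submodule K V} (h₁ : AlmostLE A C) (h₂ : AlmostLE B C) :
    AlmostLE (A ⊔ B) C := by
  obtain ⟨W₁, hW₁, h₁⟩ := h₁
  obtain ⟨W₂, hW₂, h₂⟩ := h₂
  exact ⟨W₁ ⊔ W₂, inferInstance, sup_le (h₁.trans (sup_le_sup_left le_sup_left _))
    (h₂.trans (sup_le_sup_left le_sup_right _))⟩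

theorem fd_of_almostLE {A B : Submodule K V} (h : AlmostLE A B) [FiniteDimensional K B] :
    FiniteDimensional K A := by
  obtain ⟨W, hW, h⟩ := h
  exact Submodule.finiteDimensional_of_le h

/-- Key lifting lemma: if `φ X` is finite-dimensional then `X ≤ (X ⊓ ker φ) ⊔ W`, `W` f.d. -/
theorem exists_fd_le_inf_ker_sup (φ : V →ₗ[K] V') (X : Submodule K V)
    [FiniteDimensional K (X.map φ)] :
    ∃ W : Submodule K V, FiniteDimensional K W ∧ X ≤ (X ⊓ LinearMap.ker φ) ⊔ W := by
  obtain ⟨C, hC⟩ := Submodule.exists_isCompl (LinearMap.ker (φ.domRestrict X))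
  have hr : FiniteDimensional K (LinearMap.range (φ.domRestrict X)) := by
    rw [LinearMap.range_domRestrict]; infer_instance
  have hCfd : FiniteDimensional K C :=
    LinearEquiv.finiteDimensional (((φ.domRestrict X).quotKerEquivRange).symm.trans
      (Submodule.quotientEquivOfIsCompl _ _ hC))
  refine ⟨C.map X.subtype, inferInstance, ?_⟩
  intro x hx
  have hmem : (⟨x, hx⟩ : X) ∈ LinearMap.ker (φ.domRestrict X) ⊔ C := by
    rw [hC.sup_eq_top]; trivial
  obtain ⟨k, hk, c, hc, hkc⟩ := Submodule.mem_sup.1 hmem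
  have hx' : x = (k : V) + (c : V) := by
    have := congrArg Subtype.val hkc
    simpa using this.symm
  rw [hx']
  refine Submodule.add_mem_sup ⟨k.2, ?_⟩ ⟨c, hc, rfl⟩
  simpa using hk

theorem almostLE_ker_of_fd_map (φ : V →ₗ[K] V') (X : Submodule K V)
    [FiniteDimensional K (X.map φ)] : AlmostLE X (LinearMap.ker φ) := by
  obtain ⟨W, hW, h⟩ := exists_fd_le_inf_ker_sup φ X
  exact ⟨W, hW, h.trans (sup_le_sup_right inf_le_right _)⟩

theorem fd_map_of_almostLE_ker (φ : V →ₗ[K] V') {X : Submodule K V}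
    (h : AlmostLE X (LinearMap.ker φ)) : FiniteDimensional K (X.map φ) := by
  obtain ⟨W, hW, h⟩ := h
  have : X.map φ ≤ W.map φ := by
    refine (Submodule.map_mono h).trans ?_
    rw [Submodule.map_sup]
    refine sup_le ?_ le_rfl
    rintro _ ⟨y, hy, rfl⟩
    rw [LinearMap.mem_ker.1 hy]
    exact zero_mem _
  exact Submodule.finiteDimensional_of_le this

theorem almostLE_comap {X : Submodule K V} (p : V →ₗ[K] V') {Y : Submodule K V'}
    (h : AlmostLE (X.map p) Y) : AlmostLE X (Y.comap p) := by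
  have hker : LinearMap.ker (Y.mkQ ∘ₗ p) = Y.comap p := by
    rw [LinearMap.ker_comp, Submodule.ker_mkQ]
  have h' : AlmostLE (X.map p) (LinearMap.ker Y.mkQ) := by rwa [Submodule.ker_mkQ]
  have : FiniteDimensional K (X.map (Y.mkQ ∘ₗ p)) := by
    rw [Submodule.map_comp]
    exact fd_map_of_almostLE_ker _ h'
  rw [← hker]
  exact almostLE_ker_of_fd_map _ X

theorem almostLE_inf_right {A A' : Submodule K V} (h : AlmostLE A A') (B : Submodule K V) :
    AlmostLE (A ⊓ B) (A' ⊓ B) := by
  have : FiniteDimensional K ((A ⊓ B).map A'.mkQ) := by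
    have h1 : AlmostLE (A ⊓ B) (LinearMap.ker A'.mkQ) := by
      rw [Submodule.ker_mkQ]
      exact almostLE_trans (almostLE_of_le inf_le_left) h
    exact fd_map_of_almostLE_ker _ h1
  obtain ⟨W, hW, hle⟩ := exists_fd_le_inf_ker_sup A'.mkQ (A ⊓ B)
  refine ⟨W, hW, hle.trans (sup_le_sup_right ?_ _)⟩
  rw [Submodule.ker_mkQ]
  exact le_inf inf_le_right (inf_le_left.trans inf_le_right)

theorem almostLE_inf {A A' B B' : Submodule K V} (h₁ : AlmostLE A A') (h₂ : AlmostLE B B') :
    AlmostLE (A ⊓ B) (A' ⊓ B') := by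
  refine almostLE_trans (almostLE_inf_right h₁ B) ?_
  rw [inf_comm A' B, inf_comm A' B']
  exact almostLE_inf_right h₂ A'

/-- factorisation of linear maps through a map with smaller kernel -/
theorem exists_factor {X Y Z : Type*} [AddCommGroup X] [Module K X] [AddCommGroup Y] [Module K Y]
    [AddCommGroup Z] [Module K Z] (φ : X →ₗ[K] Y) (τ : X →ₗ[K] Z)
    (h : LinearMap.ker φ ≤ LinearMap.ker τ) : ∃ p : Y →ₗ[K] Z, p ∘ₗ φ = τ := by
  have hinj : LinearMap.ker ((LinearMap.ker φ).liftQ φ le_rfl) = ⊥ :=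
    Submodule.ker_liftQ_eq_bot _ _ _ le_rfl
  obtain ⟨r, hr⟩ := ((LinearMap.ker φ).liftQ φ le_rfl).exists_leftInverse_of_injective hinj
  refine ⟨(LinearMap.ker φ).liftQ τ h ∘ₗ r, ?_⟩
  ext x
  have h1 : r (φ x) = (LinearMap.ker φ).mkQ x := by
    have := LinearMap.congr_fun hr ((LinearMap.ker φ).mkQ x)
    simpa using this
  simp [h1]

end calculus

section stable

variable {A B : Submodule K V} {f g : V →ₗ[K] V}

theorem almostStable_of_stable (h : ∀ a ∈ A, f a ∈ A) : AlmostStable A f :=
  almostLE_of_le (by rintro _ ⟨a, ha, rfl⟩; exact h a ha)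

theorem almostStable_one (A : Submodule K V) : AlmostStable A (1 : V →ₗ[K] V) :=
  almostLE_of_le (by rw [Module.End.one_eq_id, Submodule.map_id])

theorem almostStable_mul (hf : AlmostStable A f) (hg : AlmostStable A g) :
    AlmostStable A (f * g) := by
  unfold AlmostStable
  rw [Module.End.mul_eq_comp, Submodule.map_comp]
  exact almostLE_trans (almostLE_map hg f) hf

theorem almostStable_pow (hg : AlmostStable A g) (n : ℕ) : AlmostStable A (g ^ n) := by
  induction n with
  | zero => rw [pow_zero]; exact almostStable_one A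
  | succ n ih => rw [pow_succ]; exact almostStable_mul ih hg

theorem almostStable_sup (hA : AlmostStable A f) (hB : AlmostStable B f) :
    AlmostStable (A ⊔ B) f := by
  unfold AlmostStable
  rw [Submodule.map_sup]
  exact almostLE_sup (almostLE_trans hA (almostLE_of_le le_sup_left))
    (almostLE_trans hB (almostLE_of_le le_sup_right))

theorem almostStable_inf (hA : AlmostStable A f) (hB : AlmostStable B f) :
    AlmostStable (A ⊓ B) f := by
  unfold AlmostStable
  exact almostLE_trans (almostLE_of_le (Submodule.map_inf_le f)) (almostLE_inf hA hB)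

end stable

/-- `θ V ≺ X`, `θ X ≺ Y`, `θ Y ≺ 0`: a finite-potent subspace of `End V` (words of length 3
have finite-dimensional range). For `X = Y = A` this is Tate's `E₀(A)`. -/
def InF (X Y : Submodule K V) (θ : V →ₗ[K] V) : Prop :=
  AlmostLE (LinearMap.range θ) X ∧ AlmostLE (X.map θ) Y ∧ FiniteDimensional K (Y.map θ)

section inF

variable {X Y A : Submodule K V} {θ θ₁ θ₂ a b c f g : V →ₗ[K] V}

theorem inF_of_fd_range (X Y : Submodule K V) (θ : V →ₗ[K] V)
    [FiniteDimensional K (LinearMap.range θ)] : InF X Y θ := by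
  have hX : FiniteDimensional K (X.map θ) :=
    Submodule.finiteDimensional_of_le (LinearMap.map_le_range (f := θ) (p := X))
  exact ⟨almostLE_of_fd _ _, almostLE_of_fd _ _,
    Submodule.finiteDimensional_of_le (LinearMap.map_le_range (f := θ) (p := Y))⟩

theorem InF.add (h₁ : InF X Y θ₁) (h₂ : InF X Y θ₂) : InF X Y (θ₁ + θ₂) := by
  obtain ⟨a₁, b₁, c₁⟩ := h₁
  obtain ⟨a₂, b₂, c₂⟩ := h₂
  refine ⟨?_, ?_, ?_⟩
  · exact almostLE_trans (almostLE_of_le (LinearMap.range_add_le θ₁ θ₂)) (almostLE_sup a₁ a₂)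
  · exact almostLE_trans (almostLE_of_le (Submodule.map_add_le X θ₁ θ₂)) (almostLE_sup b₁ b₂)
  · exact Submodule.finiteDimensional_of_le (Submodule.map_add_le Y θ₁ θ₂)

theorem InF.smul (h : InF X Y θ) (c : K) : InF X Y (c • θ) := by
  obtain ⟨a, b, d⟩ := h
  have hm : ∀ Z : Submodule K V, Z.map (c • θ) ≤ Z.map θ := by
    rintro Z _ ⟨z, hz, rfl⟩
    exact ⟨c • z, Z.smul_mem c hz, by simp⟩
  refine ⟨?_, almostLE_trans (almostLE_of_le (hm X)) b, Submodule.finiteDimensional_of_le (hm Y)⟩
  refine almostLE_trans (almostLE_of_le ?_) a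
  rintro _ ⟨z, rfl⟩
  exact ⟨c • z, by simp⟩

theorem InF.neg (h : InF X Y θ) : InF X Y (-θ) := by
  simpa using h.smul (-1)

theorem InF.sub (h₁ : InF X Y θ₁) (h₂ : InF X Y θ₂) : InF X Y (θ₁ - θ₂) := by
  rw [sub_eq_add_neg]
  exact h₁.add h₂.neg

theorem InF.fd_range_mul (ha : InF X Y a) (hb : InF X Y b) (hc : InF X Y c) :
    FiniteDimensional K (LinearMap.range (a * (b * c))) := by
  have h1 : AlmostLE (LinearMap.range (b * c)) Y := by
    rw [Module.End.mul_eq_comp, LinearMap.range_comp]
    exact almostLE_trans (almostLE_map hc.1 b) hb.2.1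
  have h2 : AlmostLE (LinearMap.range (a * (b * c))) (Y.map a) := by
    rw [Module.End.mul_eq_comp a, LinearMap.range_comp]
    exact almostLE_map h1 a
  have := ha.2.2
  exact fd_of_almostLE h2

theorem InF.isFinitePotent (h : InF X Y θ) : IsFinitePotent θ := by
  refine ⟨3, ?_⟩
  have := InF.fd_range_mul h h h
  rwa [show θ ^ 3 = θ * (θ * θ) by rw [pow_succ', pow_two]]

theorem ftr_add_of_inF (h₁ : InF X Y θ₁) (h₂ : InF X Y θ₂) :
    ftr (θ₁ + θ₂) = ftr θ₁ + ftr θ₂ := by
  refine ftr_add θ₁ θ₂ 3 ?_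
  intro l hl hmem
  obtain ⟨a, b, c, rfl⟩ := List.length_eq_three.1 hl
  have hin : ∀ θ ∈ [a, b, c], InF X Y θ := by
    intro θ hθ
    rcases hmem θ hθ with rfl | rfl
    exacts [h₁, h₂]
  have hp : [a, b, c].prod = a * (b * c) := by simp
  rw [hp]
  exact InF.fd_range_mul (hin a (by simp)) (hin b (by simp)) (hin c (by simp))

theorem ftr_neg (θ : V →ₗ[K] V) : ftr (-θ) = -ftr θ := by
  have := ftr_smul (-1 : K) θ
  simpa using this

theorem ftr_sub_of_inF (h₁ : InF X Y θ₁) (h₂ : InF X Y θ₂) :
    ftr (θ₁ - θ₂) = ftr θ₁ - ftr θ₂ := by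
  rw [sub_eq_add_neg, ftr_add_of_inF h₁ h₂.neg, ftr_neg, sub_eq_add_neg]

theorem ftr_mul_comm_of_inF (h : InF X Y (a * b)) : ftr (a * b) = ftr (b * a) :=
  (ftr_comp_comm a b h.isFinitePotent).2

theorem isProj_mul_self {π : V →ₗ[K] V} (hP : LinearMap.IsProj A π) : π * π = π := by
  ext v
  exact hP.map_id _ (hP.map_mem v)

/-- `[π, g] ∈ E₀(A)` for `g ∈ E(A)`. -/
theorem inF_comm {π : V →ₗ[K] V} (hP : LinearMap.IsProj A π) (hg : AlmostStable A g) :
    InF A A (π * g - g * π) := by
  obtain ⟨W, hW, hle⟩ := hg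
  have h2 : A.map (π * g - g * π) ≤ W.map (π - 1) := by
    rintro _ ⟨a, ha, rfl⟩
    obtain ⟨a', ha', w, hw, hsum⟩ := Submodule.mem_sup.1 (hle (Submodule.mem_map_of_mem ha))
    refine ⟨w, hw, ?_⟩
    simp only [LinearMap.sub_apply, Module.End.mul_apply, Module.End.one_apply]
    rw [hP.map_id a ha, ← hsum, map_add, hP.map_id a' ha']
    abel
  have : FiniteDimensional K (A.map (π * g - g * π)) := Submodule.finiteDimensional_of_le h2
  refine ⟨?_, almostLE_of_fd _ _, inferInstance⟩
  have h1 : LinearMap.range (π * g - g * π) ≤ A ⊔ A.map g := by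
    rintro _ ⟨v, rfl⟩
    simp only [LinearMap.sub_apply, Module.End.mul_apply]
    exact Submodule.sub_mem _ (Submodule.mem_sup_left (hP.map_mem _))
      (Submodule.mem_sup_right (Submodule.mem_map_of_mem (hP.map_mem _)))
  exact almostLE_trans (almostLE_of_le h1) (almostLE_sup (almostLE_refl A) ⟨W, hW, hle⟩)

theorem InF.mul_right (h : InF A A θ) (hf : AlmostStable A f) : InF A A (θ * f) := by
  obtain ⟨a, b, c⟩ := h
  have h3 : FiniteDimensional K (A.map (θ * f)) := by
    rw [Module.End.mul_eq_comp, Submodule.map_comp]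
    have : AlmostLE ((A.map f).map θ) (A.map θ) := almostLE_map hf θ
    exact fd_of_almostLE this
  refine ⟨almostLE_trans (almostLE_of_le ?_) a, almostLE_of_fd _ _, h3⟩
  rw [Module.End.mul_eq_comp, LinearMap.range_comp]
  exact LinearMap.map_le_range

theorem InF.mul_left (h : InF A A θ) (hf : AlmostStable A f) : InF A A (f * θ) := by
  obtain ⟨a, b, c⟩ := h
  have h3 : FiniteDimensional K (A.map (f * θ)) := by
    rw [Module.End.mul_eq_comp, Submodule.map_comp]
    infer_instance
  refine ⟨?_, almostLE_of_fd _ _, h3⟩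
  rw [Module.End.mul_eq_comp, LinearMap.range_comp]
  exact almostLE_trans (almostLE_map a f) hf

/-- the basic operator `[π, g] f` lies in `E₀(A)`. -/
theorem inF_theta {π : V →ₗ[K] V} (hP : LinearMap.IsProj A π) (hf : AlmostStable A f)
    (hg : AlmostStable A g) : InF A A ((π * g - g * π) * f) :=
  (inF_comm hP hg).mul_right hf

end inF

theorem exists_isProj (A : Submodule K V) : ∃ π : V →ₗ[K] V, LinearMap.IsProj A π := by
  obtain ⟨r, hr⟩ := A.subtype.exists_leftInverse_of_injective A.ker_subtype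
  refine ⟨A.subtype ∘ₗ r, ⟨fun v => (r v).2, fun a ha => ?_⟩⟩
  have := LinearMap.congr_fun hr ⟨a, ha⟩
  simp only [LinearMap.comp_apply, Submodule.subtype_apply, LinearMap.id_apply] at this ⊢
  rw [this]

/-- a chosen projection onto `A` -/
noncomputable def proj (A : Submodule K V) : V →ₗ[K] V := Classical.choose (exists_isProj A)

theorem isProj_proj (A : Submodule K V) : LinearMap.IsProj A (proj A) :=
  Classical.choose_spec (exists_isProj A)

/-- independence of the projection -/
theorem ftr_theta_eq {A : Submodule K V} {π π' f g : V →ₗ[K] V} (hP : LinearMap.IsProj A π)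
    (hP' : LinearMap.IsProj A π') (hfg : Commute f g) (hf : AlmostStable A f)
    (hg : AlmostStable A g) :
    ftr ((π * g - g * π) * f) = ftr ((π' * g - g * π') * f) := by
  have hδ : InF A A (π - π') := by
    have h0 : A.map (π - π') ≤ ⊥ := by
      rintro _ ⟨a, ha, rfl⟩
      simp [hP.map_id a ha, hP'.map_id a ha]
    have h1 : LinearMap.range (π - π') ≤ A := by
      rintro _ ⟨v, rfl⟩
      exact Submodule.sub_mem _ (hP.map_mem v) (hP'.map_mem v)
    have : FiniteDimensional K (A.map (π - π')) := Submodule.finiteDimensional_of_le h0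
    exact ⟨almostLE_of_le h1, almostLE_of_fd _ _, inferInstance⟩
  have e1 : (π * g - g * π) * f =
      (π' * g - g * π') * f + ((π - π') * (g * f) - g * ((π - π') * f)) := by
    noncomm_ring
  have m1 : InF A A ((π - π') * (g * f)) := hδ.mul_right (almostStable_mul hg hf)
  have m2 : InF A A (g * ((π - π') * f)) := (hδ.mul_right hf).mul_left hg
  have e2 : ftr (g * ((π - π') * f)) = ftr ((π - π') * (g * f)) := by
    rw [ftr_mul_comm_of_inF m2, mul_assoc, hfg.eq]
  rw [e1, ftr_add_of_inF (inF_theta hP' hf hg) (m1.sub m2), ftr_sub_of_inF m1 m2, e2, sub_self,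
    add_zero]

end Residue

/-- Tate's abstract residue `res_A (f dg)` (junk unless `f`, `g` commute and almost preserve `A`). -/
noncomputable def tres (A : Submodule K V) (f g : V →ₗ[K] V) : K :=
  ftr ((Residue.proj A ∘ₗ g - g ∘ₗ Residue.proj A) ∘ₗ f)

namespace Residue

theorem tres_def (A : Submodule K V) (f g : V →ₗ[K] V) :
    tres A f g = ftr ((proj A * g - g * proj A) * f) := rfl

theorem ftr_zero : ftr (0 : V →ₗ[K] V) = 0 :=
  ftr_of_pow_eq_zero 0 1 (pow_one 0)

/-- `res (f d1) = 0`. -/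
theorem tres_one_right (A : Submodule K V) (f : V →ₗ[K] V) : tres A f 1 = 0 := by
  rw [tres_def, mul_one, one_mul, sub_self, zero_mul, ftr_zero]

/-- `ftr [u, g] = 0` if `u` has finite rank. -/
theorem ftr_comm_eq_zero_of_fd (u g : V →ₗ[K] V) [FiniteDimensional K (LinearMap.range u)] :
    ftr (u * g - g * u) = 0 := by
  have h1 : FiniteDimensional K (LinearMap.range (u * g)) := by
    refine Submodule.finiteDimensional_of_le (S₂ := LinearMap.range u) ?_
    rw [Module.End.mul_eq_comp, LinearMap.range_comp]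
    exact LinearMap.map_le_range
  have h2 : FiniteDimensional K (LinearMap.range (g * u)) := by
    rw [Module.End.mul_eq_comp, LinearMap.range_comp]
    infer_instance
  have m1 : InF (⊥ : Submodule K V) ⊥ (u * g) := inF_of_fd_range _ _ _
  have m2 : InF (⊥ : Submodule K V) ⊥ (g * u) := inF_of_fd_range _ _ _
  rw [ftr_sub_of_inF m1 m2, ftr_mul_comm_of_inF m1, sub_self]

end Residue

section
variable (A : Submodule K V) {f f' g g' h : V →ₗ[K] V}

open Residue in
/-- The residue can be computed with ANY projection onto `A`. -/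
theorem tres_eq_ftr (π : V →ₗ[K] V) (hπA : ∀ v, π v ∈ A) (hπ : ∀ a ∈ A, π a = a)
    (hfg : Commute f g) (hf : AlmostStable A f) (hg : AlmostStable A g) :
    tres A f g = ftr ((π ∘ₗ g - g ∘ₗ π) ∘ₗ f) :=
  ftr_theta_eq (isProj_proj A) ⟨hπA, hπ⟩ hfg hf hg

open Residue in
theorem tres_add_left (hfg : Commute f g) (hf'g : Commute f' g) (hf : AlmostStable A f)
    (hf' : AlmostStable A f') (hg : AlmostStable A g) :
    tres A (f + f') g = tres A f g + tres A f' g := by
  rw [tres_def, tres_def, tres_def, mul_add]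
  exact ftr_add_of_inF (inF_theta (isProj_proj A) hf hg) (inF_theta (isProj_proj A) hf' hg)

open Residue in
theorem tres_add_right (hfg : Commute f g) (hfg' : Commute f g') (hf : AlmostStable A f)
    (hg : AlmostStable A g) (hg' : AlmostStable A g') :
    tres A f (g + g') = tres A f g + tres A f g' := by
  rw [tres_def, tres_def, tres_def]
  have e : (proj A * (g + g') - (g + g') * proj A) * f =
      (proj A * g - g * proj A) * f + (proj A * g' - g' * proj A) * f := by
    noncomm_ring
  rw [e]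
  exact ftr_add_of_inF (inF_theta (isProj_proj A) hf hg) (inF_theta (isProj_proj A) hf hg')

open Residue in
theorem tres_smul_left (c : K) (hfg : Commute f g) (hf : AlmostStable A f)
    (hg : AlmostStable A g) : tres A (c • f) g = c * tres A f g := by
  rw [tres_def, tres_def, mul_smul_comm, ftr_smul]

open Residue in
theorem tres_smul_right (c : K) (hfg : Commute f g) (hf : AlmostStable A f)
    (hg : AlmostStable A g) : tres A f (c • g) = c * tres A f g := by
  rw [tres_def, tres_def, ← ftr_smul]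
  congr 1
  rw [mul_smul_comm, smul_mul_assoc, ← smul_sub, smul_mul_assoc]

open Residue in
/-- Leibniz rule: `res (f d(gh)) = res (fg dh) + res (fh dg)`. -/
theorem tres_mul_right (hfg : Commute f g) (hfh : Commute f h) (hgh : Commute g h)
    (hf : AlmostStable A f) (hg : AlmostStable A g) (hh : AlmostStable A h) :
    tres A f (g * h) = tres A (f * g) h + tres A (f * h) g := by
  rw [tres_def, tres_def, tres_def]
  have hP := isProj_proj A
  have e : (proj A * (g * h) - g * h * proj A) * f =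
      (proj A * g - g * proj A) * (h * f) + g * ((proj A * h - h * proj A) * f) := by
    noncomm_ring
  have m1 : InF A A ((proj A * g - g * proj A) * (h * f)) :=
    inF_theta hP (almostStable_mul hh hf) hg
  have m2 : InF A A (g * ((proj A * h - h * proj A) * f)) :=
    (inF_theta hP hf hh).mul_left hg
  rw [e, ftr_add_of_inF m1 m2, ftr_mul_comm_of_inF m2, mul_assoc, ← hfh.eq, add_comm]

open Residue in
/-- (R1) `res (f dg) = 0` if `f A ⊆ A` and `g A ⊆ A`. -/
theorem tres_eq_zero_of_stable (hfg : Commute f g) (hf : ∀ a ∈ A, f a ∈ A)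
    (hg : ∀ a ∈ A, g a ∈ A) : tres A f g = 0 := by
  rw [tres_def]
  have hP := isProj_proj A
  refine ftr_of_pow_eq_zero _ 2 ?_
  have h1 : ∀ v, ((proj A * g - g * proj A) * f) v ∈ A := by
    intro v
    simp only [LinearMap.sub_apply, Module.End.mul_apply]
    exact Submodule.sub_mem _ (hP.map_mem _) (hg _ (hP.map_mem _))
  have h2 : ∀ a ∈ A, ((proj A * g - g * proj A) * f) a = 0 := by
    intro a ha
    simp only [LinearMap.sub_apply, Module.End.mul_apply]
    rw [hP.map_id _ (hf a ha), hP.map_id _ (hg _ (hf a ha)), sub_self]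
  ext v
  rw [pow_two, Module.End.mul_apply, h2 _ (h1 v), LinearMap.zero_apply]

open Residue in
/-- `res (dg) = 0`. -/
theorem tres_one_left (hg : AlmostStable A g) : tres A 1 g = 0 := by
  rw [tres_def, mul_one]
  have hP := isProj_proj A
  have hpp := isProj_mul_self hP
  set π := proj A with hπ
  have e : π * g - g * π = π * g * (1 - π) - (1 - π) * g * π := by noncomm_ring
  have ha2 : (π * g * (1 - π)) ^ 2 = 0 := by
    have : (1 - π) * π = 0 := by rw [sub_mul, one_mul, hpp, sub_self]
    calc (π * g * (1 - π)) ^ 2 = π * g * ((1 - π) * π) * g * (1 - π) := by noncomm_ring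
      _ = 0 := by rw [this]; simp
  have hb2 : ((1 - π) * g * π) ^ 2 = 0 := by
    have : π * (1 - π) = 0 := by rw [mul_sub, mul_one, hpp, sub_self]
    calc ((1 - π) * g * π) ^ 2 = (1 - π) * g * (π * (1 - π)) * g * π := by noncomm_ring
      _ = 0 := by rw [this]; simp
  have ma : InF A A (π * g * (1 - π)) := by
    have h0 : A.map (π * g * (1 - π)) ≤ ⊥ := by
      rintro _ ⟨a, ha, rfl⟩
      simp [hP.map_id a ha]
    have h1 : LinearMap.range (π * g * (1 - π)) ≤ A := by
      rintro _ ⟨v, rfl⟩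
      simp only [Module.End.mul_apply]
      exact hP.map_mem _
    have : FiniteDimensional K (A.map (π * g * (1 - π))) := Submodule.finiteDimensional_of_le h0
    exact ⟨almostLE_of_le h1, almostLE_of_fd _ _, inferInstance⟩
  have mb : InF A A ((1 - π) * g * π) := by
    obtain ⟨W, hW, hle⟩ := hg
    have h1 : LinearMap.range ((1 - π) * g * π) ≤ W.map (1 - π) := by
      rintro _ ⟨v, rfl⟩
      obtain ⟨a', ha', w, hw, hsum⟩ :=
        Submodule.mem_sup.1 (hle (Submodule.mem_map_of_mem (f := g) (hP.map_mem v)))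
      refine ⟨w, hw, ?_⟩
      simp only [Module.End.mul_apply, LinearMap.sub_apply, Module.End.one_apply]
      rw [← hsum, map_add, hP.map_id a' ha']
      abel
    have : FiniteDimensional K (LinearMap.range ((1 - π) * g * π)) :=
      Submodule.finiteDimensional_of_le h1
    exact inF_of_fd_range _ _ _
  rw [e, ftr_sub_of_inF ma mb, ftr_of_pow_eq_zero _ 2 ha2, ftr_of_pow_eq_zero _ 2 hb2, sub_self]

open Residue in
/-- iterated Leibniz rule: `res (f d(g^(m+1))) = (m+1) res (f g^m dg)`. -/
theorem Residue.tres_pow_right (hg : AlmostStable A g) (m : ℕ) :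
    ∀ f : V →ₗ[K] V, Commute f g → AlmostStable A f →
      tres A f (g ^ (m + 1)) = ((m : K) + 1) * tres A (f * g ^ m) g := by
  induction m with
  | zero =>
    intro f hfg hf
    simp
  | succ m ih =>
    intro f hfg hf
    have hgm : AlmostStable A (g ^ (m + 1)) := almostStable_pow hg _
    rw [pow_succ g (m + 1), tres_mul_right A (hfg.pow_right _) hfg (Commute.pow_self g _)
      hf hgm hg, ih (f * g) (hfg.mul_left (Commute.refl g)) (almostStable_mul hf hg)]
    have e : f * g * g ^ m = f * g ^ (m + 1) := by rw [mul_assoc, ← pow_succ']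
    rw [e]
    push_cast
    ring

open Residue in
/-- (R2) `res (g ^ n dg) = 0`. -/
theorem tres_pow_self [CharZero K] (n : ℕ) (hg : AlmostStable A g) : tres A (g ^ n) g = 0 := by
  have h1 := tres_pow_right A hg n 1 (Commute.one_left g) (almostStable_one A)
  rw [tres_one_left A (almostStable_pow hg _), one_mul] at h1
  have h2 : ((n : K) + 1) ≠ 0 := by exact_mod_cast Nat.succ_ne_zero n
  rcases mul_eq_zero.1 h1.symm with h | h
  · exact absurd h h2
  · exact h

open Residue in
/-- (R2) `res (g ^ (-m) dg) = 0` for `m ≥ 2`, `g'` the inverse of `g`. -/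
theorem tres_inv_pow_self [CharZero K] (hgg' : g * g' = 1) (hg'g : g' * g = 1)
    (hg : AlmostStable A g) (hg' : AlmostStable A g') (m : ℕ) (hm : 2 ≤ m) :
    tres A (g' ^ m) g = 0 := by
  obtain ⟨k, rfl⟩ := Nat.exists_eq_add_of_le hm
  have hc : Commute g' g := by
    show g' * g = g * g'
    rw [hgg', hg'g]
  have hF : AlmostStable A (g' ^ (k + 1)) := almostStable_pow hg' _
  have hL := tres_mul_right A (f := g' ^ (k + 1)) (g := g) (h := g') (hc.pow_left _)
    (Commute.pow_self g' _) hc.symm hF hg hg'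
  rw [hgg', tres_one_right] at hL
  have e1 : g' ^ (k + 1) * g = g' ^ k := by rw [pow_succ, mul_assoc, hg'g, mul_one]
  have e2 : g' ^ (k + 1) * g' = g' ^ (2 + k) := by rw [← pow_succ]; congr 1; omega
  rw [e1, e2, tres_pow_self A k hg', zero_add] at hL
  exact hL.symm

open Residue in
/-- (R3) `res (g⁻¹ dg) = dim (A / gA)` if `g A ⊆ A` has finite codimension in `A`. -/
theorem tres_inv_self (hgg' : g * g' = 1) (hg'g : g' * g = 1) (hg : ∀ a ∈ A, g a ∈ A)
    [FiniteDimensional K (↥A ⧸ (A.map g).comap A.subtype)] :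
    tres A g' g = (Module.finrank K (↥A ⧸ (A.map g).comap A.subtype) : K) := by
  rw [tres_def]
  have hP := isProj_proj A
  have hpp := isProj_mul_self hP
  set π := proj A with hπ
  have hθ' : (π * g - g * π) * g' = π - g * π * g' := by
    rw [sub_mul, mul_assoc π g g', hgg', mul_one]
  rw [hθ']
  have hidem : (g * π * g') * (g * π * g') = g * π * g' := by
    calc (g * π * g') * (g * π * g') = g * π * (g' * g) * π * g' := by noncomm_ring
      _ = g * (π * π) * g' := by rw [hg'g]; noncomm_ring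
      _ = g * π * g' := by rw [hpp]
  have hπ'A : ∀ v, (g * π * g') v ∈ A := fun v => hg _ (hP.map_mem _)
  have hθA : ∀ v, (π - g * π * g') v ∈ A := fun v =>
    Submodule.sub_mem _ (hP.map_mem v) (hπ'A v)
  have hθa : ∀ a ∈ A, (π - g * π * g') a = a - (g * π * g') a := by
    intro a ha
    rw [LinearMap.sub_apply, hP.map_id a ha]
  have hθW : ∀ w ∈ A.map (π - g * π * g'), (π - g * π * g') w = w := by
    rintro _ ⟨a, ha, rfl⟩
    rw [hθa _ (hθA a), hθa a ha, map_sub, ← Module.End.mul_apply (g * π * g') (g * π * g'), hidem]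
    abel
  have hWst : ∀ w ∈ A.map (π - g * π * g'), (π - g * π * g') w ∈ A.map (π - g * π * g') := by
    intro w hw
    rw [hθW w hw]
    exact hw
  have hn : LinearMap.range ((π - g * π * g') ^ 2) ≤ A.map (π - g * π * g') := by
    rintro _ ⟨v, rfl⟩
    rw [pow_two, Module.End.mul_apply]
    exact Submodule.mem_map_of_mem (hθA v)
  -- the surjection `A → W` with kernel `gA`
  let ψ : ↥A →ₗ[K] ↥(A.map (π - g * π * g')) :=
    ((π - g * π * g').domRestrict A).codRestrict _ (fun a => Submodule.mem_map_of_mem a.2)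
  have hψs : Function.Surjective ψ := by
    rintro ⟨_, a, ha, rfl⟩
    exact ⟨⟨a, ha⟩, rfl⟩
  have hker : LinearMap.ker ψ = (A.map g).comap A.subtype := by
    ext ⟨a, ha⟩
    rw [LinearMap.mem_ker, Submodule.mem_comap, Submodule.subtype_apply]
    have h0 : ψ ⟨a, ha⟩ = 0 ↔ (π - g * π * g') a = 0 := by
      rw [← Subtype.coe_inj]
      rfl
    rw [h0, hθa a ha, sub_eq_zero]
    constructor
    · intro h
      show a ∈ A.map g
      rw [h]
      exact ⟨π (g' a), hP.map_mem _, rfl⟩
    · rintro ⟨b, hb, rfl⟩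
      simp only [Module.End.mul_apply]
      rw [← Module.End.mul_apply g' g, hg'g, Module.End.one_apply, hP.map_id b hb]
  let e : (↥A ⧸ (A.map g).comap A.subtype) ≃ₗ[K] ↥(A.map (π - g * π * g')) :=
    (Submodule.quotEquivOfEq _ _ hker.symm).trans (ψ.quotKerEquivOfSurjective hψs)
  have hWfd : FiniteDimensional K ↥(A.map (π - g * π * g')) := LinearEquiv.finiteDimensional e
  rw [ftr_eq_trace_restrict (π - g * π * g') (A.map (π - g * π * g')) hWst 2 hn]
  have hone : (π - g * π * g').restrict hWst = 1 := by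
    ext w
    exact hθW w w.2
  rw [hone, LinearMap.trace_one, e.finrank_eq]

open Residue in
theorem tres_eq_zero_of_finite (hfg : Commute f g) (hA : FiniteDimensional K A) :
    tres A f g = 0 := by
  rw [tres_def]
  have hP := isProj_proj A
  have e : (proj A * g - g * proj A) * f = (proj A * f) * g - g * (proj A * f) := by
    rw [sub_mul, mul_assoc, mul_assoc, mul_assoc, hfg.eq]
  have hr : FiniteDimensional K (LinearMap.range (proj A * f)) := by
    refine Submodule.finiteDimensional_of_le (S₂ := A) ?_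
    rintro _ ⟨v, rfl⟩
    exact hP.map_mem _
  rw [e, ftr_comm_eq_zero_of_fd]

open Residue in
theorem tres_eq_zero_of_cofinite (hfg : Commute f g) (hA : FiniteDimensional K (V ⧸ A)) :
    tres A f g = 0 := by
  rw [tres_def]
  have hP := isProj_proj A
  have e : (proj A * g - g * proj A) * f =
      -(((1 - proj A) * f) * g - g * ((1 - proj A) * f)) := by
    have : (1 - proj A) * f * g = (1 - proj A) * (g * f) := by rw [mul_assoc, hfg.eq]
    rw [this]
    noncomm_ring
  have hρ : FiniteDimensional K (LinearMap.range (1 - proj A)) := by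
    have hle : A ≤ LinearMap.ker (1 - proj A) := by
      intro a ha
      simp [hP.map_id a ha]
    rw [← Submodule.range_liftQ A (1 - proj A) hle]
    infer_instance
  have hr : FiniteDimensional K (LinearMap.range ((1 - proj A) * f)) := by
    refine Submodule.finiteDimensional_of_le (S₂ := LinearMap.range (1 - proj A)) ?_
    rw [Module.End.mul_eq_comp, LinearMap.range_comp]
    exact LinearMap.map_le_range
  rw [e, ftr_neg, ftr_comm_eq_zero_of_fd, neg_zero]

end

namespace Residue

theorem map_sub_le (X : Submodule K V) (a b : V →ₗ[K] V) :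
    X.map (a - b) ≤ X.map a ⊔ X.map b := by
  rintro _ ⟨x, hx, rfl⟩
  rw [LinearMap.sub_apply]
  exact Submodule.sub_mem _ (Submodule.mem_sup_left (Submodule.mem_map_of_mem hx))
    (Submodule.mem_sup_right (Submodule.mem_map_of_mem hx))

/-- a map `p` with values in `A`, vanishing on `B`, equal to `1 - πI` on `A`. -/
theorem exists_half (A B : Submodule K V) (πI : V →ₗ[K] V)
    (hI : LinearMap.IsProj (A ⊓ B) πI) :
    ∃ p : V →ₗ[K] V, (∀ v, p v ∈ A) ∧ (∀ b ∈ B, p b = 0) ∧ (∀ a ∈ A, p a = a - πI a) := by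
  have hst : ∀ a ∈ A, (1 - πI) a ∈ A := by
    intro a ha
    exact Submodule.sub_mem _ ha (hI.map_mem a).1
  have hker : LinearMap.ker (B.mkQ ∘ₗ A.subtype) ≤ LinearMap.ker ((1 - πI).restrict hst) := by
    rintro ⟨a, ha⟩ h
    rw [LinearMap.mem_ker] at h ⊢
    have haB : a ∈ B := by simpa using h
    apply Subtype.ext
    show (1 - πI) a = 0
    simp [hI.map_id a ⟨ha, haB⟩]
  obtain ⟨pb, hpb⟩ := exists_factor (B.mkQ ∘ₗ A.subtype) ((1 - πI).restrict hst) hker
  refine ⟨A.subtype ∘ₗ pb ∘ₗ B.mkQ, fun v => (pb _).2, ?_, ?_⟩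
  · intro b hb
    have : B.mkQ b = 0 := (Submodule.Quotient.mk_eq_zero B).2 hb
    simp [this]
  · intro a ha
    have h2 : pb (B.mkQ a) = ((1 - πI).restrict hst) ⟨a, ha⟩ := LinearMap.congr_fun hpb ⟨a, ha⟩
    simp only [LinearMap.comp_apply, Submodule.subtype_apply, h2]
    rfl

/-- compatible projections onto `A`, `B`, `A + B`, `A ∩ B`. -/
theorem exists_compat_proj (A B : Submodule K V) :
    ∃ πA πB πS πI : V →ₗ[K] V, LinearMap.IsProj A πA ∧ LinearMap.IsProj B πB ∧
      LinearMap.IsProj (A ⊔ B) πS ∧ LinearMap.IsProj (A ⊓ B) πI ∧ πA + πB = πS + πI ∧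
      (∀ b ∈ B, πA b ∈ A ⊓ B) ∧ (∀ a ∈ A, πB a ∈ A ⊓ B) := by
  obtain ⟨πI, hI⟩ := exists_isProj (A ⊓ B)
  obtain ⟨p₁, h1A, h1B, h1⟩ := exists_half A B πI hI
  obtain ⟨p₂, h2B, h2A, h2⟩ := exists_half B A πI (by rwa [inf_comm])
  have hIA : ∀ v, πI v ∈ A := fun v => (hI.map_mem v).1
  have hIB : ∀ v, πI v ∈ B := fun v => (hI.map_mem v).2
  refine ⟨πI + p₁, πI + p₂, πI + p₁ + p₂, πI, ⟨?_, ?_⟩, ⟨?_, ?_⟩, ⟨?_, ?_⟩, hI, by abel, ?_, ?_⟩
  · intro v
    exact Submodule.add_mem _ (hIA v) (h1A v)
  · intro a ha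
    rw [LinearMap.add_apply, h1 a ha]
    abel
  · intro v
    exact Submodule.add_mem _ (hIB v) (h2B v)
  · intro b hb
    rw [LinearMap.add_apply, h2 b hb]
    abel
  · intro v
    exact Submodule.add_mem _ (Submodule.add_mem _ (Submodule.mem_sup_left (hIA v))
      (Submodule.mem_sup_left (h1A v))) (Submodule.mem_sup_right (h2B v))
  · intro s hs
    obtain ⟨a, ha, b, hb, rfl⟩ := Submodule.mem_sup.1 hs
    simp only [LinearMap.add_apply, map_add]
    rw [h1 a ha, h1B b hb, h2A a ha, h2 b hb]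
    abel
  · intro b hb
    rw [LinearMap.add_apply, h1B b hb, add_zero]
    exact hI.map_mem b
  · intro a ha
    rw [LinearMap.add_apply, h2A a ha, add_zero]
    exact hI.map_mem a

theorem inF_of_compat {A B : Submodule K V} {π f g : V →ₗ[K] V} (hP : LinearMap.IsProj A π)
    (hπB : ∀ b ∈ B, π b ∈ A ⊓ B) (hfA : AlmostStable A f) (hgA : AlmostStable A g)
    (hfB : AlmostStable B f) (hgB : AlmostStable B g) :
    InF (A ⊔ B) (A ⊓ B) ((π * g - g * π) * f) := by
  have hθ := inF_theta hP hfA hgA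
  have hBπ : B.map π ≤ A ⊓ B := by
    rintro _ ⟨b, hb, rfl⟩
    exact hπB b hb
  have hfdA : FiniteDimensional K (A.map ((π * g - g * π) * f)) := hθ.2.2
  refine ⟨almostLE_trans hθ.1 (almostLE_of_le le_sup_left), ?_,
    Submodule.finiteDimensional_of_le (Submodule.map_mono inf_le_left)⟩
  rw [Submodule.map_sup]
  refine almostLE_sup (almostLE_of_fd _ _) ?_
  have e : (π * g - g * π) * f = π * (g * f) - g * (π * f) := by noncomm_ring
  rw [e]
  refine almostLE_trans (almostLE_of_le (map_sub_le _ _ _)) (almostLE_sup ?_ ?_)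
  · rw [Module.End.mul_eq_comp π, Submodule.map_comp]
    exact almostLE_trans (almostLE_map (almostStable_mul hgB hfB) π) (almostLE_of_le hBπ)
  · rw [Module.End.mul_eq_comp g, Submodule.map_comp, Module.End.mul_eq_comp π, Submodule.map_comp]
    have h1 : AlmostLE ((B.map f).map π) (A ⊓ B) :=
      almostLE_trans (almostLE_map hfB π) (almostLE_of_le hBπ)
    exact almostLE_trans (almostLE_map h1 g) (almostStable_inf hgA hgB)

end Residue

section
variable (A : Submodule K V) {f g : V →ₗ[K] V}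

open Residue in
/-- (R4) `res_A + res_B = res_(A+B) + res_(A∩B)`. -/
theorem tres_add_tres (B : Submodule K V) (hfg : Commute f g)
    (hfA : AlmostStable A f) (hgA : AlmostStable A g)
    (hfB : AlmostStable B f) (hgB : AlmostStable B g) :
    tres A f g + tres B f g = tres (A ⊔ B) f g + tres (A ⊓ B) f g := by
  obtain ⟨πA, πB, πS, πI, hPA, hPB, hPS, hPI, hsum, hAB, hBA⟩ := exists_compat_proj A B
  have hfS := almostStable_sup hfA hfB
  have hgS := almostStable_sup hgA hgB
  have hfI := almostStable_inf hfA hfB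
  have hgI := almostStable_inf hgA hgB
  rw [tres_eq_ftr A πA hPA.map_mem hPA.map_id hfg hfA hgA,
    tres_eq_ftr B πB hPB.map_mem hPB.map_id hfg hfB hgB,
    tres_eq_ftr (A ⊔ B) πS hPS.map_mem hPS.map_id hfg hfS hgS,
    tres_eq_ftr (A ⊓ B) πI hPI.map_mem hPI.map_id hfg hfI hgI]
  show ftr ((πA * g - g * πA) * f) + ftr ((πB * g - g * πB) * f) =
    ftr ((πS * g - g * πS) * f) + ftr ((πI * g - g * πI) * f)
  have mA : InF (A ⊔ B) (A ⊓ B) ((πA * g - g * πA) * f) :=
    inF_of_compat hPA hAB hfA hgA hfB hgB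
  have mB : InF (A ⊔ B) (A ⊓ B) ((πB * g - g * πB) * f) := by
    have := inF_of_compat (A := B) (B := A) hPB (by simpa [inf_comm] using hBA) hfB hgB hfA hgA
    rwa [sup_comm, inf_comm] at this
  have mS : InF (A ⊔ B) (A ⊓ B) ((πS * g - g * πS) * f) := by
    have h := inF_theta hPS hfS hgS
    have : FiniteDimensional K ((A ⊔ B).map ((πS * g - g * πS) * f)) := h.2.2
    exact ⟨h.1, almostLE_of_fd _ _,
      Submodule.finiteDimensional_of_le (Submodule.map_mono inf_le_sup)⟩
  have mI : InF (A ⊔ B) (A ⊓ B) ((πI * g - g * πI) * f) := by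
    have h := inF_theta hPI hfI hgI
    exact ⟨almostLE_trans h.1 (almostLE_of_le inf_le_sup),
      almostLE_trans (almostLE_of_le LinearMap.map_le_range) h.1, h.2.2⟩
  have e : (πA * g - g * πA) * f + (πB * g - g * πB) * f =
      (πS * g - g * πS) * f + (πI * g - g * πI) * f := by
    have e1 : (πA * g - g * πA) * f + (πB * g - g * πB) * f =
        ((πA + πB) * g - g * (πA + πB)) * f := by noncomm_ring
    rw [e1, hsum]
    noncomm_ring
  rw [← ftr_add_of_inF mA mB, e, ftr_add_of_inF mS mI]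

end

open Residue in
/-- Invariance under surjections: if `A = p⁻¹(A')` and `f g` lift `f' g'`, the residues agree. -/
theorem tres_comap {V' : Type*} [AddCommGroup V'] [Module K V'] (p : V →ₗ[K] V')
    (hp : Function.Surjective p) (A' : Submodule K V') {f g : V →ₗ[K] V} {f' g' : V' →ₗ[K] V'}
    (hf : p ∘ₗ f = f' ∘ₗ p) (hg : p ∘ₗ g = g' ∘ₗ p) (hfg : Commute f g)
    (hf' : AlmostStable A' f') (hg' : AlmostStable A' g') :
    tres (A'.comap p) f g = tres A' f' g' := by
  have hfa : ∀ v, p (f v) = f' (p v) := fun v => LinearMap.congr_fun hf v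
  have hga : ∀ v, p (g v) = g' (p v) := fun v => LinearMap.congr_fun hg v
  obtain ⟨s, hs⟩ := p.exists_rightInverse_of_surjective (LinearMap.range_eq_top.2 hp)
  have hsa : ∀ v', p (s v') = v' := fun v' => LinearMap.congr_fun hs v'
  have hP := isProj_proj (A'.comap p)
  set π := proj (A'.comap p) with hπ
  have hfg' : Commute f' g' := by
    show f' * g' = g' * f'
    apply LinearMap.ext
    intro v'
    obtain ⟨v, rfl⟩ := hp v'
    simp only [Module.End.mul_apply]
    rw [← hga, ← hfa, ← hfa, ← hga, ← Module.End.mul_apply f g, hfg.eq, Module.End.mul_apply]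
  have hP' : LinearMap.IsProj A' (p ∘ₗ π ∘ₗ s) := by
    refine ⟨fun v' => ?_, fun a' ha' => ?_⟩
    · exact hP.map_mem (s v')
    · have : s a' ∈ A'.comap p := by
        rw [Submodule.mem_comap, hsa]
        exact ha'
      simp only [LinearMap.comp_apply]
      rw [hP.map_id _ this, hsa]
  have hpπ : ∀ x y, p x = p y → p (π x) = p (π y) := by
    intro x y hxy
    have hmem : x - y ∈ A'.comap p := by
      rw [Submodule.mem_comap, map_sub, hxy, sub_self]
      exact zero_mem _
    have h1 := hP.map_id _ hmem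
    rw [map_sub] at h1
    have h2 : p (π x - π y) = p (x - y) := by rw [h1]
    rw [map_sub, map_sub, hxy, sub_self, sub_eq_zero] at h2
    exact h2
  have hstab : ∀ {h : V →ₗ[K] V} {h' : V' →ₗ[K] V'}, (∀ v, p (h v) = h' (p v)) →
      AlmostStable A' h' → AlmostStable (A'.comap p) h := by
    intro h h' hh hh'
    refine almostLE_comap p ?_
    have : ((A'.comap p).map h).map p ≤ A'.map h' := by
      rintro _ ⟨_, ⟨v, hv, rfl⟩, rfl⟩
      exact ⟨p v, hv, (hh v).symm⟩
    exact almostLE_trans (almostLE_of_le this) hh'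
  have hfA := hstab hfa hf'
  have hgA := hstab hga hg'
  rw [tres_eq_ftr A' (p ∘ₗ π ∘ₗ s) hP'.map_mem hP'.map_id hfg' hf' hg', tres_def]
  have hker : ∀ n, p n = 0 → ((π * g - g * π) * f) n = 0 := by
    intro n hn
    have h1 : f n ∈ A'.comap p := by
      rw [Submodule.mem_comap, hfa, hn, map_zero]
      exact zero_mem _
    have h2 : g (f n) ∈ A'.comap p := by
      rw [Submodule.mem_comap, hga, hfa, hn, map_zero, map_zero]
      exact zero_mem _
    simp only [LinearMap.sub_apply, Module.End.mul_apply]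
    rw [hP.map_id _ h1, hP.map_id _ h2, sub_self]
  have e1 : ((π * g - g * π) * f) ∘ₗ s ∘ₗ p = (π * g - g * π) * f := by
    ext v
    have h0 : p (s (p v) - v) = 0 := by rw [map_sub, hsa, sub_self]
    have h3 := hker _ h0
    rw [map_sub, sub_eq_zero] at h3
    exact h3
  have e2 : p ∘ₗ (((π * g - g * π) * f) ∘ₗ s) =
      ((p ∘ₗ π ∘ₗ s) ∘ₗ g' - g' ∘ₗ (p ∘ₗ π ∘ₗ s)) ∘ₗ f' := by
    ext v'
    simp only [LinearMap.comp_apply, LinearMap.sub_apply, Module.End.mul_apply, map_sub]
    rw [hga (π (f (s v'))), hpπ (g (f (s v'))) (s (g' (f' v'))) (by rw [hga, hfa, hsa, hsa]),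
      hpπ (f (s v')) (s (f' v')) (by rw [hfa, hsa, hsa])]
  have hfp : IsFinitePotent ((((π * g - g * π) * f) ∘ₗ s) ∘ₗ p) := by
    rw [LinearMap.comp_assoc, e1]
    exact (inF_theta hP hfA hgA).isFinitePotent
  have h5 := (ftr_comp_comm (((π * g - g * π) * f) ∘ₗ s) p hfp).2
  rw [LinearMap.comp_assoc, e1, e2] at h5
  exact h5

end Fermat.Agent.RR
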