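import Mathlib
import Fermat.Agent.RR.Residue
import Fermat.Agent.S24.Differentials

/-!
# RR / L: local residues at a place of a function field

For a place `v` of `F / K` with residue field `K` we define the local residue symbol
`lres v f g = res_v (f dg)` as Tate's abstract residue on `V = F` with respect to the
`K`-subspace `O_v`, the multiplication operators of `f` and `g` acting on `F`.

* `placeSub v` : `O_v` as a `K`-subspace of `F`;
* `almostStable_mulLeft` : multiplication operators almost preserve `O_v`;
* `lres` with bilinearity, the Leibniz rule, vanishing on `O_v`;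
* `resDiff v hres : Ω[F⁄K] →ₗ[K] K` with `resDiff (f • D g) = lres v f g`;
* `lres_eq_zero_of_ord`, `exists_lres_eq_one` : the vanishing / non-vanishing criteria in terms
  of `ordDifferential`, as needed for the duality theorem.
-/

set_option autoImplicit false

open AlgebraicCurve KaehlerDifferential IsLocalRing

namespace Fermat.Agent.RR

variable {K F : Type*} [Field K] [Field F] [Algebra K F]

/-- The valuation ring `O_v` as a `K`-subspace of `F`. -/
def placeSub (v : Place K F) : Submodule K F where
  carrier := {f | f ∈ v.toValuationSubring}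
  add_mem' := fun ha hb => v.toValuationSubring.add_mem _ _ ha hb
  zero_mem' := v.toValuationSubring.zero_mem
  smul_mem' := fun c f hf => by
    show c • f ∈ v.toValuationSubring
    rw [Algebra.smul_def]
    exact v.toValuationSubring.mul_mem _ _ (v.algebraMap_mem' c) hf

theorem mem_placeSub {v : Place K F} {f : F} : f ∈ placeSub v ↔ f ∈ v.toValuationSubring :=
  Iff.rfl

namespace LocalRes

variable (v : Place K F)

/-- The span of `π⁻¹, …, π⁻ᵏ`. -/
def negSpan (π : F) (k : ℕ) : Submodule K F :=
  Submodule.span K ((fun i : ℕ => (π⁻¹) ^ (i + 1)) '' (Finset.range k : Set ℕ))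

theorem finiteDimensional_negSpan (π : F) (k : ℕ) :
    FiniteDimensional K (negSpan (K := K) π k) :=
  FiniteDimensional.span_of_finite K ((Finset.finite_toSet _).image _)

theorem negSpan_mono (π : F) {k l : ℕ} (h : k ≤ l) :
    negSpan (K := K) π k ≤ negSpan (K := K) π l := by
  apply Submodule.span_mono
  apply Set.image_mono
  intro i hi
  rw [Finset.mem_coe, Finset.mem_range] at hi ⊢
  omega

theorem inv_pow_succ_mem_negSpan (π : F) (k : ℕ) : (π⁻¹) ^ (k + 1) ∈ negSpan (K := K) π (k + 1) :=
  Submodule.subset_span ⟨k, by simp, rfl⟩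

/-- Every element of `O_v` is a constant plus a multiple of the uniformizer. -/
theorem exists_eq_add_mul
    (hres : ∀ f : F, f ∈ v.toValuationSubring →
      ∃ a : K, 0 < v.ord (f - algebraMap K F a) ∨ f = algebraMap K F a)
    {π : v.toValuationSubring} (hπ : Irreducible π) (u : F) (hu : u ∈ v.toValuationSubring) :
    ∃ (a : K) (u₁ : F), u₁ ∈ v.toValuationSubring ∧ u = algebraMap K F a + (π : F) * u₁ := by
  obtain ⟨a, ha | ha⟩ := hres u hu
  · have hmem : u - algebraMap K F a ∈ v.toValuationSubring :=
      v.toValuationSubring.sub_mem hu (v.algebraMap_mem' a)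
    have h1 := Fermat.Agent.S24.Differentials.mem_maximalIdeal_of_ord_pos v
      ⟨u - algebraMap K F a, hmem⟩ ha
    rw [hπ.maximalIdeal_eq, Ideal.mem_span_singleton] at h1
    obtain ⟨u₁, hu₁⟩ := h1
    refine ⟨a, (u₁ : F), u₁.2, ?_⟩
    have h2 := congrArg (Subtype.val : v.toValuationSubring → F) hu₁
    have h3 : u - algebraMap K F a = (π : F) * (u₁ : F) := h2
    rw [← h3]
    ring
  · exact ⟨a, 0, v.toValuationSubring.zero_mem, by rw [ha, mul_zero, add_zero]⟩

/-- `π⁻ᵏ O_v ⊆ O_v + ⟨π⁻¹, …, π⁻ᵏ⟩`. -/
theorem inv_pow_mul_mem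
    (hres : ∀ f : F, f ∈ v.toValuationSubring →
      ∃ a : K, 0 < v.ord (f - algebraMap K F a) ∨ f = algebraMap K F a)
    {π : v.toValuationSubring} (hπ : Irreducible π) (k : ℕ) (u : F)
    (hu : u ∈ v.toValuationSubring) :
    ((π : F)⁻¹) ^ k * u ∈ placeSub v ⊔ negSpan (K := K) (π : F) k := by
  have hπ0 : (π : F) ≠ 0 := by
    simpa [ne_eq, ZeroMemClass.coe_eq_zero] using hπ.ne_zero
  induction k generalizing u with
  | zero =>
    rw [pow_zero, one_mul]
    exact Submodule.mem_sup_left hu
  | succ k ih =>
    obtain ⟨a, u₁, hu₁, rfl⟩ := exists_eq_add_mul v hres hπ u hu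
    have h1 : ((π : F)⁻¹) ^ (k + 1) * (algebraMap K F a + (π : F) * u₁) =
        a • ((π : F)⁻¹) ^ (k + 1) + ((π : F)⁻¹) ^ k * u₁ := by
      rw [Algebra.smul_def, pow_succ]
      field_simp
    rw [h1]
    apply Submodule.add_mem
    · exact Submodule.mem_sup_right
        (Submodule.smul_mem _ _ (inv_pow_succ_mem_negSpan (π : F) k))
    · exact (sup_le_sup_left (negSpan_mono (π : F) (Nat.le_succ k)) _) (ih u₁ hu₁)

/-- Elements of nonnegative order lie in `O_v`. -/
theorem mem_of_ord_nonneg {f : F} (hf : f ≠ 0) (h : 0 ≤ v.ord f) : f ∈ v.toValuationSubring := by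
  have hπ := Fermat.Agent.S24.Differentials.unif_irreducible v
  obtain ⟨u, hu⟩ := v.exists_unit_mul_zpow hf hπ
  obtain ⟨n, hn⟩ := Int.eq_ofNat_of_zero_le h
  rw [hn, zpow_natCast] at hu
  rw [hu]
  exact v.toValuationSubring.mul_mem _ _ (u : v.toValuationSubring).2
    (v.toValuationSubring.pow_mem (Fermat.Agent.S24.Differentials.unif v).2 n)

/-- Every element of `F` is `π⁻ᵏ g` with `g ∈ O_v`. -/
theorem exists_inv_pow_mul (f : F) {π : v.toValuationSubring} (hπ : Irreducible π) :
    ∃ (k : ℕ) (g : F), g ∈ v.toValuationSubring ∧ f = ((π : F)⁻¹) ^ k * g := by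
  have hπ0 : (π : F) ≠ 0 := by
    simpa [ne_eq, ZeroMemClass.coe_eq_zero] using hπ.ne_zero
  rcases eq_or_ne f 0 with rfl | hf
  · exact ⟨0, 0, v.toValuationSubring.zero_mem, by simp⟩
  · obtain ⟨u, hu⟩ := v.exists_unit_mul_zpow hf hπ
    rcases le_or_gt 0 (v.ord f) with h | h
    · exact ⟨0, f, mem_of_ord_nonneg v hf h, by simp⟩
    · refine ⟨(-v.ord f).toNat, ((u : v.toValuationSubring) : F), (u : v.toValuationSubring).2, ?_⟩
      have h1 : v.ord f = -(((-v.ord f).toNat : ℕ) : ℤ) := by
        rw [Int.toNat_of_nonneg (by omega)]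
        ring
      conv_lhs => rw [hu, h1]
      rw [zpow_neg, zpow_natCast, inv_pow, mul_comm]

end LocalRes

open LocalRes

/-- Multiplication operators almost preserve `O_v` (when the residue field is `K`). -/
theorem almostStable_mulLeft (v : Place K F)
    (hres : ∀ f : F, f ∈ v.toValuationSubring →
      ∃ a : K, 0 < v.ord (f - algebraMap K F a) ∨ f = algebraMap K F a)
    (f : F) : AlmostStable (placeSub v) (LinearMap.mulLeft K f) := by
  have hπ := Fermat.Agent.S24.Differentials.unif_irreducible v
  obtain ⟨k, g, hg, rfl⟩ := exists_inv_pow_mul v f hπ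
  refine ⟨negSpan (K := K) ((Fermat.Agent.S24.Differentials.unif v : v.toValuationSubring) : F) k,
    finiteDimensional_negSpan _ k, ?_⟩
  rintro y ⟨u, hu, rfl⟩
  have h1 : LinearMap.mulLeft K
      ((((Fermat.Agent.S24.Differentials.unif v : v.toValuationSubring) : F)⁻¹) ^ k * g) u =
      (((Fermat.Agent.S24.Differentials.unif v : v.toValuationSubring) : F)⁻¹) ^ k * (g * u) := by
    rw [LinearMap.mulLeft_apply, mul_assoc]
  rw [h1]
  exact inv_pow_mul_mem v hres hπ k (g * u) (v.toValuationSubring.mul_mem _ _ hg hu)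

theorem commute_mulLeft (f g : F) :
    Commute (LinearMap.mulLeft K f) (LinearMap.mulLeft K g) := by
  show LinearMap.mulLeft K f * LinearMap.mulLeft K g = LinearMap.mulLeft K g * LinearMap.mulLeft K f
  ext x
  simp [mul_left_comm]

theorem LocalRes.mulLeft_add' (a b : F) :
    LinearMap.mulLeft K (a + b) = LinearMap.mulLeft K a + LinearMap.mulLeft K b := by
  ext x
  simp [add_mul]

theorem LocalRes.mulLeft_smul' (c : K) (a : F) :
    LinearMap.mulLeft K (c • a) = c • LinearMap.mulLeft K a := by
  ext x
  simp

theorem LocalRes.mulLeft_mul' (a b : F) :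
    LinearMap.mulLeft K (a * b) = LinearMap.mulLeft K a * LinearMap.mulLeft K b := by
  ext x
  simp

/-- The local residue symbol `res_v (f dg)`. -/
noncomputable def lres (v : Place K F) (f g : F) : K :=
  tres (placeSub v) (LinearMap.mulLeft K f) (LinearMap.mulLeft K g)

/-- `res_v (f dg) = 0` if `f` and `g` are regular at `v`. -/
theorem lres_eq_zero_of_mem (v : Place K F) {f g : F} (hf : f ∈ v.toValuationSubring)
    (hg : g ∈ v.toValuationSubring) : lres v f g = 0 :=
  tres_eq_zero_of_stable (placeSub v) (commute_mulLeft f g)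
    (fun _ ha => v.toValuationSubring.mul_mem _ _ hf ha)
    (fun _ ha => v.toValuationSubring.mul_mem _ _ hg ha)

section Bilinear

variable (v : Place K F)
  (hres : ∀ f : F, f ∈ v.toValuationSubring →
    ∃ a : K, 0 < v.ord (f - algebraMap K F a) ∨ f = algebraMap K F a)

include hres

theorem lres_add_left (f f' g : F) : lres v (f + f') g = lres v f g + lres v f' g := by
  unfold lres
  rw [mulLeft_add']
  exact tres_add_left (placeSub v) (commute_mulLeft f g) (commute_mulLeft f' g)
    (almostStable_mulLeft v hres f) (almostStable_mulLeft v hres f')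
    (almostStable_mulLeft v hres g)

theorem lres_add_right (f g g' : F) : lres v f (g + g') = lres v f g + lres v f g' := by
  unfold lres
  rw [mulLeft_add']
  exact tres_add_right (placeSub v) (commute_mulLeft f g) (commute_mulLeft f g')
    (almostStable_mulLeft v hres f) (almostStable_mulLeft v hres g)
    (almostStable_mulLeft v hres g')

theorem lres_smul_left (c : K) (f g : F) : lres v (c • f) g = c * lres v f g := by
  unfold lres
  rw [mulLeft_smul']
  exact tres_smul_left (placeSub v) c (commute_mulLeft f g)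
    (almostStable_mulLeft v hres f) (almostStable_mulLeft v hres g)

theorem lres_smul_right (c : K) (f g : F) : lres v f (c • g) = c * lres v f g := by
  unfold lres
  rw [mulLeft_smul']
  exact tres_smul_right (placeSub v) c (commute_mulLeft f g)
    (almostStable_mulLeft v hres f) (almostStable_mulLeft v hres g)

/-- Leibniz rule: `res_v (f d(gh)) = res_v (fg dh) + res_v (fh dg)`. -/
theorem lres_mul_right (f g h : F) :
    lres v f (g * h) = lres v (f * g) h + lres v (f * h) g := by
  unfold lres
  rw [mulLeft_mul' g h, mulLeft_mul' f g, mulLeft_mul' f h]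
  exact tres_mul_right (placeSub v) (commute_mulLeft f g) (commute_mulLeft f h)
    (commute_mulLeft g h) (almostStable_mulLeft v hres f) (almostStable_mulLeft v hres g)
    (almostStable_mulLeft v hres h)

theorem lres_one_right (f : F) : lres v f 1 = 0 := by
  have h := lres_mul_right v hres f 1 1
  rw [mul_one, mul_one] at h
  have h2 : lres v f 1 + lres v f 1 = lres v f 1 + 0 := by rw [add_zero]; exact h.symm
  exact add_left_cancel h2

/-- `res_v (f da) = 0` for constants `a`. -/
theorem lres_algebraMap_right (f : F) (a : K) : lres v f (algebraMap K F a) = 0 := by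
  rw [Algebra.algebraMap_eq_smul_one, lres_smul_right v hres, lres_one_right v hres, mul_zero]

theorem lres_zero_left (g : F) : lres v 0 g = 0 := by
  have h := lres_add_left v hres 0 0 g
  rw [add_zero] at h
  have h2 : lres v 0 g + lres v 0 g = lres v 0 g + 0 := by rw [add_zero]; exact h.symm
  exact add_left_cancel h2

end Bilinear

/-! ### The residue of a differential -/

/-- `Hom_K(F, K)` with the `F`-module structure `(h • φ) f = φ (h * f)`. -/
def ResDual (K F : Type*) [Field K] [Field F] [Algebra K F] : Type _ := F →ₗ[K] K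

namespace ResDual

instance : AddCommGroup (ResDual K F) := inferInstanceAs (AddCommGroup (F →ₗ[K] K))

instance : Module K (ResDual K F) := inferInstanceAs (Module K (F →ₗ[K] K))

/-- An element of `ResDual K F` as a linear form. -/
def toLin (φ : ResDual K F) : F →ₗ[K] K := φ

/-- A linear form as an element of `ResDual K F`. -/
def ofLin (φ : F →ₗ[K] K) : ResDual K F := φ

@[simp] theorem toLin_ofLin (φ : F →ₗ[K] K) : toLin (ofLin φ) = φ := rfl

theorem ext' {φ ψ : ResDual K F} (h : ∀ f, toLin φ f = toLin ψ f) : φ = ψ :=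
  LinearMap.ext h

@[simp] theorem toLin_add (φ ψ : ResDual K F) (f : F) :
    toLin (φ + ψ) f = toLin φ f + toLin ψ f := rfl

@[simp] theorem toLin_zero (f : F) : toLin (0 : ResDual K F) f = 0 := rfl

@[simp] theorem toLin_smulK (a : K) (φ : ResDual K F) (f : F) :
    toLin (a • φ) f = a * toLin φ f := rfl

instance : SMul F (ResDual K F) where
  smul h φ := ofLin ((toLin φ).comp (LinearMap.mulLeft K h))

@[simp] theorem toLin_smul (h : F) (φ : ResDual K F) (f : F) :
    toLin (h • φ) f = toLin φ (h * f) := rfl

instance : Module F (ResDual K F) where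
  one_smul φ := ext' fun f => by rw [toLin_smul, one_mul]
  mul_smul a b φ := ext' fun f => by
    rw [toLin_smul, toLin_smul, toLin_smul, mul_comm a b, mul_assoc]
  smul_zero a := ext' fun f => by rw [toLin_smul, toLin_zero, toLin_zero]
  smul_add a φ ψ := ext' fun f => by
    rw [toLin_smul, toLin_add, toLin_add, toLin_smul, toLin_smul]
  add_smul a b φ := ext' fun f => by
    rw [toLin_smul, toLin_add, toLin_smul, toLin_smul, add_mul, map_add]
  zero_smul φ := ext' fun f => by rw [toLin_smul, zero_mul, map_zero, toLin_zero]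

instance : IsScalarTower K F (ResDual K F) where
  smul_assoc a h φ := ext' fun f => by
    rw [toLin_smul, toLin_smulK, toLin_smul, smul_mul_assoc, map_smul, smul_eq_mul]

end ResDual

section ResDiff

variable (v : Place K F)
  (hres : ∀ f : F, f ∈ v.toValuationSubring →
    ∃ a : K, 0 < v.ord (f - algebraMap K F a) ∨ f = algebraMap K F a)

/-- The derivation `g ↦ (f ↦ res_v (f dg))` with values in `Hom_K(F, K)`. -/
noncomputable def resDer : Derivation K F (ResDual K F) :=
  Derivation.mk'
    { toFun := fun g => ResDual.ofLin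
        { toFun := fun f => lres v f g
          map_add' := fun f f' => lres_add_left v hres f f' g
          map_smul' := fun c f => lres_smul_left v hres c f g }
      map_add' := fun g g' => ResDual.ext' fun f => lres_add_right v hres f g g'
      map_smul' := fun c g => ResDual.ext' fun f => lres_smul_right v hres c f g }
    (fun a b => ResDual.ext' fun f => by
      show lres v f (a * b) = lres v (a * f) b + lres v (b * f) a
      rw [lres_mul_right v hres f a b, mul_comm f a, mul_comm f b])

theorem toLin_resDer (g f : F) : ResDual.toLin (resDer v hres g) f = lres v f g := rfl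

/-- The residue at `v` of a differential. -/
noncomputable def resDiff : Ω[F⁄K] →ₗ[K] K :=
  ({ toFun := fun φ => ResDual.toLin φ 1
     map_add' := fun _ _ => rfl
     map_smul' := fun _ _ => rfl } : ResDual K F →ₗ[K] K) ∘ₗ
    ((resDer v hres).liftKaehlerDifferential.restrictScalars K)

theorem resDiff_smul_D (f g : F) : resDiff v hres (f • D K F g) = lres v f g := by
  show ResDual.toLin ((resDer v hres).liftKaehlerDifferential (f • D K F g)) 1 = lres v f g
  rw [map_smul, Derivation.liftKaehlerDifferential_comp_D, ResDual.toLin_smul, mul_one,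
    toLin_resDer]

theorem resDiff_D (g : F) : resDiff v hres (D K F g) = lres v 1 g := by
  rw [← resDiff_smul_D v hres 1 g, one_smul]

end ResDiff

/-! ### Residues at a uniformizer -/

section Unif

variable (v : Place K F)
  (hres : ∀ f : F, f ∈ v.toValuationSubring →
    ∃ a : K, 0 < v.ord (f - algebraMap K F a) ∨ f = algebraMap K F a)

include hres in
/-- `O_v / π O_v` is one-dimensional over `K`. -/
theorem LocalRes.finrank_quotient {π : v.toValuationSubring} (hπ : Irreducible π) :
    Module.finrank K (↥(placeSub v) ⧸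
      ((placeSub v).map (LinearMap.mulLeft K (π : F))).comap (placeSub v).subtype) = 1 := by
  have hπ0 : (π : F) ≠ 0 := by
    simpa [ne_eq, ZeroMemClass.coe_eq_zero] using hπ.ne_zero
  rw [finrank_eq_one_iff']
  refine ⟨Submodule.Quotient.mk ⟨1, v.toValuationSubring.one_mem⟩, ?_, ?_⟩
  · intro h0
    rw [Submodule.Quotient.mk_eq_zero, Submodule.mem_comap] at h0
    obtain ⟨u, hu, hu1⟩ := h0
    have h1 : (π : F) * u = 1 := hu1
    have h2 : π * ⟨u, hu⟩ = 1 := Subtype.ext h1
    exact hπ.not_isUnit (IsUnit.of_mul_eq_one _ h2)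
  · intro w
    obtain ⟨⟨u, hu⟩, rfl⟩ := Submodule.Quotient.mk_surjective _ w
    obtain ⟨a, u₁, hu₁, hu₂⟩ := exists_eq_add_mul v hres hπ u hu
    refine ⟨a, ?_⟩
    rw [← Submodule.Quotient.mk_smul, Submodule.Quotient.eq, Submodule.mem_comap]
    refine ⟨-u₁, v.toValuationSubring.neg_mem _ hu₁, ?_⟩
    show (π : F) * (-u₁) = a • (1 : F) - u
    rw [hu₂, Algebra.smul_def, mul_one]
    ring

include hres in
/-- `res_v (π⁻¹ dπ) = 1` for every uniformizer `π`. -/
theorem lres_inv_self {π : v.toValuationSubring} (hπ : Irreducible π) :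
    lres v ((π : F)⁻¹) (π : F) = 1 := by
  have hπ0 : (π : F) ≠ 0 := by
    simpa [ne_eq, ZeroMemClass.coe_eq_zero] using hπ.ne_zero
  have hfin := LocalRes.finrank_quotient v hres hπ
  have hfd : FiniteDimensional K (↥(placeSub v) ⧸
      ((placeSub v).map (LinearMap.mulLeft K (π : F))).comap (placeSub v).subtype) :=
    Module.finite_of_finrank_pos (by rw [hfin]; exact one_pos)
  have h1 : LinearMap.mulLeft K (π : F) * LinearMap.mulLeft K ((π : F)⁻¹) = 1 := by
    rw [← LocalRes.mulLeft_mul', mul_inv_cancel₀ hπ0]
    ext x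
    simp
  have h2 : LinearMap.mulLeft K ((π : F)⁻¹) * LinearMap.mulLeft K (π : F) = 1 := by
    rw [← LocalRes.mulLeft_mul', inv_mul_cancel₀ hπ0]
    ext x
    simp
  have h3 := tres_inv_self (placeSub v) h1 h2
    (fun a ha => v.toValuationSubring.mul_mem _ _ π.2 ha)
  unfold lres
  rw [h3, hfin, Nat.cast_one]

end Unif

/-! ### Residues and orders of differentials -/

section Main

variable (v : Place K F)
  (hres : ∀ f : F, f ∈ v.toValuationSubring →
    ∃ a : K, 0 < v.ord (f - algebraMap K F a) ∨ f = algebraMap K F a)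
  (x₀ : F) (hx₀ : Submodule.span F {(D K F x₀ : Ω[F⁄K])} = ⊤)

include hres hx₀

/-- Chain rule: `res_v (f dx) = res_v (f (dx/dπ) dπ)`, `π` the uniformizer of the prelude. -/
theorem lres_eq_lres_unif (f x : F) :
    lres v f x = lres v (f * v.differentialCoeff (D K F x))
      ((Fermat.Agent.S24.Differentials.unif v : v.toValuationSubring) : F) := by
  have := Fermat.Agent.S24.dCoordGenerates v hres x₀ hx₀
  have h1 : D K F x = v.differentialCoeff (D K F x) •
      D K F ((Fermat.Agent.S24.Differentials.unif v : v.toValuationSubring) : F) :=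
    (v.differentialCoeff_smul_dCoord (D K F x)).symm
  have h2 : f • D K F x = (f * v.differentialCoeff (D K F x)) •
      D K F ((Fermat.Agent.S24.Differentials.unif v : v.toValuationSubring) : F) := by
    rw [mul_smul, ← h1]
  rw [← resDiff_smul_D v hres f x, h2, resDiff_smul_D]

/-- `res_v (f dx) = 0` as soon as `f dx` is regular at `v`. -/
theorem lres_eq_zero_of_ord (f x : F) (hf : f ≠ 0) (hx : D K F x ≠ 0)
    (h : 0 ≤ v.ord f + v.ordDifferential (D K F x)) : lres v f x = 0 := by
  have hc := Fermat.Agent.S24.differentialCoeff_D_ne_zero v hres x₀ hx₀ x hx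
  rw [lres_eq_lres_unif v hres x₀ hx₀ f x]
  apply lres_eq_zero_of_mem v _ (Fermat.Agent.S24.Differentials.unif v).2
  apply LocalRes.mem_of_ord_nonneg v (mul_ne_zero hf hc)
  rw [v.ord_mul hf hc]
  exact h

/-- There is a function `f` with `ord_v f = - ord_v (dx) - 1` and `res_v (f dx) = 1`. -/
theorem exists_lres_eq_one (x : F) (hx : D K F x ≠ 0) :
    ∃ f : F, f ≠ 0 ∧ v.ord f = -v.ordDifferential (D K F x) - 1 ∧ lres v f x = 1 := by
  have hc := Fermat.Agent.S24.differentialCoeff_D_ne_zero v hres x₀ hx₀ x hx
  have hπ := Fermat.Agent.S24.Differentials.unif_irreducible v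
  have hπ0 : ((Fermat.Agent.S24.Differentials.unif v : v.toValuationSubring) : F) ≠ 0 := by
    simpa [ne_eq, ZeroMemClass.coe_eq_zero] using hπ.ne_zero
  refine ⟨(((Fermat.Agent.S24.Differentials.unif v : v.toValuationSubring) : F) *
    v.differentialCoeff (D K F x))⁻¹, inv_ne_zero (mul_ne_zero hπ0 hc), ?_, ?_⟩
  · rw [v.ord_inv, v.ord_mul hπ0 hc, v.ord_coe_irreducible hπ]
    show -(1 + v.ord (v.differentialCoeff (D K F x))) =
      -v.ord (v.differentialCoeff (D K F x)) - 1
    ring
  · rw [lres_eq_lres_unif v hres x₀ hx₀]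
    have h1 : (((Fermat.Agent.S24.Differentials.unif v : v.toValuationSubring) : F) *
        v.differentialCoeff (D K F x))⁻¹ * v.differentialCoeff (D K F x) =
        ((Fermat.Agent.S24.Differentials.unif v : v.toValuationSubring) : F)⁻¹ := by
      field_simp
    rw [h1]
    exact lres_inv_self v hres hπ

/-- The residue of a differential which is regular at `v` vanishes. -/
theorem resDiff_eq_zero_of_ordDifferential_nonneg (ω : Ω[F⁄K]) (hω : ω ≠ 0)
    (h : 0 ≤ v.ordDifferential ω) : resDiff v hres ω = 0 := by
  have := Fermat.Agent.S24.dCoordGenerates v hres x₀ hx₀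
  have h1 : ω = v.differentialCoeff ω •
      D K F ((Fermat.Agent.S24.Differentials.unif v : v.toValuationSubring) : F) :=
    (v.differentialCoeff_smul_dCoord ω).symm
  have hc : v.differentialCoeff ω ≠ 0 := by
    intro h0
    rw [h0, zero_smul] at h1
    exact hω h1
  rw [h1, resDiff_smul_D]
  exact lres_eq_zero_of_mem v (LocalRes.mem_of_ord_nonneg v hc h)
    (Fermat.Agent.S24.Differentials.unif v).2

end Main

section Main'

variable (v : Place K F)
  (hres : ∀ f : F, f ∈ v.toValuationSubring →
    ∃ a : K, 0 < v.ord (f - algebraMap K F a) ∨ f = algebraMap K F a)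
  (x : F) (hx : Submodule.span F {(D K F x : Ω[F⁄K])} = ⊤)

include hres hx

/-- `res_v (f dx) = 0` as soon as `f dx` is regular at `v` (`dx` a generator of `Ω[F⁄K]`). -/
theorem lres_eq_zero_of_ord' (f : F) (hf : f ≠ 0)
    (h : 0 ≤ v.ord f + v.ordDifferential (D K F x)) : lres v f x = 0 :=
  lres_eq_zero_of_ord v hres x hx f x hf
    (Fermat.Agent.S24.D_ne_zero_of_span_eq_top v hres x hx) h

/-- There is `f` with `ord_v f = - ord_v (dx) - 1` and `res_v (f dx) = 1`
(`dx` a generator of `Ω[F⁄K]`). -/
theorem exists_lres_eq_one' :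
    ∃ f : F, f ≠ 0 ∧ v.ord f = -v.ordDifferential (D K F x) - 1 ∧ lres v f x = 1 :=
  exists_lres_eq_one v hres x hx x (Fermat.Agent.S24.D_ne_zero_of_span_eq_top v hres x hx)

end Main'

end Fermat.Agent.RR
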