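import Fermat.Agent.RR.RRStar
import Fermat.Agent.RR.PlaceFactsOf
import Fermat.Agent.S24.FinalAsm
import Fermat.Agent.S24.Degree
import Fermat.Agent.S24.FibreFinite
import Fermat.Agent.S24.FibreCuspMain
import Fermat.Agent.RR.CanonDiv

/-!
# RR: `dim L(div ω) = genusFormula N` for the modular function field `FK K N`, from RR* and
the S24 degree/fibre counts (same inputs as `Fermat.Agent.S24.genus_FK_of_inputs`).
-/

set_option autoImplicit false

open IntermediateField AlgebraicCurve ModularCurve KaehlerDifferential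
open scoped MatrixGroups

namespace Fermat.Agent.RR

open Fermat.Agent.S24

theorem finrank_riemannRochSpace_FK_of_inputs (K : Type*) [Field K] [Algebra ℚ K] [IsAlgClosed K]
    (N : ℕ) [NeZero N]
    (hx : Transcendental K (xgen K N))
    (hdeg : Module.finrank K⟮xgen K N⟯ (FK K N) = Nat.card (X0 N))
    (hunr : ∀ a : K, a ≠ 0 → a ≠ 1728 → ∀ v : Place K (FK K N),
      0 < v.ord (xgen K N - algebraMap K (FK K N) a) →
        v.ord (xgen K N - algebraMap K (FK K N) a) = 1)
    (h0 : Nat.card {v : Place K (FK K N) // 0 < v.ord (xgen K N)}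
      = orbCount (cosetPerm N (ModularGroup.S * ModularGroup.T)))
    (h1 : Nat.card {v : Place K (FK K N) // 0 < v.ord (xgen K N - algebraMap K (FK K N) 1728)}
      = orbCount (cosetPerm N ModularGroup.S))
    (hinf : Nat.card {v : Place K (FK K N) // 0 < v.ord (xgen K N)⁻¹}
      = orbCount (cosetPerm N ModularGroup.T))
    (ω : Ω[FK K N⁄K]) (hω : ω ≠ 0) (W : Divisor K (FK K N))
    (hW : ∀ v : Place K (FK K N), W v = v.ordDifferential ω) :
    (Module.finrank K (riemannRochSpace W) : ℚ) = genusFormula N := by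
  have hchar : CharZero K := algebraRat.charZero K
  obtain ⟨g, hg, hgf⟩ := exists_genus N
  have hcard := card_X0 N
  have hn0 : 0 < Nat.card (X0 N) := by
    rw [hcard]
    exact dedekindPsi_pos N
  have hb : (1728 : K) ≠ 0 := by
    have : ((1728 : ℕ) : K) ≠ 0 := Nat.cast_ne_zero.mpr (by norm_num)
    exact_mod_cast this
  have hdegW := degree_eq_of_ramification (xgen K N) hx (1728 : K) hb (Nat.card (X0 N))
    (orbCount (cosetPerm N (ModularGroup.S * ModularGroup.T)))
    (orbCount (cosetPerm N ModularGroup.S)) (orbCount (cosetPerm N ModularGroup.T)) hdeg hn0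
    hunr h0 h1 hinf ω hω W hW
  have hP : PlaceFacts K (FK K N) := placeFacts_of (xgen K N) hx (hdeg ▸ hn0)
  have hrr := degree_eq_two_mul_finrank_sub_two hP ω hω W hW
  rw [hcard] at hdegW
  have hl : (Module.finrank K (riemannRochSpace W) : ℤ) = g := by
    rw [hrr] at hdegW
    linarith
  rw [← hgf]
  exact_mod_cast hl

end Fermat.Agent.RR

namespace Fermat.Agent.RR

open Fermat.Agent.S24

/-- `dim L(div ω) = genusFormula N` for the modular function field over any algebraically closed
field `K` of characteristic zero that embeds into `ℂ`. -/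
theorem finrank_riemannRochSpace_FK (K : Type*) [Field K] [Algebra ℚ K] [IsAlgClosed K]
    (φ : K →+* ℂ) (N : ℕ) [NeZero N]
    (ω : Ω[FK K N⁄K]) (hω : ω ≠ 0) (W : Divisor K (FK K N))
    (hW : ∀ v : Place K (FK K N), W v = v.ordDifferential ω) :
    (Module.finrank K (riemannRochSpace W) : ℚ) = genusFormula N := by
  have hx := transcendental_xgen K N
  have hdeg := finrank_FK K φ N
  exact finrank_riemannRochSpace_FK_of_inputs K N hx hdeg
    (fun a ha0 ha1 v hv => unramified_of_ne φ N hdeg a ha0 ha1 v hv)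
    (card_places_zero φ N hdeg) (card_places_1728 φ N hdeg)
    (card_places_cusp K φ N hx hdeg) ω hω W hW

/-- The differential `D x` (`x = j`) of the modular function field is nonzero and has a
divisor. -/
theorem exists_divisor_D_xgen (K : Type*) [Field K] [Algebra ℚ K] [IsAlgClosed K]
    (φ : K →+* ℂ) (N : ℕ) [NeZero N] :
    (D K (FK K N) (xgen K N) : Ω[FK K N⁄K]) ≠ 0 ∧
      ∃ W : Divisor K (FK K N), ∀ v : Place K (FK K N),
        W v = v.ordDifferential (D K (FK K N) (xgen K N)) := by
  have hchar : CharZero K := algebraRat.charZero K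
  have hx := transcendental_xgen K N
  have hdeg := finrank_FK K φ N
  have hn0 : 0 < Module.finrank K⟮xgen K N⟯ (FK K N) := by
    rw [hdeg, card_X0 N]
    exact dedekindPsi_pos N
  have hP : PlaceFacts K (FK K N) := placeFacts_of (xgen K N) hx hn0
  have hfd : FiniteDimensional K⟮xgen K N⟯ (FK K N) := hP.hfd _ hx
  have halg : Algebra.IsAlgebraic K⟮xgen K N⟯ (FK K N) := Algebra.IsAlgebraic.of_finite _ _
  have hspan : Submodule.span (FK K N) {(D K (FK K N) (xgen K N) : Ω[FK K N⁄K])} = ⊤ :=
    span_D_eq_top (xgen K N) hx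
  refine ⟨?_, exists_divisor_D_of_unramified (xgen K N) hx hn0 (1728 : K)
    (fun a ha0 ha1 v hv => unramified_of_ne φ N hdeg a ha0 ha1 v hv)⟩
  exact Assembly.D_ne_zero_aux (xgen K N) hx _ rfl hn0
    (fun y _ hy => hP.hsum y hy) hspan (fun v => nontrivial_kaehler v (hP.hres v))

end Fermat.Agent.RR
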