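/-
RR package R1 (part 1): single-point steps `D → D + v`.
Abstract linear algebra for codimension-one extensions and the local analysis of
`repartitionsOf` / `riemannRochSpace` at one place.
-/
import Fermat.Prelude.Def_AlgebraicCurve_Repartitions
import Fermat.Agent.S24.Assembly

set_option autoImplicit false

noncomputable section

namespace Fermat.Agent.RR

open AlgebraicCurve

namespace RiemannStep

section LA

variable {K V : Type*} [Field K] [AddCommGroup V] [Module K V]

theorem finite_iff_of_sup_span (M M' : Submodule K V) (b : V)
    (h : M' = M ⊔ Submodule.span K {b}) : Module.Finite K M ↔ Module.Finite K M' := by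
  constructor
  · intro hM
    rw [h]
    infer_instance
  · intro hM'
    exact Submodule.finiteDimensional_of_le (h ▸ le_sup_left : M ≤ M')

theorem finrank_of_sup_span (M M' : Submodule K V) (b : V)
    (h : M' = M ⊔ Submodule.span K {b}) (hb : b ∉ M) [Module.Finite K M] :
    Module.finrank K M' = Module.finrank K M + 1 := by
  have hb0 : b ≠ 0 := fun h0 => hb (h0 ▸ M.zero_mem)
  have hinf : M ⊓ Submodule.span K {b} = ⊥ := by
    rw [eq_bot_iff]
    rintro y ⟨hyM, hyb⟩
    obtain ⟨c, rfl⟩ := Submodule.mem_span_singleton.mp hyb
    by_cases hc : c = 0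
    · simp [hc]
    · exfalso
      apply hb
      have := M.smul_mem c⁻¹ hyM
      rwa [smul_smul, inv_mul_cancel₀ hc, one_smul] at this
  have key := Submodule.finrank_sup_add_finrank_inf_eq M (Submodule.span K {b})
  rw [hinf, finrank_bot, add_zero, finrank_span_singleton hb0] at key
  rw [h, key]

theorem finite_quotient_iff_of_sup_span (M M' : Submodule K V) (b : V)
    (h : M' = M ⊔ Submodule.span K {b}) :
    Module.Finite K (V ⧸ M) ↔ Module.Finite K (V ⧸ M') := by
  have hle : M ≤ M' := h ▸ le_sup_left
  have e := Submodule.quotientQuotientEquivQuotient M M' hle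
  have hmap : M'.map M.mkQ = Submodule.span K {M.mkQ b} := by
    rw [h, Submodule.map_sup, Submodule.map_span, Set.image_singleton]
    have : M.map M.mkQ = ⊥ := by
      exact Submodule.mkQ_map_self M
    rw [this, bot_sup_eq]
  constructor
  · intro hf
    exact Module.Finite.equiv e
  · intro hf
    have : Module.Finite K ((V ⧸ M) ⧸ M'.map M.mkQ) := Module.Finite.equiv e.symm
    have : Module.Finite K (M'.map M.mkQ) := by
      rw [hmap]
      infer_instance
    exact Module.Finite.of_submodule_quotient (M'.map M.mkQ)

theorem finrank_quotient_of_sup_span (M M' : Submodule K V) (b : V)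
    (h : M' = M ⊔ Submodule.span K {b}) (hb : b ∉ M) [Module.Finite K (V ⧸ M')] :
    Module.finrank K (V ⧸ M) = Module.finrank K (V ⧸ M') + 1 := by
  have hle : M ≤ M' := h ▸ le_sup_left
  have e := Submodule.quotientQuotientEquivQuotient M M' hle
  have hmap : M'.map M.mkQ = Submodule.span K {M.mkQ b} := by
    rw [h, Submodule.map_sup, Submodule.map_span, Set.image_singleton]
    have : M.map M.mkQ = ⊥ := by
      exact Submodule.mkQ_map_self M
    rw [this, bot_sup_eq]
  have hfin : Module.Finite K (V ⧸ M) := (finite_quotient_iff_of_sup_span M M' b h).mpr inferInstance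
  have hb0 : M.mkQ b ≠ 0 := by
    rw [Submodule.mkQ_apply, Ne, Submodule.Quotient.mk_eq_zero]
    exact hb
  have key := Submodule.finrank_quotient_add_finrank (M'.map M.mkQ)
  rw [e.finrank_eq, hmap, finrank_span_singleton hb0] at key
  exact key.symm

end LA

section Local

variable {K F : Type*} [Field K] [Field F] [Algebra K F]

theorem mem_iff_ord (v : Place K F) (f : F) :
    f ∈ v.toValuationSubring ↔ f = 0 ∨ 0 ≤ v.ord f := by
  rw [S24.Assembly.mem_iff_adicValuation_le_one, v.adicValuation_le_one_iff]

/-- The diagonal embedding of `F` into the repartitions. -/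
def diag : F →ₗ[K] ↥(repartitions K F) :=
  (Algebra.linearMap F ↥(repartitions K F)).restrictScalars K

theorem diag_apply (f : F) (v : Place K F) :
    ((diag (K := K) f : ↥(repartitions K F)) : Place K F → F) v = f := rfl

theorem range_diag :
    LinearMap.range (diag (K := K) (F := F)) = principalRepartitions K F := by
  ext α
  rw [mem_principalRepartitions_iff]
  constructor
  · rintro ⟨f, rfl⟩
    exact ⟨f, rfl⟩
  · rintro ⟨f, hf⟩
    exact ⟨f, Subtype.ext hf.symm⟩

theorem diag_mem_repartitionsOf_iff (D : Divisor K F) (f : F) :
    diag (K := K) f ∈ repartitionsOf D ↔ f ∈ riemannRochSpace D := by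
  rw [mem_repartitionsOf_iff, mem_riemannRochSpace_iff]
  rfl

theorem coe_sub_smul_apply (α β : ↥(repartitions K F)) (c : K) (w : Place K F) :
    ((α - c • β : ↥(repartitions K F)) : Place K F → F) w =
      (α : Place K F → F) w - algebraMap K F c * (β : Place K F → F) w := by
  rw [Algebra.smul_def]
  rfl

theorem step_apply_self (D : Divisor K F) (v : Place K F) :
    (D + Finsupp.single v (1 : ℤ) : Divisor K F) v = D v + 1 := by
  rw [Finsupp.add_apply, Finsupp.single_eq_same]

theorem step_apply_ne (D : Divisor K F) {v w : Place K F} (h : w ≠ v) :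
    (D + Finsupp.single v (1 : ℤ) : Divisor K F) w = D w := by
  rw [Finsupp.add_apply, Finsupp.single_eq_of_ne h, add_zero]

theorem le_step (D : Divisor K F) (v : Place K F) : D ≤ D + Finsupp.single v 1 := by
  intro w
  rw [Finsupp.add_apply]
  have : (0 : ℤ) ≤ (Finsupp.single v (1 : ℤ)) w := by
    by_cases h : w = v
    · subst h; simp
    · rw [Finsupp.single_eq_of_ne h]
  linarith

variable (hres : ∀ (v : Place K F) (f : F), f ∈ v.toValuationSubring →
    ∃ a : K, 0 < v.ord (f - algebraMap K F a) ∨ f = algebraMap K F a)

include hres in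
/-- `R(D + v) / R(D)` has dimension at most one. -/
theorem exists_smul_sub_mem (D : Divisor K F) (v : Place K F) (α β : ↥(repartitions K F))
    (hα : α ∈ repartitionsOf (D + Finsupp.single v 1))
    (hβ : β ∈ repartitionsOf (D + Finsupp.single v 1)) (hβ' : β ∉ repartitionsOf D) :
    ∃ c : K, α - c • β ∈ repartitionsOf D := by
  rw [mem_repartitionsOf_iff] at hβ'
  push Not at hβ'
  obtain ⟨w, hw0, hwlt⟩ := hβ'
  have hβm := hβ
  rw [mem_repartitionsOf_iff] at hβ
  have hwv : w = v := by
    by_contra hne
    have := (hβ w).resolve_left hw0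
    rw [step_apply_ne D hne] at this
    omega
  subst hwv
  have hordb : w.ord ((β : Place K F → F) w) = -D w - 1 := by
    have := (hβ w).resolve_left hw0
    rw [step_apply_self] at this
    omega
  set a := (α : Place K F → F) w with ha
  set b := (β : Place K F → F) w with hb
  have hαm := hα
  rw [mem_repartitionsOf_iff] at hα
  have hu : a * b⁻¹ ∈ w.toValuationSubring := by
    rw [mem_iff_ord]
    by_cases ha0 : a = 0
    · left; rw [ha0, zero_mul]
    · right
      rw [w.ord_mul ha0 (inv_ne_zero hw0), w.ord_inv, hordb]
      have := (hα w).resolve_left ha0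
      rw [step_apply_self, ← ha] at this
      omega
  obtain ⟨c, hc⟩ := hres w (a * b⁻¹) hu
  refine ⟨c, ?_⟩
  have hmem : α - c • β ∈ repartitionsOf (D + Finsupp.single w 1) :=
    Submodule.sub_mem _ hαm (Submodule.smul_mem _ c hβm)
  rw [mem_repartitionsOf_iff] at hmem ⊢
  intro w'
  by_cases hne : w' = w
  · subst hne
    rw [coe_sub_smul_apply]
    have hfac : a - algebraMap K F c * b = b * (a * b⁻¹ - algebraMap K F c) := by
      field_simp
    rw [← ha, ← hb, hfac]
    rcases hc with hc | hc
    · right
      have hne0 : a * b⁻¹ - algebraMap K F c ≠ 0 := by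
        intro h0
        rw [h0] at hc
        simp at hc
      rw [w'.ord_mul hw0 hne0, hordb]
      omega
    · left
      rw [hc, sub_self, mul_zero]
  · have := hmem w'
    rwa [step_apply_ne D hne] at this

/-- `R(D) ≠ R(D + v)`. -/
theorem exists_mem_step_not_mem (D : Divisor K F) (v : Place K F) :
    ∃ β ∈ repartitionsOf (D + Finsupp.single v 1), β ∉ repartitionsOf D := by
  classical
  obtain ⟨π, hπ⟩ := IsDiscreteValuationRing.exists_irreducible v.toValuationSubring
  have hπ0 : (π : F) ≠ 0 := by
    simpa [ne_eq, ZeroMemClass.coe_eq_zero] using hπ.ne_zero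
  set t : F := (π : F) ^ (-(D v + 1)) with ht
  have ht0 : t ≠ 0 := zpow_ne_zero _ hπ0
  have hordt : v.ord t = -(D v + 1) := by
    rw [ht, v.ord_zpow, v.ord_coe_irreducible hπ, mul_one]
  have hrep : (Pi.single v t : Place K F → F) ∈ repartitions K F := by
    apply mem_repartitions_of_finite_ord
    refine (Set.finite_singleton v).subset ?_
    intro w hw
    by_contra hne
    rw [Set.mem_singleton_iff] at hne
    rw [Set.mem_ofPred_eq, Pi.single_eq_of_ne hne] at hw
    simp at hw
  refine ⟨⟨Pi.single v t, hrep⟩, ?_, ?_⟩
  · rw [mem_repartitionsOf_iff]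
    intro w
    by_cases hne : w = v
    · subst hne
      right
      show -(D + Finsupp.single w (1 : ℤ) : Divisor K F) w ≤ w.ord ((Pi.single w t : Place K F → F) w)
      rw [Pi.single_eq_same, hordt, step_apply_self]
    · left
      show (Pi.single v t : Place K F → F) w = 0
      exact Pi.single_eq_of_ne hne _
  · rw [mem_repartitionsOf_iff]
    push Not
    refine ⟨v, ?_, ?_⟩
    · show (Pi.single v t : Place K F → F) v ≠ 0
      rw [Pi.single_eq_same]
      exact ht0
    · show v.ord ((Pi.single v t : Place K F → F) v) < -D v
      rw [Pi.single_eq_same, hordt]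
      omega

end Local

section Step

variable {K F : Type*} [Field K] [Field F] [Algebra K F]

variable (hres : ∀ (v : Place K F) (f : F), f ∈ v.toValuationSubring →
    ∃ a : K, 0 < v.ord (f - algebraMap K F a) ∨ f = algebraMap K F a)

include hres in
/-- The dichotomy for a single step `D → D + v`: either `L` stays and `R(D) + F` grows by one
dimension, or `L` grows by one dimension and `R(D) + F` stays. -/
theorem step_cases (D : Divisor K F) (v : Place K F) :
    (riemannRochSpace (D + Finsupp.single v 1) = riemannRochSpace D ∧
      ∃ β : ↥(repartitions K F), β ∉ repartitionsOf D ⊔ principalRepartitions K F ∧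
        repartitionsOf (D + Finsupp.single v 1) ⊔ principalRepartitions K F =
          (repartitionsOf D ⊔ principalRepartitions K F) ⊔ Submodule.span K {β}) ∨
    ((∃ g : F, g ∉ riemannRochSpace D ∧
        riemannRochSpace (D + Finsupp.single v 1) =
          riemannRochSpace D ⊔ Submodule.span K {g}) ∧
      repartitionsOf (D + Finsupp.single v 1) ⊔ principalRepartitions K F =
        repartitionsOf D ⊔ principalRepartitions K F) := by
  have hmonoR : repartitionsOf D ≤ repartitionsOf (D + Finsupp.single v 1) :=
    repartitionsOf_mono (le_step D v)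
  have hmonoL : riemannRochSpace D ≤ riemannRochSpace (D + Finsupp.single v 1) := by
    intro f hf
    rw [← diag_mem_repartitionsOf_iff] at hf ⊢
    exact hmonoR hf
  by_cases h : riemannRochSpace (D + Finsupp.single v 1) ≤ riemannRochSpace D
  · left
    refine ⟨le_antisymm h hmonoL, ?_⟩
    obtain ⟨β, hβ, hβ'⟩ := exists_mem_step_not_mem D v
    refine ⟨β, ?_, ?_⟩
    · intro hmem
      obtain ⟨α, hα, p, hp, hsum⟩ := Submodule.mem_sup.mp hmem
      rw [← range_diag] at hp
      obtain ⟨f, rfl⟩ := hp
      have hf : diag (K := K) f ∈ repartitionsOf (D + Finsupp.single v 1) := by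
        have : diag (K := K) f = β - α := by rw [← hsum]; abel
        rw [this]
        exact Submodule.sub_mem _ hβ (hmonoR hα)
      rw [diag_mem_repartitionsOf_iff] at hf
      have hf' := h hf
      rw [← diag_mem_repartitionsOf_iff] at hf'
      exact hβ' (hsum ▸ Submodule.add_mem _ hα hf')
    · apply le_antisymm
      · apply sup_le
        · intro α hα
          obtain ⟨c, hc⟩ := exists_smul_sub_mem hres D v α β hα hβ hβ'
          have : α = (α - c • β) + c • β := by abel
          rw [this]
          exact Submodule.add_mem _ (Submodule.mem_sup_left (Submodule.mem_sup_left hc))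
            (Submodule.mem_sup_right (Submodule.smul_mem _ c (Submodule.mem_span_singleton_self β)))
        · exact le_sup_of_le_left le_sup_right
      · apply sup_le
        · exact sup_le_sup_right hmonoR _
        · rw [Submodule.span_singleton_le_iff_mem]
          exact Submodule.mem_sup_left hβ
  · right
    rw [SetLike.not_le_iff_exists] at h
    obtain ⟨g, hg, hg'⟩ := h
    have hdg : diag (K := K) g ∈ repartitionsOf (D + Finsupp.single v 1) :=
      (diag_mem_repartitionsOf_iff _ g).mpr hg
    have hdg' : diag (K := K) g ∉ repartitionsOf D := fun hmem =>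
      hg' ((diag_mem_repartitionsOf_iff _ g).mp hmem)
    refine ⟨⟨g, hg', ?_⟩, ?_⟩
    · apply le_antisymm
      · intro f hf
        have hdf : diag (K := K) f ∈ repartitionsOf (D + Finsupp.single v 1) :=
          (diag_mem_repartitionsOf_iff _ f).mpr hf
        obtain ⟨c, hc⟩ := exists_smul_sub_mem hres D v _ _ hdf hdg hdg'
        rw [← map_smul, ← map_sub, diag_mem_repartitionsOf_iff] at hc
        have : f = (f - c • g) + c • g := by abel
        rw [this]
        exact Submodule.add_mem _ (Submodule.mem_sup_left hc)
          (Submodule.mem_sup_right (Submodule.smul_mem _ c (Submodule.mem_span_singleton_self g)))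
      · apply sup_le hmonoL
        rw [Submodule.span_singleton_le_iff_mem]
        exact hg
    · apply le_antisymm
      · apply sup_le
        · intro α hα
          obtain ⟨c, hc⟩ := exists_smul_sub_mem hres D v α _ hα hdg hdg'
          have : α = (α - c • diag (K := K) g) + c • diag (K := K) g := by abel
          rw [this]
          refine Submodule.add_mem _ (Submodule.mem_sup_left hc) (Submodule.mem_sup_right ?_)
          rw [← range_diag, ← map_smul]
          exact LinearMap.mem_range_self _ _
        · exact le_sup_right
      · exact sup_le_sup_right hmonoR _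

include hres in
theorem step_finite_rr_iff (D : Divisor K F) (v : Place K F) :
    Module.Finite K (riemannRochSpace (D + Finsupp.single v 1)) ↔
      Module.Finite K (riemannRochSpace D) := by
  rcases step_cases hres D v with ⟨h, -⟩ | ⟨⟨g, -, h⟩, -⟩
  · rw [h]
  · exact (finite_iff_of_sup_span _ _ g h).symm

include hres in
theorem step_finite_H1_iff (D : Divisor K F) (v : Place K F) :
    Module.Finite K (H1 (D + Finsupp.single v 1)) ↔ Module.Finite K (H1 D) := by
  rcases step_cases hres D v with ⟨-, β, -, h⟩ | ⟨-, h⟩
  · exact (finite_quotient_iff_of_sup_span _ _ β h).symm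
  · have e := Submodule.quotEquivOfEq _ _ h
    exact ⟨fun hf => Module.Finite.equiv e, fun hf => Module.Finite.equiv e.symm⟩

include hres in
/-- The Euler characteristic `l - h¹` grows by one in a single step. -/
theorem step_euler (D : Divisor K F) (v : Place K F)
    [Module.Finite K (riemannRochSpace D)] [Module.Finite K (H1 D)] :
    (Module.finrank K (riemannRochSpace (D + Finsupp.single v 1)) : ℤ) -
        Module.finrank K (H1 (D + Finsupp.single v 1)) =
      (Module.finrank K (riemannRochSpace D) : ℤ) - Module.finrank K (H1 D) + 1 := by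
  have hfin' : Module.Finite K (H1 (D + Finsupp.single v 1)) :=
    (step_finite_H1_iff hres D v).mpr inferInstance
  rcases step_cases hres D v with ⟨hL, β, hβ, h⟩ | ⟨⟨g, hg, hL⟩, h⟩
  · have h1 : Module.finrank K (H1 D) = Module.finrank K (H1 (D + Finsupp.single v 1)) + 1 :=
      finrank_quotient_of_sup_span _ _ β h hβ
    rw [hL, h1]
    push_cast
    ring
  · have h1 : Module.finrank K (riemannRochSpace (D + Finsupp.single v 1)) =
        Module.finrank K (riemannRochSpace D) + 1 := finrank_of_sup_span _ _ g hL hg
    have h2 : Module.finrank K (H1 (D + Finsupp.single v 1)) = Module.finrank K (H1 D) :=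
      (Submodule.quotEquivOfEq _ _ h).finrank_eq
    rw [h1, h2]
    push_cast
    ring

include hres in
theorem step_finrank_rr (D : Divisor K F) (v : Place K F)
    [Module.Finite K (riemannRochSpace D)] :
    Module.finrank K (riemannRochSpace (D + Finsupp.single v 1)) =
        Module.finrank K (riemannRochSpace D) ∨
      (Module.finrank K (riemannRochSpace (D + Finsupp.single v 1)) =
          Module.finrank K (riemannRochSpace D) + 1 ∧
        repartitionsOf (D + Finsupp.single v 1) ≤
          repartitionsOf D ⊔ principalRepartitions K F) := by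
  rcases step_cases hres D v with ⟨hL, -⟩ | ⟨⟨g, hg, hL⟩, h⟩
  · left; rw [hL]
  · right
    exact ⟨finrank_of_sup_span _ _ g hL hg, h ▸ le_sup_left⟩

end Step

end RiemannStep

end Fermat.Agent.RR

end
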