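/-
RR package R1 (part 2): Riemann's theorem.  `H1 D` is finite-dimensional for every divisor `D`
and `l(D) - h¹(D) = deg D + 1 - h¹(0)`.
-/
import Fermat.Agent.RR.RiemannStep

set_option autoImplicit false

noncomputable section

namespace Fermat.Agent.RR

open AlgebraicCurve IntermediateField

namespace Riemann

open RiemannStep

variable {K F : Type*} [Field K] [Field F] [Algebra K F]

/-! ### Induction principles on divisors -/

/-- Two-sided induction along single steps. -/
theorem divisor_induction (P : Divisor K F → Prop) (D₀ : Divisor K F) (h0 : P D₀)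
    (hstep : ∀ (D : Divisor K F) (v : Place K F), P (D + Finsupp.single v 1) ↔ P D) :
    ∀ D, P D := by
  classical
  have key : ∀ E : Divisor K F, P (D₀ + E) := by
    intro E
    induction E using Finsupp.induction with
    | zero => rwa [add_zero]
    | single_add a b f _ _ ih =>
      have hrw : D₀ + (Finsupp.single a b + f) = (D₀ + f) + Finsupp.single a b := by abel
      rw [hrw]
      generalize D₀ + f = D1 at ih
      have hall : ∀ k : ℤ, P (D1 + Finsupp.single a k) := by
        intro k
        induction k using Int.induction_on with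
        | zero => rwa [Finsupp.single_zero, add_zero]
        | succ k ihk =>
          have : D1 + Finsupp.single a ((k : ℤ) + 1) =
              (D1 + Finsupp.single a (k : ℤ)) + Finsupp.single a 1 := by
            rw [Finsupp.single_add]; abel
          rw [this]
          exact (hstep _ a).mpr ihk
        | pred k ihk =>
          have : D1 + Finsupp.single a (-(k : ℤ)) =
              (D1 + Finsupp.single a (-(k : ℤ) - 1)) + Finsupp.single a 1 := by
            rw [add_assoc, ← Finsupp.single_add]; congr 2; ring
          rw [this] at ihk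
          exact (hstep _ a).mp ihk
      exact hall b
  intro D
  have := key (D - D₀)
  rwa [add_sub_cancel] at this

/-- Upward induction along single steps. -/
theorem le_induction (D : Divisor K F) (P : Divisor K F → Prop) (h0 : P D)
    (hstep : ∀ (D' : Divisor K F) (v : Place K F), D ≤ D' → P D' →
      P (D' + Finsupp.single v 1)) :
    ∀ D', D ≤ D' → P D' := by
  classical
  have key : ∀ E : Place K F →₀ ℕ,
      P (D + E.mapRange (fun n : ℕ => (n : ℤ)) rfl) ∧
        D ≤ D + E.mapRange (fun n : ℕ => (n : ℤ)) rfl := by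
    intro E
    induction E using Finsupp.induction with
    | zero =>
      rw [Finsupp.mapRange_zero, add_zero]
      exact ⟨h0, le_refl _⟩
    | single_add a b f _ _ ih =>
      have hrw : D + (Finsupp.single a b + f).mapRange (fun n : ℕ => (n : ℤ)) rfl =
          (D + f.mapRange (fun n : ℕ => (n : ℤ)) rfl) + Finsupp.single a (b : ℤ) := by
        rw [Finsupp.mapRange_add (by intros; push_cast; ring), Finsupp.mapRange_single]
        abel
      rw [hrw]
      generalize D + f.mapRange (fun n : ℕ => (n : ℤ)) rfl = D1 at ih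
      have hall : ∀ k : ℕ, P (D1 + Finsupp.single a (k : ℤ)) ∧
          D ≤ D1 + Finsupp.single a (k : ℤ) := by
        intro k
        induction k with
        | zero =>
          rw [Nat.cast_zero, Finsupp.single_zero, add_zero]
          exact ih
        | succ k ihk =>
          have : D1 + Finsupp.single a (((k + 1 : ℕ) : ℤ)) =
              (D1 + Finsupp.single a (k : ℤ)) + Finsupp.single a 1 := by
            rw [Nat.cast_succ, Finsupp.single_add]; abel
          rw [this]
          exact ⟨hstep _ a ihk.2 ihk.1, ihk.2.trans (le_step _ a)⟩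
      exact hall b
  intro D' hle
  have hD' : D' = D + ((D' - D).mapRange Int.toNat rfl).mapRange (fun n : ℕ => (n : ℤ)) rfl := by
    ext v
    have h1 : D v ≤ D' v := hle v
    simp only [Finsupp.add_apply, Finsupp.mapRange_apply, Finsupp.sub_apply]
    rw [Int.toNat_of_nonneg (by omega)]
    ring
  rw [hD']
  exact (key _).1

/-! ### Degrees -/

theorem degree_step (hdeg : ∀ v : Place K F, v.deg = 1) (D : Divisor K F) (v : Place K F) :
    Divisor.degree (D + Finsupp.single v 1) = Divisor.degree D + 1 := by
  rw [map_add, Divisor.degree_single, hdeg v]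
  simp

theorem degree_mono (hdeg : ∀ v : Place K F, v.deg = 1) {D D' : Divisor K F} (h : D ≤ D') :
    Divisor.degree D ≤ Divisor.degree D' := by
  refine le_induction D (fun D' => Divisor.degree D ≤ Divisor.degree D') (le_refl _) ?_ D' h
  intro D' v _ hD'
  show Divisor.degree D ≤ Divisor.degree (D' + Finsupp.single v 1)
  rw [degree_step hdeg]
  omega

/-! ### Riemann–Roch spaces -/

theorem riemannRochSpace_mono {D D' : Divisor K F} (h : D ≤ D') :
    riemannRochSpace D ≤ riemannRochSpace D' := by
  intro f hf
  rw [← diag_mem_repartitionsOf_iff] at hf ⊢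
  exact repartitionsOf_mono h hf

section Main

variable (hdeg : ∀ v : Place K F, v.deg = 1)
  (hres : ∀ (v : Place K F) (f : F), f ∈ v.toValuationSubring →
    ∃ a : K, 0 < v.ord (f - algebraMap K F a) ∨ f = algebraMap K F a)
  (hprinc : HasPrincipalDivisors K F)

include hdeg hprinc in
/-- A nonzero function without poles has no zeros. -/
theorem ord_eq_zero_of_nonneg {f : F} (hf : f ≠ 0) (h : ∀ v : Place K F, 0 ≤ v.ord f)
    (v : Place K F) : v.ord f = 0 := by
  obtain ⟨W, hW, hW0⟩ := hprinc.exists_divisor f hf
  by_contra hne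
  have hpos : 0 < v.ord f := lt_of_le_of_ne (h v) (Ne.symm hne)
  have hle : (Finsupp.single v 1 : Divisor K F) ≤ W := by
    intro w
    by_cases hwv : w = v
    · subst hwv
      rw [Finsupp.single_eq_same, hW]
      omega
    · rw [Finsupp.single_eq_of_ne hwv, hW]
      exact h w
  have := degree_mono hdeg hle
  rw [hW0, Divisor.degree_single, hdeg v] at this
  simp at this

include hdeg hres hprinc in
/-- `L(0) = K`. -/
theorem exists_algebraMap_eq_of_mem_zero [Nonempty (Place K F)] {f : F}
    (hf : f ∈ riemannRochSpace (0 : Divisor K F)) : ∃ a : K, f = algebraMap K F a := by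
  by_cases hf0 : f = 0
  · exact ⟨0, by rw [hf0, map_zero]⟩
  rw [mem_riemannRochSpace_iff] at hf
  have hnn : ∀ v : Place K F, 0 ≤ v.ord f := by
    intro v
    have := (hf v).resolve_left hf0
    simpa using this
  obtain ⟨v0⟩ := ‹Nonempty (Place K F)›
  have hmem : ∀ v : Place K F, f ∈ v.toValuationSubring := fun v =>
    (mem_iff_ord v f).mpr (Or.inr (hnn v))
  obtain ⟨a, ha | ha⟩ := hres v0 f (hmem v0)
  · exfalso
    have hg0 : f - algebraMap K F a ≠ 0 := by
      intro h0
      rw [h0] at ha
      simp at ha
    have hgnn : ∀ v : Place K F, 0 ≤ v.ord (f - algebraMap K F a) := by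
      intro v
      have hm : f - algebraMap K F a ∈ v.toValuationSubring :=
        sub_mem (hmem v) (v.algebraMap_mem' a)
      exact ((mem_iff_ord v _).mp hm).resolve_left hg0
    have := ord_eq_zero_of_nonneg hdeg hprinc hg0 hgnn v0
    omega
  · exact ⟨a, ha⟩

include hdeg hres hprinc in
theorem riemannRochSpace_zero_eq [Nonempty (Place K F)] :
    riemannRochSpace (0 : Divisor K F) = Submodule.span K {(1 : F)} := by
  apply le_antisymm
  · intro f hf
    obtain ⟨a, rfl⟩ := exists_algebraMap_eq_of_mem_zero hdeg hres hprinc hf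
    rw [Algebra.algebraMap_eq_smul_one]
    exact Submodule.smul_mem _ a (Submodule.mem_span_singleton_self _)
  · rw [Submodule.span_singleton_le_iff_mem, mem_riemannRochSpace_iff]
    intro v
    right
    simp

include hdeg hres hprinc in
theorem finrank_riemannRochSpace_zero [Nonempty (Place K F)] :
    Module.finrank K (riemannRochSpace (0 : Divisor K F)) = 1 := by
  rw [riemannRochSpace_zero_eq hdeg hres hprinc]
  exact finrank_span_singleton one_ne_zero

include hdeg hres hprinc in
theorem finite_riemannRochSpace [Nonempty (Place K F)] (D : Divisor K F) :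
    Module.Finite K (riemannRochSpace D) := by
  refine divisor_induction (fun D => Module.Finite K (riemannRochSpace D)) 0 ?_
    (fun D v => step_finite_rr_iff hres D v) D
  show Module.Finite K (riemannRochSpace (0 : Divisor K F))
  rw [riemannRochSpace_zero_eq hdeg hres hprinc]
  infer_instance

include hdeg hres hprinc in
/-- `deg D - l(D)` is monotone. -/
theorem finrank_sub_degree_le [Nonempty (Place K F)] {D D' : Divisor K F} (h : D ≤ D') :
    (Module.finrank K (riemannRochSpace D') : ℤ) - Divisor.degree D' ≤
      (Module.finrank K (riemannRochSpace D) : ℤ) - Divisor.degree D := by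
  refine le_induction D (fun D' => (Module.finrank K (riemannRochSpace D') : ℤ) -
    Divisor.degree D' ≤ (Module.finrank K (riemannRochSpace D) : ℤ) - Divisor.degree D)
    (le_refl _) ?_ D' h
  intro D' v _ ih
  show (Module.finrank K (riemannRochSpace (D' + Finsupp.single v 1)) : ℤ) -
    Divisor.degree (D' + Finsupp.single v 1) ≤ _
  have := finite_riemannRochSpace hdeg hres hprinc D'
  rw [degree_step hdeg]
  rcases step_finrank_rr hres D' v with h1 | ⟨h1, -⟩
  · rw [h1]; omega
  · rw [h1]; push_cast; omega

include hdeg hres hprinc in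
theorem finrank_riemannRochSpace_mono [Nonempty (Place K F)] {D D' : Divisor K F}
    (h : D ≤ D') :
    Module.finrank K (riemannRochSpace D) ≤ Module.finrank K (riemannRochSpace D') := by
  have := finite_riemannRochSpace hdeg hres hprinc D'
  exact Submodule.finrank_mono (riemannRochSpace_mono h)

end Main

section Bound

variable (hdeg : ∀ v : Place K F, v.deg = 1)
  (hres : ∀ (v : Place K F) (f : F), f ∈ v.toValuationSubring →
    ∃ a : K, 0 < v.ord (f - algebraMap K F a) ∨ f = algebraMap K F a)
  (hprinc : HasPrincipalDivisors K F)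

include hdeg hprinc in
/-- The pole divisor of `x`. -/
theorem exists_pole_divisor (x : F) (hx0 : x ≠ 0) (n : ℤ)
    (hpole : ∑ᶠ v ∈ {v : Place K F | 0 < v.ord x⁻¹}, v.ord x⁻¹ = n) :
    ∃ B : Divisor K F, (∀ v, 0 ≤ B v) ∧ (∀ v, -B v ≤ v.ord x) ∧ Divisor.degree B = n := by
  classical
  obtain ⟨W, hW, -⟩ := hprinc.exists_divisor x⁻¹ (inv_ne_zero hx0)
  refine ⟨W ⊔ 0, fun v => ?_, fun v => ?_, ?_⟩
  · rw [Finsupp.sup_apply]
    exact le_max_right _ _
  · rw [Finsupp.sup_apply, hW, Place.ord_inv]
    have := le_max_left (-v.ord x) ((0 : Divisor K F) v)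
    omega
  · rw [S24.Assembly.degree_eq_finsum hdeg, ← hpole, finsum_mem_def]
    refine finsum_congr fun v => ?_
    rw [Finsupp.sup_apply, hW, Set.indicator_apply]
    split_ifs with h
    · exact max_eq_left (le_of_lt h)
    · rw [Set.mem_ofPred_eq, not_lt] at h
      exact max_eq_right h

include hprinc in
/-- A common bound for the poles of finitely many nonzero functions. -/
theorem exists_pole_bound {n : ℕ} (b : Fin n → F) (hb : ∀ i, b i ≠ 0) :
    ∃ C : Divisor K F, (∀ v, 0 ≤ C v) ∧ ∀ i v, -C v ≤ v.ord (b i) := by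
  classical
  choose W hW _ using fun i => hprinc.exists_divisor (b i) (hb i)
  refine ⟨∑ i, (-(W i) ⊔ 0), fun v => ?_, fun i v => ?_⟩
  · rw [Finsupp.finsetSum_apply]
    refine Finset.sum_nonneg fun i _ => ?_
    rw [Finsupp.sup_apply]
    exact le_max_right _ _
  · rw [Finsupp.finsetSum_apply]
    have h1 : (-(W i) ⊔ 0 : Divisor K F) v ≤ ∑ j, (-(W j) ⊔ 0 : Divisor K F) v := by
      refine Finset.single_le_sum (f := fun j => (-(W j) ⊔ 0 : Divisor K F) v) (fun j _ => ?_)
        (Finset.mem_univ i)
      rw [Finsupp.sup_apply]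
      exact le_max_right _ _
    have h2 : -v.ord (b i) ≤ (-(W i) ⊔ 0 : Divisor K F) v := by
      rw [Finsupp.sup_apply, Finsupp.neg_apply, hW]
      exact le_max_left _ _
    omega

theorem linearIndependent_pow_of_transcendental (x : F) (hx : Transcendental K x) (m : ℕ) :
    LinearIndependent K (fun j : Fin (m + 1) => x ^ (j : ℕ)) := by
  have h1 : LinearIndependent K (fun n : ℕ => Polynomial.monomial n (1 : K)) := by
    have := (Polynomial.basisMonomials K).linearIndependent
    rwa [Polynomial.coe_basisMonomials] at this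
  have h2 := h1.comp (Fin.val : Fin (m + 1) → ℕ) Fin.val_injective
  have h3 := h2.map' (Polynomial.aeval x).toLinearMap
    (LinearMap.ker_eq_bot.mpr (transcendental_iff_injective.mp hx))
  have heq : (⇑(Polynomial.aeval x).toLinearMap ∘ (fun n : ℕ => Polynomial.monomial n (1 : K)) ∘
      (Fin.val : Fin (m + 1) → ℕ)) = fun j : Fin (m + 1) => x ^ (j : ℕ) := by
    funext j
    simp [Polynomial.aeval_monomial]
  rw [heq] at h3
  exact h3

include hdeg hres hprinc in
/-- The lower bound `l(m B + C) ≥ (m + 1) n`. -/
theorem le_finrank_riemannRochSpace [Nonempty (Place K F)] (x : F) (hx : Transcendental K x)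
    {n : ℕ} (b : Module.Basis (Fin n) K⟮x⟯ F) (B C : Divisor K F)
    (hB : ∀ v, -B v ≤ v.ord x) (hB0 : ∀ v, 0 ≤ B v)
    (hC : ∀ (i : Fin n) (v : Place K F), -C v ≤ v.ord (b i)) (m : ℕ) :
    (m + 1) * n ≤ Module.finrank K (riemannRochSpace (m • B + C)) := by
  classical
  have hx0 : x ≠ 0 := by
    rintro rfl
    exact hx isAlgebraic_zero
  have hpow : LinearIndependent K (fun j : Fin (m + 1) => (AdjoinSimple.gen K x) ^ (j : ℕ)) := by
    apply LinearIndependent.of_comp (K⟮x⟯.val.toLinearMap)
    have heq : (⇑K⟮x⟯.val.toLinearMap ∘ fun j : Fin (m + 1) => AdjoinSimple.gen K x ^ (j : ℕ)) =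
        fun j : Fin (m + 1) => x ^ (j : ℕ) := by
      funext j
      simp
    rw [heq]
    exact linearIndependent_pow_of_transcendental x hx m
  have hli : LinearIndependent K
      (fun p : Fin (m + 1) × Fin n => x ^ (p.1 : ℕ) * b p.2) := by
    have h := linearIndependent_smul (R := K) hpow b.linearIndependent
    exact h
  have hmem : ∀ p : Fin (m + 1) × Fin n,
      x ^ (p.1 : ℕ) * b p.2 ∈ riemannRochSpace (m • B + C) := by
    intro p
    rw [mem_riemannRochSpace_iff]
    intro v
    right
    have hb0 : b p.2 ≠ 0 := b.ne_zero p.2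
    rw [v.ord_mul (pow_ne_zero _ hx0) hb0, ← zpow_natCast, v.ord_zpow, Finsupp.add_apply,
      Finsupp.smul_apply, nsmul_eq_mul]
    have h1 := hB v
    have h2 := hB0 v
    have h3 := hC p.2 v
    have h4 : ((p.1 : ℕ) : ℤ) ≤ m := by
      have := p.1.2
      omega
    have h5 : (0 : ℤ) ≤ ((p.1 : ℕ) : ℤ) := Int.natCast_nonneg _
    nlinarith [mul_nonneg h5 (by linarith : (0 : ℤ) ≤ v.ord x + B v),
      mul_nonneg (by linarith : (0 : ℤ) ≤ (m : ℤ) - ((p.1 : ℕ) : ℤ)) h2]
  have hli' : LinearIndependent K (fun p : Fin (m + 1) × Fin n =>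
      (⟨x ^ (p.1 : ℕ) * b p.2, hmem p⟩ : ↥(riemannRochSpace (m • B + C)))) := by
    apply LinearIndependent.of_comp (Submodule.subtype _)
    exact hli
  have := finite_riemannRochSpace hdeg hres hprinc (m • B + C)
  have hcard := hli'.fintype_card_le_finrank
  simpa using hcard

include hdeg hres hprinc in
/-- Riemann's inequality: `deg D - l(D)` is bounded above. -/
theorem exists_bound [Nonempty (Place K F)] (x : F) (hx : Transcendental K x)
    (hfd : FiniteDimensional K⟮x⟯ F)
    (hpole : ∑ᶠ v ∈ {v : Place K F | 0 < v.ord x⁻¹}, v.ord x⁻¹ =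
      (Module.finrank K⟮x⟯ F : ℤ)) :
    ∃ c : ℤ, ∀ D : Divisor K F,
      Divisor.degree D - (Module.finrank K (riemannRochSpace D) : ℤ) ≤ c := by
  classical
  have hx0 : x ≠ 0 := by
    rintro rfl
    exact hx isAlgebraic_zero
  have hn : 1 ≤ Module.finrank K⟮x⟯ F := Module.finrank_pos
  obtain ⟨B, hB0, hB, hBdeg⟩ := exists_pole_divisor hdeg hprinc x hx0 _ hpole
  obtain ⟨C, -, hC⟩ := exists_pole_bound hprinc (fun i => Module.finBasis K⟮x⟯ F i)
    (fun i => (Module.finBasis K⟮x⟯ F).ne_zero i)
  have hlow := le_finrank_riemannRochSpace hdeg hres hprinc x hx (Module.finBasis K⟮x⟯ F) B C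
    hB hB0 hC
  refine ⟨Divisor.degree C - (Module.finrank K⟮x⟯ F : ℤ), fun D => ?_⟩
  have hd0 : 0 ≤ Divisor.degree (D ⊔ 0) := by
    have := degree_mono hdeg (le_sup_right : (0 : Divisor K F) ≤ D ⊔ 0)
    rwa [map_zero] at this
  obtain ⟨m, hm⟩ := Int.eq_ofNat_of_zero_le hd0
  have hdegmBC : Divisor.degree (m • B + C) =
      m * (Module.finrank K⟮x⟯ F : ℤ) + Divisor.degree C := by
    rw [map_add, map_nsmul, hBdeg, nsmul_eq_mul]
  -- a nonzero element of `L(m B + C - D⁺)`
  have hEle : m • B + C - (D ⊔ 0) ≤ m • B + C := by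
    intro v
    have : (0 : Divisor K F) v ≤ (D ⊔ 0) v := (le_sup_right : (0 : Divisor K F) ≤ D ⊔ 0) v
    rw [Finsupp.sub_apply]
    simp only [Finsupp.coe_zero, Pi.zero_apply] at this
    omega
  have h1 := finrank_sub_degree_le hdeg hres hprinc hEle
  rw [map_sub, hm] at h1
  have hlowm := hlow m
  have hpos : 0 < Module.finrank K (riemannRochSpace (m • B + C - (D ⊔ 0))) := by
    have h2 : ((m + 1) * Module.finrank K⟮x⟯ F : ℤ) ≤
        (Module.finrank K (riemannRochSpace (m • B + C)) : ℤ) := by exact_mod_cast hlowm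
    have h3 : (m : ℤ) + 1 ≤ (m + 1) * (Module.finrank K⟮x⟯ F : ℤ) := by
      have : (1 : ℤ) ≤ (Module.finrank K⟮x⟯ F : ℤ) := by exact_mod_cast hn
      nlinarith
    have : (0 : ℤ) < (Module.finrank K (riemannRochSpace (m • B + C - (D ⊔ 0))) : ℤ) := by
      linarith
    exact_mod_cast this
  have hfinE := finite_riemannRochSpace hdeg hres hprinc (m • B + C - (D ⊔ 0))
  obtain ⟨⟨f, hf⟩, hf0'⟩ := Module.finrank_pos_iff_exists_ne_zero.mp hpos
  have hf0 : f ≠ 0 := fun h => hf0' (Subtype.ext h)
  rw [mem_riemannRochSpace_iff] at hf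
  obtain ⟨W, hW, hW0⟩ := hprinc.exists_divisor f hf0
  have hD1le : D - W ≤ m • B + C := by
    intro v
    have h2 := (hf v).resolve_left hf0
    have h3 : D v ≤ (D ⊔ 0) v := (le_sup_left : D ≤ D ⊔ 0) v
    rw [Finsupp.sub_apply] at h2 ⊢
    rw [hW]
    omega
  have hdegD1 : Divisor.degree (D - W) = Divisor.degree D := by
    rw [map_sub, hW0, sub_zero]
  -- `L(D - div f)` embeds into `L(D)`
  have hmap : ∀ g ∈ riemannRochSpace (D - W),
      LinearMap.mulRight K f⁻¹ g ∈ riemannRochSpace D := by
    intro g hg
    rw [mem_riemannRochSpace_iff] at hg ⊢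
    intro v
    by_cases hg0 : g = 0
    · left
      rw [hg0, map_zero]
    · right
      have h2 := (hg v).resolve_left hg0
      rw [Finsupp.sub_apply, hW] at h2
      rw [LinearMap.mulRight_apply, v.ord_mul hg0 (inv_ne_zero hf0), v.ord_inv]
      omega
  have hinj : Function.Injective ((LinearMap.mulRight K f⁻¹).restrict hmap) := by
    intro g₁ g₂ h
    have h' := congrArg Subtype.val h
    simp only [LinearMap.coe_restrict_apply, LinearMap.mulRight_apply] at h'
    exact Subtype.ext (mul_right_cancel₀ (inv_ne_zero hf0) h')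
  have hfinD := finite_riemannRochSpace hdeg hres hprinc D
  have hle := LinearMap.finrank_le_finrank_of_injective hinj
  have h4 := finrank_sub_degree_le hdeg hres hprinc hD1le
  rw [hdegD1, hdegmBC] at h4
  have h5 : ((m + 1) * Module.finrank K⟮x⟯ F : ℤ) ≤
      (Module.finrank K (riemannRochSpace (m • B + C)) : ℤ) := by exact_mod_cast hlowm
  have h6 : (Module.finrank K (riemannRochSpace (D - W)) : ℤ) ≤
      (Module.finrank K (riemannRochSpace D) : ℤ) := by exact_mod_cast hle
  linarith

include hprinc in
/-- Every repartition has finitely many poles. -/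
theorem finite_poles (α : ↥(repartitions K F)) :
    {v : Place K F | v.ord ((α : Place K F → F) v) < 0}.Finite := by
  obtain ⟨a, ha⟩ := α
  show {v : Place K F | v.ord (a v) < 0}.Finite
  have hnn : ∀ (v : Place K F) (y : F), ¬ v.ord y < 0 → y ∈ v.toValuationSubring := by
    intro v y hy
    rw [mem_iff_ord]
    right
    omega
  have hnn' : ∀ (v : Place K F) (y : F), y ∈ v.toValuationSubring → ¬ v.ord y < 0 := by
    intro v y hy
    rcases (mem_iff_ord v y).mp hy with h | h
    · rw [h]; simp
    · omega
  have ha' : a ∈ Algebra.adjoin F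
      {α : Place K F → F | {v : Place K F | ¬v.adicValuation (α v) ≤ 1}.Finite} := ha
  clear ha
  induction ha' using Algebra.adjoin_induction with
  | mem a ha =>
    have : {v : Place K F | ¬v.adicValuation (a v) ≤ 1} = {v : Place K F | v.ord (a v) < 0} :=
      Set.ext fun v => v.not_adicValuation_le_one_iff
    rw [← this]
    exact ha
  | algebraMap r =>
    by_cases hr : r = 0
    · have : {v : Place K F | v.ord ((algebraMap F (Place K F → F) r) v) < 0} = ∅ := by
        ext v
        simp [hr]
      rw [this]
      exact Set.finite_empty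
    · refine (S24.Assembly.finite_ord_ne_zero hprinc hr).subset ?_
      intro v hv
      have hv' : v.ord r < 0 := hv
      show v.ord r ≠ 0
      omega
  | add a b _ _ ha hb =>
    refine (ha.union hb).subset ?_
    intro v hv
    by_contra hcon
    rw [Set.mem_union, not_or] at hcon
    exact hnn' v (a v + b v) (add_mem (hnn v (a v) hcon.1) (hnn v (b v) hcon.2)) hv
  | mul a b _ _ ha hb =>
    refine (ha.union hb).subset ?_
    intro v hv
    by_contra hcon
    rw [Set.mem_union, not_or] at hcon
    exact hnn' v (a v * b v) (mul_mem (hnn v (a v) hcon.1) (hnn v (b v) hcon.2)) hv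

end Bound

section Final

variable (hdeg : ∀ v : Place K F, v.deg = 1)
  (hres : ∀ (v : Place K F) (f : F), f ∈ v.toValuationSubring →
    ∃ a : K, 0 < v.ord (f - algebraMap K F a) ∨ f = algebraMap K F a)
  (hprinc : HasPrincipalDivisors K F)

include hdeg hres hprinc in
/-- Strong approximation from Riemann's inequality. -/
theorem exists_repartitions_eq_sup_of_bound [Nonempty (Place K F)] (c : ℤ)
    (hc : ∀ D : Divisor K F,
      Divisor.degree D - (Module.finrank K (riemannRochSpace D) : ℤ) ≤ c) :
    ∃ D₀ : Divisor K F, ∀ D, D₀ ≤ D →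
      repartitionsOf D ⊔ principalRepartitions K F = ⊤ := by
  classical
  obtain ⟨r, ⟨D₀, hD₀⟩, hmax⟩ := Int.exists_greatest_of_bdd
    (P := fun z => ∃ D : Divisor K F,
      Divisor.degree D - (Module.finrank K (riemannRochSpace D) : ℤ) = z)
    ⟨c, by rintro z ⟨D, rfl⟩; exact hc D⟩ ⟨_, 0, rfl⟩
  have hconst : ∀ D : Divisor K F, D₀ ≤ D →
      Divisor.degree D - (Module.finrank K (riemannRochSpace D) : ℤ) = r := by
    intro D hle
    have h1 := hmax _ ⟨D, rfl⟩
    have h2 := finrank_sub_degree_le hdeg hres hprinc hle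
    omega
  have hstep : ∀ D : Divisor K F, D₀ ≤ D → ∀ v : Place K F,
      repartitionsOf (D + Finsupp.single v 1) ≤
        repartitionsOf D ⊔ principalRepartitions K F := by
    intro D hle v
    have := finite_riemannRochSpace hdeg hres hprinc D
    rcases step_finrank_rr hres D v with h1 | ⟨-, h1⟩
    · exfalso
      have h2 := hconst D hle
      have h3 := hconst (D + Finsupp.single v 1) (hle.trans (le_step D v))
      rw [degree_step hdeg, h1] at h3
      omega
    · exact h1
  have hall : ∀ D : Divisor K F, D₀ ≤ D →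
      repartitionsOf D ≤ repartitionsOf D₀ ⊔ principalRepartitions K F := by
    refine le_induction D₀
      (fun D => repartitionsOf D ≤ repartitionsOf D₀ ⊔ principalRepartitions K F) le_sup_left ?_
    intro D v hle ih
    exact (hstep D hle v).trans (sup_le ih le_sup_right)
  have htop : repartitionsOf D₀ ⊔ principalRepartitions K F = ⊤ := by
    rw [eq_top_iff]
    intro α _
    let Pα : Divisor K F := Finsupp.onFinset (finite_poles hprinc α).toFinset
      (fun v => max (-(v.ord ((α : Place K F → F) v))) 0) (by
        intro v hv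
        rw [Set.Finite.mem_toFinset, Set.mem_ofPred_eq]
        by_contra hcon
        apply hv
        exact max_eq_right (by omega))
    have hα : α ∈ repartitionsOf (D₀ ⊔ Pα) := by
      rw [mem_repartitionsOf_iff]
      intro v
      right
      have h1 : Pα v ≤ (D₀ ⊔ Pα) v := (le_sup_right : Pα ≤ D₀ ⊔ Pα) v
      have h2 : Pα v = max (-(v.ord ((α : Place K F → F) v))) 0 := rfl
      have h3 := le_max_left (-(v.ord ((α : Place K F → F) v))) 0
      omega
    exact hall _ le_sup_left hα
  refine ⟨D₀, fun D hle => ?_⟩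
  rw [eq_top_iff, ← htop]
  exact sup_le_sup_right (repartitionsOf_mono hle) _

end Final

end Riemann

open Riemann RiemannStep in
/-- **Riemann's theorem.**  For a function field all of whose places have residue field `K`,
with principal divisors of degree zero and a transcendental `x` whose pole divisor has degree
`[F : K(x)]`: `L(D)` and `H1 D` are finite-dimensional for every divisor `D` and
`l(D) - h¹(D) = deg D + 1 - h¹(0)`. -/
theorem riemann {K F : Type*} [Field K] [Field F] [Algebra K F]
    (hdeg : ∀ v : Place K F, v.deg = 1)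
    (hres : ∀ (v : Place K F) (f : F), f ∈ v.toValuationSubring →
      ∃ a : K, 0 < v.ord (f - algebraMap K F a) ∨ f = algebraMap K F a)
    (hprinc : HasPrincipalDivisors K F)
    (x : F) (hx : Transcendental K x) (hfd : FiniteDimensional K⟮x⟯ F)
    (hpole : ∑ᶠ v ∈ {v : Place K F | 0 < v.ord x⁻¹}, v.ord x⁻¹ =
      (Module.finrank K⟮x⟯ F : ℤ))
    (D : Divisor K F) :
    Module.Finite K (riemannRochSpace D) ∧ Module.Finite K (H1 D) ∧
      (Module.finrank K (riemannRochSpace D) : ℤ) - Module.finrank K (H1 D) =
        Divisor.degree D + 1 - Module.finrank K (H1 (0 : Divisor K F)) := by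
  have hne : Nonempty (Place K F) := by
    by_contra hempty
    rw [not_nonempty_iff] at hempty
    have h0 : ∑ᶠ v ∈ {v : Place K F | 0 < v.ord x⁻¹}, v.ord x⁻¹ = 0 := by
      rw [finsum_mem_def]
      exact finsum_of_isEmpty _
    rw [h0] at hpole
    have : 0 < Module.finrank K⟮x⟯ F := Module.finrank_pos
    omega
  obtain ⟨c, hc⟩ := exists_bound hdeg hres hprinc x hx hfd hpole
  obtain ⟨D₀, hD₀⟩ := exists_repartitions_eq_sup_of_bound hdeg hres hprinc c hc
  have hfinL := finite_riemannRochSpace hdeg hres hprinc
  have hfinH0 : Module.Finite K (H1 D₀) := by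
    have e := Submodule.quotEquivOfEq _ _ (hD₀ D₀ le_rfl)
    have : Module.Finite K (↥(repartitions K F) ⧸ (⊤ : Submodule K ↥(repartitions K F))) :=
      Module.Finite.of_finite
    exact Module.Finite.equiv e.symm
  have hfinH : ∀ D : Divisor K F, Module.Finite K (H1 D) :=
    divisor_induction (fun D => Module.Finite K (H1 D)) D₀ hfinH0
      (fun D v => step_finite_H1_iff hres D v)
  have hchi : ∀ D : Divisor K F,
      (Module.finrank K (riemannRochSpace D) : ℤ) - Module.finrank K (H1 D) -
          Divisor.degree D =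
        (Module.finrank K (riemannRochSpace (0 : Divisor K F)) : ℤ) -
          Module.finrank K (H1 (0 : Divisor K F)) := by
    refine divisor_induction _ 0 (by rw [map_zero, sub_zero]) ?_
    intro D v
    have := hfinL D
    have := hfinH D
    have h1 := step_euler hres D v
    have h2 := degree_step hdeg D v
    constructor <;> intro h <;> linarith
  refine ⟨hfinL D, hfinH D, ?_⟩
  have h := hchi D
  rw [finrank_riemannRochSpace_zero hdeg hres hprinc] at h
  push_cast at h
  linarith

open Riemann RiemannStep in
/-- Existence of a place, from a transcendental `x` whose pole divisor has positive degree. -/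
theorem nonempty_place {K F : Type*} [Field K] [Field F] [Algebra K F]
    (x : F) (hfd : FiniteDimensional K⟮x⟯ F)
    (hpole : ∑ᶠ v ∈ {v : Place K F | 0 < v.ord x⁻¹}, v.ord x⁻¹ =
      (Module.finrank K⟮x⟯ F : ℤ)) : Nonempty (Place K F) := by
  by_contra hempty
  rw [not_nonempty_iff] at hempty
  have h0 : ∑ᶠ v ∈ {v : Place K F | 0 < v.ord x⁻¹}, v.ord x⁻¹ = 0 := by
    rw [finsum_mem_def]
    exact finsum_of_isEmpty _
  rw [h0] at hpole
  have : 0 < Module.finrank K⟮x⟯ F := Module.finrank_pos
  omega

open Riemann RiemannStep in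
/-- `L(0) = K`: a function without poles is constant. -/
theorem riemannRochSpace_zero_le {K F : Type*} [Field K] [Field F] [Algebra K F]
    (hdeg : ∀ v : Place K F, v.deg = 1)
    (hres : ∀ (v : Place K F) (f : F), f ∈ v.toValuationSubring →
      ∃ a : K, 0 < v.ord (f - algebraMap K F a) ∨ f = algebraMap K F a)
    (hprinc : HasPrincipalDivisors K F) [Nonempty (Place K F)] :
    ∀ f ∈ riemannRochSpace (0 : Divisor K F), ∃ a : K, f = algebraMap K F a :=
  fun _ hf => exists_algebraMap_eq_of_mem_zero hdeg hres hprinc hf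

open Riemann RiemannStep in
/-- `l(0) = 1`. -/
theorem finrank_riemannRochSpace_zero {K F : Type*} [Field K] [Field F] [Algebra K F]
    (hdeg : ∀ v : Place K F, v.deg = 1)
    (hres : ∀ (v : Place K F) (f : F), f ∈ v.toValuationSubring →
      ∃ a : K, 0 < v.ord (f - algebraMap K F a) ∨ f = algebraMap K F a)
    (hprinc : HasPrincipalDivisors K F) [Nonempty (Place K F)] :
    Module.finrank K (riemannRochSpace (0 : Divisor K F)) = 1 :=
  Riemann.finrank_riemannRochSpace_zero hdeg hres hprinc

open Riemann RiemannStep in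
/-- **Strong approximation**: `R = R(D) + F` for all sufficiently large `D`
(equivalently `H1 D = 0`). -/
theorem exists_repartitions_eq_sup {K F : Type*} [Field K] [Field F] [Algebra K F]
    (hdeg : ∀ v : Place K F, v.deg = 1)
    (hres : ∀ (v : Place K F) (f : F), f ∈ v.toValuationSubring →
      ∃ a : K, 0 < v.ord (f - algebraMap K F a) ∨ f = algebraMap K F a)
    (hprinc : HasPrincipalDivisors K F)
    (x : F) (hx : Transcendental K x) (hfd : FiniteDimensional K⟮x⟯ F)
    (hpole : ∑ᶠ v ∈ {v : Place K F | 0 < v.ord x⁻¹}, v.ord x⁻¹ =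
      (Module.finrank K⟮x⟯ F : ℤ)) :
    ∃ D₀ : Divisor K F, ∀ D, D₀ ≤ D →
      repartitionsOf D ⊔ principalRepartitions K F = ⊤ := by
  have hne : Nonempty (Place K F) := nonempty_place x hfd hpole
  obtain ⟨c, hc⟩ := exists_bound hdeg hres hprinc x hx hfd hpole
  exact exists_repartitions_eq_sup_of_bound hdeg hres hprinc c hc

open Riemann in
/-- A divisor of negative degree has trivial Riemann–Roch space. -/
theorem riemannRochSpace_eq_bot_of_degree_neg {K F : Type*} [Field K] [Field F] [Algebra K F]
    (hdeg : ∀ v : Place K F, v.deg = 1) (hprinc : HasPrincipalDivisors K F)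
    (D : Divisor K F) (h : Divisor.degree D < 0) : riemannRochSpace D = ⊥ := by
  rw [eq_bot_iff]
  intro f hf
  rw [Submodule.mem_bot]
  by_contra hf0
  rw [mem_riemannRochSpace_iff] at hf
  obtain ⟨W, hW, hW0⟩ := hprinc.exists_divisor f hf0
  have hle : (0 : Divisor K F) ≤ D + W := by
    intro v
    have := (hf v).resolve_left hf0
    rw [Finsupp.add_apply, hW]
    simp only [Finsupp.coe_zero, Pi.zero_apply]
    omega
  have := degree_mono hdeg hle
  rw [map_zero, map_add, hW0, add_zero] at this
  omega

end Fermat.Agent.RR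

end
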