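/-
RR package R1 (wrapper): `PlaceFacts K F → RiemannFacts K F`.
-/
import Fermat.Agent.RR.Defs
import Fermat.Agent.RR.Riemann
import Fermat.Agent.S24.Principal

set_option autoImplicit false

noncomputable section

namespace Fermat.Agent.RR

open AlgebraicCurve IntermediateField

/-- Riemann's theorem in bundled form: the place facts of S24 side A imply `RiemannFacts`. -/
theorem riemannFacts_of_placeFacts {K F : Type*} [Field K] [Field F] [Algebra K F]
    (hP : PlaceFacts K F) : RiemannFacts K F := by
  have hprinc : HasPrincipalDivisors K F :=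
    Fermat.Agent.S24.hasPrincipalDivisors_of hP.hdeg hP.hfin hP.hsum
  obtain ⟨x, hx⟩ := hP.htr
  have hfd : FiniteDimensional K⟮x⟯ F := hP.hfd x hx
  have hxinv : Transcendental K x⁻¹ := Fermat.Agent.S24.Principal.transcendental_inv hx
  have hpole : ∑ᶠ v ∈ {v : Place K F | 0 < v.ord x⁻¹}, v.ord x⁻¹ =
      (Module.finrank K⟮x⟯ F : ℤ) := by
    have h := hP.hsum x⁻¹ hxinv
    rw [Fermat.Agent.S24.Principal.adjoin_inv_eq] at h
    exact h
  have hne : Nonempty (Place K F) := nonempty_place x hfd hpole
  have key := riemann hP.hdeg hP.hres hprinc x hx hfd hpole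
  exact
    { finite_L := fun D => (key D).1
      finite_H1 := fun D => (key D).2.1
      riemann := fun D => (key D).2.2
      L_eq_bot := fun D h => riemannRochSpace_eq_bot_of_degree_neg hP.hdeg hprinc D h
      finrank_L_zero := finrank_riemannRochSpace_zero hP.hdeg hP.hres hprinc }

end Fermat.Agent.RR

end
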