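import Fermat.Agent.RR.ResFunctional
import Fermat.Agent.RR.Duality
import Fermat.Agent.RR.RiemannFacts

/-!
# RR*: `deg (div ω) = 2 l(div ω) - 2`

Assembly of the Riemann–Roch packages: Riemann's theorem (`riemannFacts_of_placeFacts`), the
residue functional of a differential (`exists_resFunctional`) and duality (`finrank_H1_eq`).
-/

set_option autoImplicit false

noncomputable section

namespace Fermat.Agent.RR

open AlgebraicCurve KaehlerDifferential

variable {K F : Type*} [Field K] [Field F] [Algebra K F]

/-- **RR\***: for a nonzero differential `ω` with divisor `W`: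
`deg W = 2 * dim L(W) - 2`. -/
theorem degree_eq_two_mul_finrank_sub_two [CharZero K] (hP : PlaceFacts K F)
    (ω : Ω[F⁄K]) (hω : ω ≠ 0) (W : Divisor K F)
    (hW : ∀ v : Place K F, W v = v.ordDifferential ω) :
    Divisor.degree W = 2 * (Module.finrank K (riemannRochSpace W) : ℤ) - 2 := by
  have hR : RiemannFacts K F := riemannFacts_of_placeFacts hP
  obtain ⟨θ, h1, h2, h3⟩ := exists_resFunctional hP hR ω hω W hW
  have e0 := finrank_H1_eq hP hR W θ h1 h2 h3 0
  have eW := finrank_H1_eq hP hR W θ h1 h2 h3 W
  rw [sub_zero] at e0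
  rw [sub_self, hR.finrank_L_zero] at eW
  have hr := hR.riemann W
  rw [e0, eW] at hr
  push_cast at hr
  linarith

/-- Riemann–Roch for the canonical divisor, second form: `dim H¹(0) = dim L(W)`
(the two definitions of the genus agree). -/
theorem finrank_H1_zero_eq [CharZero K] (hP : PlaceFacts K F)
    (ω : Ω[F⁄K]) (hω : ω ≠ 0) (W : Divisor K F)
    (hW : ∀ v : Place K F, W v = v.ordDifferential ω) :
    Module.finrank K (H1 (0 : Divisor K F)) = Module.finrank K (riemannRochSpace W) := by
  have hR : RiemannFacts K F := riemannFacts_of_placeFacts hP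
  obtain ⟨θ, h1, h2, h3⟩ := exists_resFunctional hP hR ω hω W hW
  have e0 := finrank_H1_eq hP hR W θ h1 h2 h3 0
  rw [sub_zero] at e0
  exact e0

end Fermat.Agent.RR

end
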