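import Mathlib
import Fermat.Agent.RR.Defs
import Fermat.Agent.RR.LocalRes
import Fermat.Agent.S24.FFBasic
import Fermat.Agent.S24.DiffSpan
import Fermat.Agent.S24.Principal

/-!
# RR package G2: the residue functional of a differential on the adeles

For a nonzero differential `ω = h • D x` of a function field `F / K` the functional
`θ α = ∑_v res_v (α_v h dx)` on the repartitions (adeles) is `K`-linear, kills
`repartitionsOf W` (`W` the divisor of `ω`) and does not kill `repartitionsOf (W + v)` for any
place `v`.  If the residue theorem `∑_v res_v (f dg) = 0` holds (package G1) it also kills the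
principal repartitions.
-/

set_option autoImplicit false

noncomputable section

namespace Fermat.Agent.RR

open AlgebraicCurve KaehlerDifferential

variable {K F : Type*} [Field K] [Field F] [Algebra K F]

namespace WeilDiff

/-- A function has only finitely many poles. -/
theorem finite_not_mem (hP : PlaceFacts K F) (f : F) :
    {v : Place K F | f ∉ v.toValuationSubring}.Finite := by
  refine (Fermat.Agent.S24.Principal.finite_ord_ne_zero hP.hfin f).subset ?_
  intro v hv h0
  exact hv (Fermat.Agent.S24.mem_of_ord_nonneg v (le_of_eq h0.symm))

/-- Every repartition is integral at almost all places. -/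
theorem finite_of_mem_repartitions (hP : PlaceFacts K F) {α : Place K F → F}
    (hα : α ∈ repartitions K F) : {v : Place K F | ¬v.adicValuation (α v) ≤ 1}.Finite := by
  induction hα using Algebra.adjoin_induction with
  | mem α hα => exact hα
  | algebraMap f =>
    refine (finite_not_mem hP f).subset ?_
    intro v hv hmem
    exact hv (v.adicValuation_le_one_of_mem hmem)
  | add α β _ _ hα hβ =>
    refine (hα.union hβ).subset ?_
    intro v hv
    by_contra hcon
    simp only [Set.mem_union, Set.mem_ofPred_eq, not_or, not_not] at hcon
    exact hv ((Valuation.map_add _ _ _).trans (max_le hcon.1 hcon.2))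
  | mul α β _ _ hα hβ =>
    refine (hα.union hβ).subset ?_
    intro v hv
    by_contra hcon
    simp only [Set.mem_union, Set.mem_ofPred_eq, not_or, not_not] at hcon
    apply hv
    show v.adicValuation (α v * β v) ≤ 1
    rw [map_mul]
    exact mul_le_one' hcon.1 hcon.2

/-- Under the place facts, the repartitions are exactly the families with finitely many
poles. -/
theorem mem_repartitions_iff (hP : PlaceFacts K F) (α : Place K F → F) :
    α ∈ repartitions K F ↔ {v : Place K F | v.ord (α v) < 0}.Finite := by
  constructor
  · intro hα
    refine (finite_of_mem_repartitions hP hα).subset ?_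
    intro v hv
    exact v.not_adicValuation_le_one_iff.mpr hv
  · exact mem_repartitions_of_finite_ord

/-- A repartition has only finitely many non-integral components. -/
theorem finite_not_mem_coe (hP : PlaceFacts K F) (α : ↥(repartitions K F)) :
    {v : Place K F | (α : Place K F → F) v ∉ v.toValuationSubring}.Finite := by
  refine (finite_of_mem_repartitions hP α.2).subset ?_
  intro v hv h1
  apply hv
  rcases v.adicValuation_le_one_iff.mp h1 with h0 | h0
  · rw [h0]; exact zero_mem _
  · exact Fermat.Agent.S24.mem_of_ord_nonneg v h0

/-- The local terms of the residue functional vanish at almost all places. -/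
theorem finite_support (hP : PlaceFacts K F) (h x : F) (α : ↥(repartitions K F)) :
    (Function.support fun v : Place K F => lres v ((α : Place K F → F) v * h) x).Finite := by
  refine (((finite_not_mem_coe hP α).union (finite_not_mem hP h)).union
    (finite_not_mem hP x)).subset ?_
  intro v hv
  by_contra hcon
  simp only [Set.mem_union, Set.mem_ofPred_eq, not_or, not_not] at hcon
  exact hv (lres_eq_zero_of_mem v (v.toValuationSubring.mul_mem _ _ hcon.1.1 hcon.1.2) hcon.2)

/-- The residue functional `α ↦ ∑_v res_v (α_v h dx)` on the repartitions. -/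
def theta (hP : PlaceFacts K F) (h x : F) : ↥(repartitions K F) →ₗ[K] K where
  toFun α := ∑ᶠ v : Place K F, lres v ((α : Place K F → F) v * h) x
  map_add' α β := by
    rw [← finsum_add_distrib (finite_support hP h x α) (finite_support hP h x β)]
    refine finsum_congr fun v => ?_
    rw [show ((α + β : ↥(repartitions K F)) : Place K F → F) v
        = (α : Place K F → F) v + (β : Place K F → F) v from rfl, add_mul,
      lres_add_left v (hP.hres v)]
  map_smul' c α := by
    rw [RingHom.id_apply, smul_eq_mul, mul_finsum]
    refine finsum_congr fun v => ?_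
    rw [show ((c • α : ↥(repartitions K F)) : Place K F → F) v
        = c • (α : Place K F → F) v from rfl, smul_mul_assoc, lres_smul_left v (hP.hres v)]

theorem theta_apply (hP : PlaceFacts K F) (h x : F) (α : ↥(repartitions K F)) :
    theta hP h x α = ∑ᶠ v : Place K F, lres v ((α : Place K F → F) v * h) x := rfl

end WeilDiff

open WeilDiff

/-- Package G2: from the residue theorem `∑_v res_v (f dg) = 0` to the residue functional of a
nonzero differential with all the properties needed for the duality theorem. -/
theorem exists_resFunctional_of_sum [CharZero K] (hP : PlaceFacts K F)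
    (hsum : ∀ f g : F, ∑ᶠ v : Place K F, lres v f g = 0)
    (ω : Ω[F⁄K]) (hω : ω ≠ 0) (W : Divisor K F)
    (hW : ∀ v : Place K F, W v = v.ordDifferential ω) :
    ∃ θ : ↥(repartitions K F) →ₗ[K] K,
      (∀ f : F, θ (diagRep K F f) = 0) ∧
      (∀ α ∈ repartitionsOf W, θ α = 0) ∧
      (∀ v : Place K F, ∃ α ∈ repartitionsOf (W + Finsupp.single v 1), θ α ≠ 0) := by
  obtain ⟨x, hx⟩ := hP.htr
  have := hP.hfd x hx
  have hspan : Submodule.span F {(D K F x : Ω[F⁄K])} = ⊤ :=
    Fermat.Agent.S24.span_D_eq_top x hx
  have hωmem : ω ∈ Submodule.span F {(D K F x : Ω[F⁄K])} := by rw [hspan]; exact Submodule.mem_top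
  obtain ⟨h, rfl⟩ := Submodule.mem_span_singleton.mp hωmem
  have hh : h ≠ 0 := by
    rintro rfl
    exact hω (zero_smul _ _)
  have hDx : ∀ v : Place K F, D K F x ≠ 0 := fun v =>
    Fermat.Agent.S24.D_ne_zero_of_span_eq_top v (hP.hres v) x hspan
  have hWv : ∀ v : Place K F, W v = v.ord h + v.ordDifferential (D K F x) := fun v => by
    rw [hW v]
    exact Fermat.Agent.S24.ordDifferential_smul_D v (hP.hres v) x hspan x (hDx v) h hh
  refine ⟨theta hP h x, ?_, ?_, ?_⟩
  · intro f
    rw [theta_apply]
    exact hsum (f * h) x
  · intro α hα
    rw [theta_apply]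
    refine finsum_eq_zero_of_forall_eq_zero fun v => ?_
    rcases mem_repartitionsOf_iff.mp hα v with h0 | h0
    · rw [h0, zero_mul]
      exact lres_zero_left v (hP.hres v) x
    · by_cases hαv : (α : Place K F → F) v = 0
      · rw [hαv, zero_mul]
        exact lres_zero_left v (hP.hres v) x
      · refine lres_eq_zero_of_ord' v (hP.hres v) x hspan _ (mul_ne_zero hαv hh) ?_
        rw [v.ord_mul hαv hh, add_assoc, ← hWv v]
        linarith
  · intro v
    obtain ⟨f₀, hf₀, hord, hone⟩ := exists_lres_eq_one' v (hP.hres v) x hspan
    refine ⟨singleRep v (f₀ * h⁻¹), ?_, ?_⟩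
    · rw [mem_repartitionsOf_iff]
      intro w
      by_cases hwv : w = v
      · rw [hwv]
        right
        rw [singleRep_apply_self, v.ord_mul hf₀ (inv_ne_zero hh), v.ord_inv, hord,
          Finsupp.add_apply, Finsupp.single_eq_same, hWv v]
        linarith
      · left
        exact singleRep_apply_of_ne hwv _
    · rw [theta_apply, finsum_eq_single _ v, singleRep_apply_self, inv_mul_cancel_right₀ hh, hone]
      · exact one_ne_zero
      · intro w hwv
        rw [singleRep_apply_of_ne hwv, zero_mul]
        exact lres_zero_left w (hP.hres w) x

end Fermat.Agent.RR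

end
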