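import Mathlib
import Fermat.Agent.RR.GlobalRes
import Fermat.Agent.RR.WeilDiff

/-!
# RR package G (final interface): the residue functional of a nonzero differential

`exists_resFunctional` is the only statement of package G used by the duality theorem: the
functional `θ α = ∑_v res_v (α_v ω)` on the repartitions kills the principal repartitions
(residue theorem, `sum_tres_eq_zero`), kills `repartitionsOf W` (`W = div ω`) and does not kill
`repartitionsOf (W + v)` for any place `v`.
-/

set_option autoImplicit false

namespace Fermat.Agent.RR

open AlgebraicCurve KaehlerDifferential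

variable {K F : Type*} [Field K] [Field F] [Algebra K F]

/-- The output of package G (everything `Duality` needs). -/
theorem exists_resFunctional [CharZero K] (hP : PlaceFacts K F) (hR : RiemannFacts K F)
    (ω : Ω[F⁄K]) (hω : ω ≠ 0) (W : Divisor K F)
    (hW : ∀ v : Place K F, W v = v.ordDifferential ω) :
    ∃ θ : ↥(repartitions K F) →ₗ[K] K,
      (∀ f : F, θ (diagRep K F f) = 0) ∧
      (∀ α ∈ repartitionsOf W, θ α = 0) ∧
      (∀ v : Place K F, ∃ α ∈ repartitionsOf (W + Finsupp.single v 1), θ α ≠ 0) :=
  exists_resFunctional_of_sum hP
    (fun f g => sum_tres_eq_zero placeSub (fun _ _ => Iff.rfl)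
      (fun v f => almostStable_mulLeft v (hP.hres v) f) (WeilDiff.finite_not_mem hP)
      (hR.finite_L 0) (hR.finite_H1 0) f g)
    ω hω W hW

end Fermat.Agent.RR
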