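import Fermat.Agent.RR.FinitePotent

/-!
# Projection-level forms of Tate's residue properties (R3), (R4) and invariance under surjections

For a subspace `A` of `V`, a projection `π` onto `A` and endomorphisms `f g`, Tate's residue is
the finite-potent trace of `(π ∘ₗ g - g ∘ₗ π) ∘ₗ f`.  This file proves the three heavy
properties directly for these traces, for suitably chosen projections.
-/

set_option autoImplicit false

namespace Fermat.Agent.RR

variable {K V : Type*} [Field K] [AddCommGroup V] [Module K V]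

namespace ResidueProj

/-- `A` is contained in `B` up to a finite-dimensional subspace. -/
def ALE (A B : Submodule K V) : Prop :=
  ∃ W : Submodule K V, FiniteDimensional K W ∧ A ≤ B ⊔ W

theorem ALE.of_le {A B : Submodule K V} (h : A ≤ B) : ALE A B :=
  ⟨⊥, inferInstance, h.trans le_sup_left⟩

theorem ALE.of_fd (A B : Submodule K V) [FiniteDimensional K A] : ALE A B :=
  ⟨A, inferInstance, le_sup_right⟩

theorem ALE.trans {A B C : Submodule K V} (h₁ : ALE A B) (h₂ : ALE B C) : ALE A C := by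
  obtain ⟨W₁, hW₁, h₁⟩ := h₁
  obtain ⟨W₂, hW₂, h₂⟩ := h₂
  refine ⟨W₂ ⊔ W₁, inferInstance, h₁.trans ?_⟩
  rw [← sup_assoc]
  exact sup_le_sup_right h₂ W₁

theorem ALE.mono_left {A A' B : Submodule K V} (h : A' ≤ A) (h₁ : ALE A B) : ALE A' B :=
  (ALE.of_le h).trans h₁

theorem ALE.mono_right {A B B' : Submodule K V} (h₁ : ALE A B) (h : B ≤ B') : ALE A B' :=
  h₁.trans (ALE.of_le h)

theorem ALE.map {V' : Type*} [AddCommGroup V'] [Module K V'] {A B : Submodule K V}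
    (h : ALE A B) (θ : V →ₗ[K] V') : ALE (A.map θ) (B.map θ) := by
  obtain ⟨W, hW, h⟩ := h
  refine ⟨W.map θ, inferInstance, ?_⟩
  rw [← Submodule.map_sup]
  exact Submodule.map_mono h

theorem ALE.sup {A B C : Submodule K V} (h₁ : ALE A C) (h₂ : ALE B C) : ALE (A ⊔ B) C := by
  obtain ⟨W₁, hW₁, h₁⟩ := h₁
  obtain ⟨W₂, hW₂, h₂⟩ := h₂
  exact ⟨W₁ ⊔ W₂, inferInstance, sup_le (h₁.trans (sup_le_sup_left le_sup_left C))
    (h₂.trans (sup_le_sup_left le_sup_right C))⟩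

theorem ALE.fd {A : Submodule K V} (h : ALE A ⊥) : FiniteDimensional K A := by
  obtain ⟨W, hW, h⟩ := h
  rw [bot_sup_eq] at h
  exact Submodule.finiteDimensional_of_le h

theorem ALE.of_fd_bot {A : Submodule K V} (h : FiniteDimensional K A) (B : Submodule K V) :
    ALE A B := ALE.of_fd A B

/-- Core lemma: if `X ≤ A ⊔ W₁` with `W₁` finite-dimensional, then `X ≤ (X ⊓ A) ⊔ W` for a
finite-dimensional `W`. -/
theorem exists_fd_sup_inf (X A W₁ : Submodule K V) [FiniteDimensional K W₁] (h : X ≤ A ⊔ W₁) :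
    ∃ W : Submodule K V, FiniteDimensional K W ∧ X ≤ (X ⊓ A) ⊔ W := by
  let φ : X →ₗ[K] V ⧸ A := A.mkQ.domRestrict X
  obtain ⟨Q, hQ⟩ := Submodule.exists_isCompl (LinearMap.ker φ)
  have hφ : ∀ x : X, φ x ∈ W₁.map A.mkQ := by
    intro x
    obtain ⟨a, ha, w, hw, hx⟩ := Submodule.mem_sup.mp (h x.2)
    refine ⟨w, hw, ?_⟩
    change A.mkQ w = A.mkQ (x : V)
    have ha0 : A.mkQ a = 0 := (Submodule.Quotient.mk_eq_zero A).mpr ha
    rw [← hx, map_add, ha0, zero_add]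
  let ψ : Q →ₗ[K] W₁.map A.mkQ := (φ.codRestrict (W₁.map A.mkQ) hφ) ∘ₗ Q.subtype
  have hψ : Function.Injective ψ := by
    rw [← LinearMap.ker_eq_bot, LinearMap.ker_eq_bot']
    intro q hq
    have h1 : φ (q : X) = 0 := congrArg Subtype.val hq
    have h2 : (q : X) ∈ LinearMap.ker φ ⊓ Q := ⟨h1, q.2⟩
    rw [hQ.inf_eq_bot] at h2
    exact Subtype.ext ((Submodule.mem_bot K).mp h2)
  have hQfd : FiniteDimensional K Q := FiniteDimensional.of_injective ψ hψ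
  refine ⟨Q.map X.subtype, inferInstance, ?_⟩
  intro x hx
  have hx' : (⟨x, hx⟩ : X) ∈ LinearMap.ker φ ⊔ Q := by rw [hQ.sup_eq_top]; exact Submodule.mem_top
  obtain ⟨n, hn, q, hq, hnq⟩ := Submodule.mem_sup.mp hx'
  have hx2 : x = (n : V) + (q : V) := by
    have := congrArg Subtype.val hnq
    simpa using this.symm
  rw [hx2]
  refine Submodule.add_mem_sup ⟨n.2, ?_⟩ ⟨q, hq, rfl⟩
  exact (Submodule.Quotient.mk_eq_zero A).mp hn

theorem ALE.inf {X A B : Submodule K V} (h₁ : ALE X A) (h₂ : ALE X B) : ALE X (A ⊓ B) := by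
  obtain ⟨W₁, hW₁, h₁⟩ := h₁
  obtain ⟨W₂, hW₂, h₂⟩ := h₂
  obtain ⟨W, hW, h⟩ := exists_fd_sup_inf X A W₁ h₁
  obtain ⟨W', hW', h'⟩ := exists_fd_sup_inf (X ⊓ A) B W₂ (inf_le_left.trans h₂)
  refine ⟨W' ⊔ W, inferInstance, h.trans ?_⟩
  rw [← sup_assoc]
  refine sup_le_sup_right (h'.trans (sup_le_sup_right ?_ W')) W
  exact le_inf (inf_le_left.trans inf_le_right) inf_le_right

/-- A projection onto `A` vanishing on a subspace `B₁` disjoint from `A`. -/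
theorem exists_proj_of_disjoint (A B₁ : Submodule K V) (h : Disjoint A B₁) :
    ∃ π : V →ₗ[K] V, (∀ v, π v ∈ A) ∧ (∀ a ∈ A, π a = a) ∧ ∀ b ∈ B₁, π b = 0 := by
  obtain ⟨D, hD⟩ := Submodule.exists_isCompl (A ⊔ B₁)
  have hC : IsCompl A (B₁ ⊔ D) := h.isCompl_sup_right_of_isCompl_sup_left hD
  exact ⟨A.projection (B₁ ⊔ D) hC, fun v => Submodule.projection_apply_mem hC v,
    fun a ha => Submodule.projection_apply_of_mem_left hC ha,
    fun b hb => Submodule.projection_apply_of_mem_right hC (Submodule.mem_sup_left hb)⟩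

/-- Every subspace is the image of a projection. -/
theorem exists_proj (A : Submodule K V) :
    ∃ π : V →ₗ[K] V, (∀ v, π v ∈ A) ∧ ∀ a ∈ A, π a = a := by
  obtain ⟨π, h1, h2, -⟩ := exists_proj_of_disjoint A ⊥ disjoint_bot_right
  exact ⟨π, h1, h2⟩

/-- The endomorphism `[π, g] ∘ f` whose trace is Tate's residue. -/
def tθ (π g f : V →ₗ[K] V) : V →ₗ[K] V := (π ∘ₗ g - g ∘ₗ π) ∘ₗ f

theorem tθ_apply (π g f : V →ₗ[K] V) (v : V) : tθ π g f v = π (g (f v)) - g (π (f v)) := rfl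

theorem tθ_add (π π' g f : V →ₗ[K] V) : tθ (π + π') g f = tθ π g f + tθ π' g f := by
  ext v
  simp only [tθ_apply, LinearMap.add_apply, map_add]
  abel

theorem tθ_sub (π π' g f : V →ₗ[K] V) : tθ (π - π') g f = tθ π g f - tθ π' g f := by
  ext v
  simp only [tθ_apply, LinearMap.sub_apply, map_sub]
  abel

/-- `[π, g] f` maps `V` into `P` up to finite dimension. -/
theorem range_tθ_ale {P : Submodule K V} {π g : V →ₗ[K] V} (f : V →ₗ[K] V)
    (hπP : ∀ v, π v ∈ P) (hg : ALE (P.map g) P) : ALE (LinearMap.range (tθ π g f)) P := by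
  have h : LinearMap.range (tθ π g f) ≤ P ⊔ P.map g := by
    rintro _ ⟨v, rfl⟩
    rw [tθ_apply]
    exact Submodule.sub_mem _ (Submodule.mem_sup_left (hπP _))
      (Submodule.mem_sup_right ⟨_, hπP _, rfl⟩)
  exact (ALE.of_le h).trans ((ALE.of_le le_rfl).sup hg)

/-- `[π, g]` maps `P` into a finite-dimensional space. -/
theorem map_comm_ale_bot {P : Submodule K V} {π g : V →ₗ[K] V}
    (hπ : ∀ a ∈ P, π a = a) (hg : ALE (P.map g) P) :
    ALE (P.map (π ∘ₗ g - g ∘ₗ π)) ⊥ := by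
  obtain ⟨W, hW, hgW⟩ := hg
  refine ⟨W.map (π - 1), inferInstance, ?_⟩
  rw [bot_sup_eq]
  rintro _ ⟨a, ha, rfl⟩
  obtain ⟨p, hp, w, hw, hpw⟩ := Submodule.mem_sup.mp (hgW ⟨a, ha, rfl⟩)
  refine ⟨w, hw, ?_⟩
  simp only [LinearMap.sub_apply, LinearMap.comp_apply, Module.End.one_apply, hπ a ha]
  rw [← hpw, map_add, hπ p hp]
  abel

/-- `[π, g] f` maps `P` into a finite-dimensional space. -/
theorem map_tθ_ale_bot {P : Submodule K V} {π g f : V →ₗ[K] V}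
    (hπ : ∀ a ∈ P, π a = a) (hf : ALE (P.map f) P) (hg : ALE (P.map g) P) :
    ALE (P.map (tθ π g f)) ⊥ := by
  have h : P.map (tθ π g f) = (P.map f).map (π ∘ₗ g - g ∘ₗ π) := by
    rw [tθ, Submodule.map_comp]
  rw [h]
  exact (hf.map _).trans (map_comm_ale_bot hπ hg)

/-- Cross term: if `π` maps `B` into `I`, then `[π, g] f` maps `B` into `I` up to finite
dimension. -/
theorem map_tθ_cross {B I : Submodule K V} {π g f : V →ₗ[K] V}
    (hπB : ∀ b ∈ B, π b ∈ I) (hfB : ALE (B.map f) B) (hgB : ALE (B.map g) B)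
    (hgI : ALE (I.map g) I) : ALE (B.map (tθ π g f)) I := by
  have h : B.map (tθ π g f) = (B.map f).map (π ∘ₗ g - g ∘ₗ π) := by
    rw [tθ, Submodule.map_comp]
  rw [h]
  refine (hfB.map _).trans ?_
  have h1 : B.map (π ∘ₗ g - g ∘ₗ π) ≤ (B.map g).map π ⊔ (B.map π).map g := by
    rintro _ ⟨b, hb, rfl⟩
    exact Submodule.sub_mem _ (Submodule.mem_sup_left ⟨g b, ⟨b, hb, rfl⟩, rfl⟩)
      (Submodule.mem_sup_right ⟨π b, ⟨b, hb, rfl⟩, rfl⟩)
  have hBπ : B.map π ≤ I := by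
    rintro _ ⟨b, hb, rfl⟩
    exact hπB b hb
  refine (ALE.of_le h1).trans (ALE.sup ?_ ?_)
  · exact (hgB.map π).mono_right hBπ
  · exact ALE.mono_left (Submodule.map_mono hBπ) hgI

/-- Tate's finite-potent subspace attached to the flag `V ⊇ S ⊇ I ⊇ 0`. -/
def InF (S I : Submodule K V) (θ : V →ₗ[K] V) : Prop :=
  ALE (LinearMap.range θ) S ∧ ALE (S.map θ) I ∧ ALE (I.map θ) ⊥

theorem fd_range_prod_of_inF {S I : Submodule K V} {a b c : V →ₗ[K] V}
    (ha : InF S I a) (hb : InF S I b) (hc : InF S I c) :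
    FiniteDimensional K (LinearMap.range (a * (b * c))) := by
  have h : LinearMap.range (a * (b * c)) = ((LinearMap.range c).map b).map a := by
    rw [Module.End.mul_eq_comp, Module.End.mul_eq_comp, LinearMap.range_comp, LinearMap.range_comp]
  rw [h]
  exact ALE.fd ((((hc.1.map b).trans hb.2.1).map a).trans ha.2.2)

theorem ftr_add_of_inF {S I : Submodule K V} {θ₁ θ₂ : V →ₗ[K] V}
    (h₁ : InF S I θ₁) (h₂ : InF S I θ₂) : ftr (θ₁ + θ₂) = ftr θ₁ + ftr θ₂ := by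
  refine ftr_add θ₁ θ₂ 3 ?_
  intro l hl hmem
  obtain ⟨a, b, c, rfl⟩ := List.length_eq_three.mp hl
  have hin : ∀ θ ∈ [a, b, c], InF S I θ := by
    intro θ hθ
    rcases hmem θ hθ with rfl | rfl
    · exact h₁
    · exact h₂
  have hp : [a, b, c].prod = a * (b * c) := by simp
  rw [hp]
  exact fd_range_prod_of_inF (hin a (by simp)) (hin b (by simp)) (hin c (by simp))

end ResidueProj

open ResidueProj

/-- `f (A ⊔ B) ≺ A ⊔ B` if `f A ≺ A` and `f B ≺ B`. -/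
theorem almostStable_sup' (A B : Submodule K V) {f : V →ₗ[K] V}
    (hfA : ∃ W : Submodule K V, FiniteDimensional K W ∧ A.map f ≤ A ⊔ W)
    (hfB : ∃ W : Submodule K V, FiniteDimensional K W ∧ B.map f ≤ B ⊔ W) :
    ∃ W : Submodule K V, FiniteDimensional K W ∧ (A ⊔ B).map f ≤ (A ⊔ B) ⊔ W := by
  rw [Submodule.map_sup]
  exact ALE.sup (ALE.mono_right hfA le_sup_left) (ALE.mono_right hfB le_sup_right)

/-- `f (A ⊓ B) ≺ A ⊓ B` if `f A ≺ A` and `f B ≺ B`. -/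
theorem almostStable_inf' (A B : Submodule K V) {f : V →ₗ[K] V}
    (hfA : ∃ W : Submodule K V, FiniteDimensional K W ∧ A.map f ≤ A ⊔ W)
    (hfB : ∃ W : Submodule K V, FiniteDimensional K W ∧ B.map f ≤ B ⊔ W) :
    ∃ W : Submodule K V, FiniteDimensional K W ∧ (A ⊓ B).map f ≤ (A ⊓ B) ⊔ W :=
  ALE.inf (ALE.mono_left (Submodule.map_mono inf_le_left) hfA)
    (ALE.mono_left (Submodule.map_mono inf_le_right) hfB)

/-- (R4), projection level: for suitable projections onto `A`, `B`, `A ⊔ B`, `A ⊓ B` the four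
finite-potent traces satisfy `res_A + res_B = res_(A+B) + res_(A∩B)`. -/
theorem exists_proj_ftr_add (A B : Submodule K V) {f g : V →ₗ[K] V}
    (hfA : ∃ W : Submodule K V, FiniteDimensional K W ∧ A.map f ≤ A ⊔ W)
    (hgA : ∃ W : Submodule K V, FiniteDimensional K W ∧ A.map g ≤ A ⊔ W)
    (hfB : ∃ W : Submodule K V, FiniteDimensional K W ∧ B.map f ≤ B ⊔ W)
    (hgB : ∃ W : Submodule K V, FiniteDimensional K W ∧ B.map g ≤ B ⊔ W) :
    ∃ πA πB πS πI : V →ₗ[K] V,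
      ((∀ v, πA v ∈ A) ∧ ∀ a ∈ A, πA a = a) ∧ ((∀ v, πB v ∈ B) ∧ ∀ a ∈ B, πB a = a) ∧
      ((∀ v, πS v ∈ A ⊔ B) ∧ ∀ a ∈ A ⊔ B, πS a = a) ∧
      ((∀ v, πI v ∈ A ⊓ B) ∧ ∀ a ∈ A ⊓ B, πI a = a) ∧
      ftr ((πA ∘ₗ g - g ∘ₗ πA) ∘ₗ f) + ftr ((πB ∘ₗ g - g ∘ₗ πB) ∘ₗ f) =
        ftr ((πS ∘ₗ g - g ∘ₗ πS) ∘ₗ f) + ftr ((πI ∘ₗ g - g ∘ₗ πI) ∘ₗ f) := by
  have hfS := almostStable_sup' A B hfA hfB
  have hgS := almostStable_sup' A B hgA hgB
  have hfI := almostStable_inf' A B hfA hfB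
  have hgI := almostStable_inf' A B hgA hgB
  -- a complement `D` of `A ⊓ B`
  obtain ⟨D, hD⟩ := Submodule.exists_isCompl (A ⊓ B)
  have hAD : A ≤ (A ⊓ B) ⊔ (D ⊓ A) := by
    have h := sup_inf_assoc_of_le D (inf_le_left : A ⊓ B ≤ A)
    rw [hD.sup_eq_top, top_inf_eq] at h
    exact h.le
  have hBD : B ≤ (A ⊓ B) ⊔ (D ⊓ B) := by
    have h := sup_inf_assoc_of_le D (inf_le_right : A ⊓ B ≤ B)
    rw [hD.sup_eq_top, top_inf_eq] at h
    exact h.le
  have hdisjA : Disjoint A (D ⊓ B) := by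
    rw [disjoint_iff_inf_le]
    intro x hx
    have : x ∈ (A ⊓ B) ⊓ D := ⟨⟨hx.1, hx.2.2⟩, hx.2.1⟩
    rwa [hD.inf_eq_bot] at this
  have hdisjB : Disjoint B (D ⊓ A) := by
    rw [disjoint_iff_inf_le]
    intro x hx
    have : x ∈ (A ⊓ B) ⊓ D := ⟨⟨hx.2.2, hx.1⟩, hx.2.1⟩
    rwa [hD.inf_eq_bot] at this
  obtain ⟨πA, hπA1, hπA2, hπA3⟩ := exists_proj_of_disjoint A (D ⊓ B) hdisjA
  obtain ⟨πB, hπB1, hπB2, hπB3⟩ := exists_proj_of_disjoint B (D ⊓ A) hdisjB
  have hπAB : ∀ b ∈ B, πA b ∈ A ⊓ B := by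
    intro b hb
    obtain ⟨i, hi, d, hd, rfl⟩ := Submodule.mem_sup.mp (hBD hb)
    rw [map_add, hπA2 i hi.1, hπA3 d hd, add_zero]
    exact hi
  have hπBA : ∀ a ∈ A, πB a ∈ A ⊓ B := by
    intro a ha
    obtain ⟨i, hi, d, hd, rfl⟩ := Submodule.mem_sup.mp (hAD ha)
    rw [map_add, hπB2 i hi.2, hπB3 d hd, add_zero]
    exact hi
  -- the projections onto the intersection and the sum
  have hI1 : ∀ v, (πA ∘ₗ πB) v ∈ A ⊓ B := fun v => hπAB _ (hπB1 v)
  have hI2 : ∀ a ∈ A ⊓ B, (πA ∘ₗ πB) a = a := by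
    intro a ha
    rw [LinearMap.comp_apply, hπB2 a ha.2, hπA2 a ha.1]
  have hS1 : ∀ v, (πA + πB - πA ∘ₗ πB) v ∈ A ⊔ B := by
    intro v
    refine Submodule.sub_mem _ (Submodule.add_mem_sup (hπA1 v) (hπB1 v)) ?_
    exact Submodule.mem_sup_left (hI1 v).1
  have hS2 : ∀ a ∈ A ⊔ B, (πA + πB - πA ∘ₗ πB) a = a := by
    intro s hs
    obtain ⟨a, ha, b, hb, rfl⟩ := Submodule.mem_sup.mp hs
    have h1 : πA (πB a) = πB a := hπA2 _ (hπBA a ha).1
    simp only [LinearMap.sub_apply, LinearMap.add_apply, LinearMap.comp_apply, map_add,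
      hπA2 a ha, hπB2 b hb, h1]
    abel
  refine ⟨πA, πB, πA + πB - πA ∘ₗ πB, πA ∘ₗ πB, ⟨hπA1, hπA2⟩, ⟨hπB1, hπB2⟩, ⟨hS1, hS2⟩,
    ⟨hI1, hI2⟩, ?_⟩
  -- the four endomorphisms lie in the finite-potent subspace of the flag `V ⊇ A ⊔ B ⊇ A ⊓ B ⊇ 0`
  have hA : InF (A ⊔ B) (A ⊓ B) (tθ πA g f) := by
    refine ⟨(range_tθ_ale f hπA1 hgA).mono_right le_sup_left, ?_,
      ALE.mono_left (Submodule.map_mono inf_le_left) (map_tθ_ale_bot hπA2 hfA hgA)⟩
    rw [Submodule.map_sup]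
    exact ALE.sup ((map_tθ_ale_bot hπA2 hfA hgA).mono_right bot_le)
      (map_tθ_cross hπAB hfB hgB hgI)
  have hB : InF (A ⊔ B) (A ⊓ B) (tθ πB g f) := by
    refine ⟨(range_tθ_ale f hπB1 hgB).mono_right le_sup_right, ?_,
      ALE.mono_left (Submodule.map_mono inf_le_right) (map_tθ_ale_bot hπB2 hfB hgB)⟩
    rw [Submodule.map_sup]
    exact ALE.sup (map_tθ_cross hπBA hfA hgA hgI)
      ((map_tθ_ale_bot hπB2 hfB hgB).mono_right bot_le)
  have hS : InF (A ⊔ B) (A ⊓ B) (tθ (πA + πB - πA ∘ₗ πB) g f) := by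
    have h := map_tθ_ale_bot hS2 hfS hgS
    exact ⟨range_tθ_ale f hS1 hgS, h.mono_right bot_le,
      ALE.mono_left (Submodule.map_mono (inf_le_left.trans le_sup_left)) h⟩
  have hI : InF (A ⊔ B) (A ⊓ B) (tθ (πA ∘ₗ πB) g f) := by
    have h := range_tθ_ale f hI1 hgI
    exact ⟨h.mono_right (inf_le_left.trans le_sup_left),
      ALE.mono_left (LinearMap.map_le_range) h, map_tθ_ale_bot hI2 hfI hgI⟩
  have hsum : tθ πA g f + tθ πB g f = tθ (πA + πB - πA ∘ₗ πB) g f + tθ (πA ∘ₗ πB) g f := by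
    rw [← tθ_add, ← tθ_add, sub_add_cancel]
  change ftr (tθ πA g f) + ftr (tθ πB g f) =
    ftr (tθ (πA + πB - πA ∘ₗ πB) g f) + ftr (tθ (πA ∘ₗ πB) g f)
  rw [← ftr_add_of_inF hA hB, ← ftr_add_of_inF hS hI, hsum]

/-- (R3), projection level: if `g` is invertible with `g A ⊆ A` of finite codimension, then
for any projection `π` onto `A` the trace of `[π, g] g⁻¹` is `dim (A / g A)`. -/
theorem ftr_comm_inv_self (A : Submodule K V) {g g' : V →ₗ[K] V} (hgg' : g * g' = 1)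
    (hg'g : g' * g = 1) (hg : ∀ a ∈ A, g a ∈ A)
    [FiniteDimensional K (↥A ⧸ (A.map g).comap A.subtype)] (π : V →ₗ[K] V)
    (hπA : ∀ v, π v ∈ A) (hπ : ∀ a ∈ A, π a = a) :
    ftr ((π ∘ₗ g - g ∘ₗ π) ∘ₗ g') =
      (Module.finrank K (↥A ⧸ (A.map g).comap A.subtype) : K) := by
  have h1 : ∀ v, g (g' v) = v := fun v => by
    rw [← Module.End.mul_apply, hgg', Module.End.one_apply]
  have h2 : ∀ v, g' (g v) = v := fun v => by
    rw [← Module.End.mul_apply, hg'g, Module.End.one_apply]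
  have hgA : A.map g ≤ A := by
    rintro _ ⟨a, ha, rfl⟩
    exact hg a ha
  -- `ρ = g π g⁻¹` is a projection onto `g A`, and `θ = π - ρ`
  have hθv : ∀ v, ((π ∘ₗ g - g ∘ₗ π) ∘ₗ g') v = π v - g (π (g' v)) := fun v => by
    simp only [LinearMap.comp_apply, LinearMap.sub_apply, h1]
  generalize (π ∘ₗ g - g ∘ₗ π) ∘ₗ g' = θ at hθv
  have hρA : ∀ v, g (π (g' v)) ∈ A.map g := fun v => ⟨π (g' v), hπA _, rfl⟩
  have hρ : ∀ x ∈ A.map g, g (π (g' x)) = x := by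
    rintro _ ⟨a, ha, rfl⟩
    rw [h2, hπ a ha]
  let ρ : V →ₗ[K] V := g ∘ₗ π ∘ₗ g'
  let C : Submodule K V := A ⊓ LinearMap.ker ρ
  have hθA : ∀ v, θ v ∈ A := fun v => by
    rw [hθv]
    exact A.sub_mem (hπA v) (hgA (hρA v))
  have hθC : ∀ a ∈ A, θ a ∈ C := by
    intro a ha
    refine ⟨hθA a, ?_⟩
    change g (π (g' (θ a))) = 0
    rw [hθv, map_sub, map_sub, map_sub, hπ a ha, hρ _ (hρA a), sub_self]
  have hCid : ∀ c ∈ C, θ c = c := by
    intro c hc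
    have h0 : g (π (g' c)) = 0 := hc.2
    rw [hθv, hπ c hc.1, h0, sub_zero]
  have hCstable : ∀ c ∈ C, θ c ∈ C := fun c hc => hθC c hc.1
  -- `C ≃ A ⧸ g A`
  let e : C →ₗ[K] ↥A ⧸ (A.map g).comap A.subtype :=
    ((A.map g).comap A.subtype).mkQ ∘ₗ Submodule.inclusion (inf_le_left : C ≤ A)
  have he_inj : Function.Injective e := by
    rw [← LinearMap.ker_eq_bot, LinearMap.ker_eq_bot']
    intro c hc
    have hc1 : (Submodule.inclusion (inf_le_left : C ≤ A) c) ∈ (A.map g).comap A.subtype :=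
      (Submodule.Quotient.mk_eq_zero _).mp hc
    have hc2 : (c : V) ∈ A.map g := hc1
    have hc3 : g (π (g' (c : V))) = 0 := c.2.2
    apply Subtype.ext
    rw [← hρ _ hc2, hc3]
    rfl
  have he_surj : Function.Surjective e := by
    intro x
    obtain ⟨a, rfl⟩ := ((A.map g).comap A.subtype).mkQ_surjective x
    refine ⟨⟨θ a, hθC a a.2⟩, ?_⟩
    change ((A.map g).comap A.subtype).mkQ _ = ((A.map g).comap A.subtype).mkQ a
    rw [← sub_eq_zero, ← map_sub]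
    refine (Submodule.Quotient.mk_eq_zero _).mpr ?_
    change θ (a : V) - (a : V) ∈ A.map g
    rw [hθv, hπ _ a.2, sub_sub_cancel_left]
    exact (A.map g).neg_mem (hρA _)
  let E : C ≃ₗ[K] ↥A ⧸ (A.map g).comap A.subtype := LinearEquiv.ofBijective e ⟨he_inj, he_surj⟩
  have hCfd : FiniteDimensional K C := E.symm.finiteDimensional
  have hrange : LinearMap.range (θ ^ 2) ≤ C := by
    rintro _ ⟨v, rfl⟩
    rw [pow_two, Module.End.mul_apply]
    exact hθC _ (hθA v)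
  rw [ftr_eq_trace_restrict θ C hCstable 2 hrange]
  have hone : θ.restrict hCstable = 1 := by
    ext c
    exact hCid c c.2
  rw [hone, LinearMap.trace_one, E.finrank_eq]

/-- `f (p⁻¹ A') ≺ p⁻¹ A'` if `f` lifts `f'` along a surjection `p` and `f' A' ≺ A'`. -/
theorem almostStable_comap' {V' : Type*} [AddCommGroup V'] [Module K V'] (p : V →ₗ[K] V')
    (hp : Function.Surjective p) (A' : Submodule K V') {f : V →ₗ[K] V} {f' : V' →ₗ[K] V'}
    (hf : p ∘ₗ f = f' ∘ₗ p)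
    (hf' : ∃ W' : Submodule K V', FiniteDimensional K W' ∧ A'.map f' ≤ A' ⊔ W') :
    ∃ W : Submodule K V, FiniteDimensional K W ∧ (A'.comap p).map f ≤ A'.comap p ⊔ W := by
  obtain ⟨s, hs⟩ := LinearMap.exists_rightInverse_of_surjective p (LinearMap.range_eq_top.mpr hp)
  obtain ⟨W', hW', h⟩ := hf'
  refine ⟨W'.map s, inferInstance, ?_⟩
  rintro _ ⟨a, ha, rfl⟩
  have h1 : p (f a) ∈ A' ⊔ W' := by
    have h0 : p (f a) = f' (p a) := LinearMap.congr_fun hf a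
    rw [h0]
    exact h ⟨p a, ha, rfl⟩
  obtain ⟨a', ha', w', hw', h2⟩ := Submodule.mem_sup.mp h1
  have h3 : f a = (f a - s w') + s w' := by abel
  rw [h3]
  refine Submodule.add_mem_sup ?_ ⟨w', hw', rfl⟩
  change p (f a - s w') ∈ A'
  have h4 : p (s w') = w' := LinearMap.congr_fun hs w'
  rw [map_sub, h4, ← h2, add_sub_cancel_right]
  exact ha'

/-- Invariance under surjections, projection level: if `f g` lift `f' g'` along a surjection `p`
and `π'` is a projection onto `A'`, there is a projection `π` onto `p⁻¹ A'` such that the traces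
of `[π, g] f` and `[π', g'] f'` agree. -/
theorem exists_proj_ftr_comap {V' : Type*} [AddCommGroup V'] [Module K V'] (p : V →ₗ[K] V')
    (hp : Function.Surjective p) (A' : Submodule K V') {f g : V →ₗ[K] V} {f' g' : V' →ₗ[K] V'}
    (hf : p ∘ₗ f = f' ∘ₗ p) (hg : p ∘ₗ g = g' ∘ₗ p) (π' : V' →ₗ[K] V')
    (hπ'A : ∀ v, π' v ∈ A') (hπ' : ∀ a ∈ A', π' a = a) :
    ∃ π : V →ₗ[K] V, (∀ v, π v ∈ A'.comap p) ∧ (∀ a ∈ A'.comap p, π a = a) ∧
      ftr ((π ∘ₗ g - g ∘ₗ π) ∘ₗ f) = ftr ((π' ∘ₗ g' - g' ∘ₗ π') ∘ₗ f') := by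
  obtain ⟨s, hs⟩ := LinearMap.exists_rightInverse_of_surjective p (LinearMap.range_eq_top.mpr hp)
  have hps : ∀ x, p (s x) = x := fun x => LinearMap.congr_fun hs x
  have hfp : ∀ v, p (f v) = f' (p v) := fun v => LinearMap.congr_fun hf v
  have hgp : ∀ v, p (g v) = g' (p v) := fun v => LinearMap.congr_fun hg v
  let π : V →ₗ[K] V := 1 - s ∘ₗ p + s ∘ₗ π' ∘ₗ p
  have hπv : ∀ v, π v = v - s (p v) + s (π' (p v)) := fun v => rfl
  have hpπ : ∀ v, p (π v) = π' (p v) := by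
    intro v
    rw [hπv, map_add, map_sub, hps, hps, sub_self, zero_add]
  have hπker : ∀ n, p n = 0 → π n = n := by
    intro n hn
    rw [hπv, hn, map_zero, map_zero, map_zero, sub_zero, add_zero]
  refine ⟨π, fun v => ?_, fun a ha => ?_, ?_⟩
  · change p (π v) ∈ A'
    rw [hpπ]
    exact hπ'A _
  · have ha' : p a ∈ A' := ha
    rw [hπv, hπ' _ ha', sub_add_cancel]
  · have hθv : ∀ v, ((π ∘ₗ g - g ∘ₗ π) ∘ₗ f) v = π (g (f v)) - g (π (f v)) := fun v => rfl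
    have hθ'v : ∀ v, ((π' ∘ₗ g' - g' ∘ₗ π') ∘ₗ f') v = π' (g' (f' v)) - g' (π' (f' v)) :=
      fun v => rfl
    generalize (π ∘ₗ g - g ∘ₗ π) ∘ₗ f = θ at hθv
    generalize (π' ∘ₗ g' - g' ∘ₗ π') ∘ₗ f' = θ' at hθ'v
    have hpθ : ∀ v, p (θ v) = θ' (p v) := by
      intro v
      rw [hθv, hθ'v, map_sub, hpπ, hgp, hfp, hgp, hpπ, hfp]
    have hθker : ∀ n, p n = 0 → θ n = 0 := by
      intro n hn
      have h1 : p (f n) = 0 := by rw [hfp, hn, map_zero]
      have h2 : p (g (f n)) = 0 := by rw [hgp, h1, map_zero]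
      rw [hθv, hπker _ h2, hπker _ h1, sub_self]
    have e1 : (θ ∘ₗ s) ∘ₗ p = θ := by
      ext v
      have h0 : θ (v - s (p v)) = 0 := hθker _ (by rw [map_sub, hps, sub_self])
      rw [map_sub, sub_eq_zero] at h0
      exact h0.symm
    have e2 : p ∘ₗ (θ ∘ₗ s) = θ' := by
      ext x
      simp only [LinearMap.comp_apply]
      rw [hpθ, hps]
    by_cases hfin : IsFinitePotent θ
    · have h := (ftr_comp_comm (θ ∘ₗ s) p (by rw [e1]; exact hfin)).2
      rwa [e1, e2] at h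
    · have hfin' : ¬ IsFinitePotent θ' := by
        intro h
        have h' := (ftr_comp_comm p (θ ∘ₗ s) (by rw [e2]; exact h)).1
        rw [e1] at h'
        exact hfin h'
      rw [FinitePotent.ftr_eq_zero_of_not θ hfin, FinitePotent.ftr_eq_zero_of_not θ' hfin']

end Fermat.Agent.RR
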