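import Mathlib
import Fermat.Agent.RR.RRFinal
import Fermat.Agent.RR.DictC
import Fermat.Agent.ES.Final
import Fermat.Agent.ES.Injective

set_option autoImplicit false

open UpperHalfPlane AlgebraicCurve
open scoped Manifold MatrixGroups

namespace Fermat.Agent.RR

open Fermat.Agent.S24

/-- S20 from half (B) of the dictionary + RR* + the ES upper bound (no half (A) needed). -/
theorem finrank_cuspForm_eq_genusFormula_of_B (N : ℕ) [NeZero N]
    (hB : ∀ (W : Divisor ℂ (FK ℂ N)),
      (∀ v : Place ℂ (FK ℂ N), W v = v.ordDifferential (KaehlerDifferential.D ℂ (FK ℂ N) (xgen ℂ N))) →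
      ∀ y ∈ riemannRochSpace W, ∃ f : CuspForm (CongruenceSubgroup.Gamma0 N) 2, IsDict N y ⇑f) :
    (Module.finrank ℂ (CuspForm (CongruenceSubgroup.Gamma0 N) 2) : ℚ) =
      ModularCurve.genusFormula N := by
  obtain ⟨hD, W, hW⟩ := exists_divisor_D_xgen ℂ (RingHom.id ℂ) N
  have hL := finrank_riemannRochSpace_FK ℂ (RingHom.id ℂ) N _ hD W hW
  obtain ⟨hfin, g, hg, hle⟩ := Fermat.Agent.ES.finrank_cuspForm_le_of_injective N
    (Fermat.Agent.ES.periodHomPair_injective N)
  obtain ⟨-, hle2⟩ := finrank_le_of_B N (riemannRochSpace W) (hB W hW)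
  have h1 : (Module.finrank ℂ (riemannRochSpace W) : ℚ) = (g : ℚ) := by rw [hL, hg]
  have h2 : Module.finrank ℂ (riemannRochSpace W) = g := by exact_mod_cast h1
  rw [← hg]
  have h3 : Module.finrank ℂ (CuspForm (CongruenceSubgroup.Gamma0 N) 2) = g :=
    le_antisymm hle (h2 ▸ hle2)
  exact_mod_cast h3

end Fermat.Agent.RR
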